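import Fermat.Statements.S02

set_option autoImplicit false
open FreyPackage

namespace Fermat.Agent.S02

/-- Coprime case with `b` even. -/
theorem of_coprime_even {a b c : ℤ} (ha : a ≠ 0) (hb : b ≠ 0) (hc : c ≠ 0) {p : ℕ}
    (pp : p.Prime) (hp5 : 5 ≤ p) (H : a ^ p + b ^ p = c ^ p) (hg : Int.gcd a b = 1)
    (hb2 : (2 : ℤ) ∣ b) : Nonempty FreyPackage := by
  have hodd : Odd p := pp.odd_of_ne_two (by omega)
  have ha2 : ¬ (2 : ℤ) ∣ a := by
    intro h
    have : (2 : ℤ) ∣ (Int.gcd a b : ℤ) := Int.dvd_coe_gcd h hb2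
    rw [hg] at this
    norm_num at this
  have hb2' : ((b : ℤ) : ZMod 2) = 0 := (ZMod.intCast_zmod_eq_zero_iff_dvd b 2).2 hb2
  have hcases : a % 4 = 3 ∨ a % 4 = 1 := by omega
  rcases hcases with h | h
  · refine ⟨⟨a, b, c, ha, hb, hc, p, pp, hp5, H, ?_, ?_, hb2'⟩⟩
    · rw [← Int.coe_gcd, hg]; rfl
    · have : ((a : ℤ) : ZMod 4) = ((3 : ℤ) : ZMod 4) := by
        rw [ZMod.intCast_eq_intCast_iff_dvd_sub]
        push_cast
        omega
      simpa using this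
  · refine ⟨⟨-a, -b, -c, neg_ne_zero.2 ha, neg_ne_zero.2 hb, neg_ne_zero.2 hc, p, pp, hp5,
      ?_, ?_, ?_, ?_⟩⟩
    · rw [hodd.neg_pow, hodd.neg_pow, hodd.neg_pow, ← H]; ring
    · rw [← Int.coe_gcd, Int.gcd_neg, Int.neg_gcd, hg]; rfl
    · have : (((-a : ℤ)) : ZMod 4) = ((3 : ℤ) : ZMod 4) := by
        rw [ZMod.intCast_eq_intCast_iff_dvd_sub]
        push_cast
        omega
      simpa using this
    · push_cast
      rw [hb2', neg_zero]

/-- Coprime case. -/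
theorem of_coprime {a b c : ℤ} (ha : a ≠ 0) (hb : b ≠ 0) (hc : c ≠ 0) {p : ℕ}
    (pp : p.Prime) (hp5 : 5 ≤ p) (H : a ^ p + b ^ p = c ^ p) (hg : Int.gcd a b = 1) :
    Nonempty FreyPackage := by
  have hodd : Odd p := pp.odd_of_ne_two (by omega)
  by_cases hb2 : (2 : ℤ) ∣ b
  · exact of_coprime_even ha hb hc pp hp5 H hg hb2
  by_cases ha2 : (2 : ℤ) ∣ a
  · exact of_coprime_even hb ha hc pp hp5 (by rw [add_comm]; exact H)
      (by rw [Int.gcd_comm]; exact hg) ha2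
  -- both odd, so `c` is even
  have hc2 : (2 : ℤ) ∣ c := by
    have hao : Odd a := by
      rw [← Int.not_even_iff_odd, even_iff_two_dvd]; exact ha2
    have hbo : Odd b := by
      rw [← Int.not_even_iff_odd, even_iff_two_dvd]; exact hb2
    have : Even (c ^ p) := by
      rw [← H]; exact (hao.pow).add_odd (hbo.pow)
    exact even_iff_two_dvd.1 ((Int.even_pow.1 this).1)
  have hgac : Int.gcd a c = 1 := by
    have := gcdab_eq_gcdac (pp.pos) H
    rw [← Int.coe_gcd, ← Int.coe_gcd, hg] at this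
    exact_mod_cast this.symm
  refine of_coprime_even (a := a) (b := -c) (c := -b) ha (neg_ne_zero.2 hc) (neg_ne_zero.2 hb)
    pp hp5 ?_ ?_ ((dvd_neg).2 hc2)
  · rw [hodd.neg_pow, hodd.neg_pow, ← H]; ring
  · rw [Int.gcd_neg, hgac]

theorem result (a b c : ℤ) (ha : a ≠ 0) (hb : b ≠ 0) (hc : c ≠ 0) (p : ℕ) (pp : p.Prime) (hp5 : 5 ≤ p) (H : a ^ p + b ^ p = c ^ p) : Nonempty FreyPackage := by
  have hp0 : p ≠ 0 := pp.ne_zero
  set d : ℤ := (Int.gcd a b : ℤ) with hd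
  have hd0 : d ≠ 0 := by
    rw [hd]
    exact_mod_cast (Int.gcd_pos_of_ne_zero_left b ha).ne'
  obtain ⟨a', ha'⟩ : d ∣ a := Int.gcd_dvd_left a b
  obtain ⟨b', hb'⟩ : d ∣ b := Int.gcd_dvd_right a b
  have hdc : d ∣ c := by
    rw [← Int.pow_dvd_pow_iff hp0, ← H]
    exact dvd_add (pow_dvd_pow_of_dvd ⟨a', ha'⟩ p) (pow_dvd_pow_of_dvd ⟨b', hb'⟩ p)
  obtain ⟨c', hc'⟩ := hdc
  have ha'0 : a' ≠ 0 := by rintro rfl; exact ha (by rw [ha', mul_zero])
  have hb'0 : b' ≠ 0 := by rintro rfl; exact hb (by rw [hb', mul_zero])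
  have hc'0 : c' ≠ 0 := by rintro rfl; exact hc (by rw [hc', mul_zero])
  have H' : a' ^ p + b' ^ p = c' ^ p := by
    have : d ^ p * (a' ^ p + b' ^ p) = d ^ p * c' ^ p := by
      rw [mul_add, ← mul_pow, ← mul_pow, ← mul_pow, ← ha', ← hb', ← hc', H]
    exact mul_left_cancel₀ (pow_ne_zero p hd0) this
  have hg : Int.gcd a' b' = 1 := by
    have h1 : Int.gcd a b = Int.gcd a b * Int.gcd a' b' := by
      conv_lhs => rw [ha', hb', Int.gcd_mul_left]
      rw [hd, Int.natAbs_natCast]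
    have hpos : 0 < Int.gcd a b := Int.gcd_pos_of_ne_zero_left b ha
    have h2 : Int.gcd a b * Int.gcd a' b' = Int.gcd a b * 1 := by rw [mul_one]; exact h1.symm
    exact Nat.eq_of_mul_eq_mul_left hpos h2
  exact of_coprime ha'0 hb'0 hc'0 pp hp5 H' hg

end Fermat.Agent.S02
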