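import Fermat.Statements.S05
import Fermat.Agent.S05.Assembly

set_option autoImplicit false
open WeierstrassCurve WeierstrassCurve.Affine WeierstrassCurve.Affine.Point
open CuspForm ModularFormClass UpperHalfPlane
open FreyPackage

namespace Fermat.Agent.S05

theorem result (P : FreyPackage) {q : ℕ} (hq : q.Prime) (hq2 : q ≠ 2) (hqp : q ≠ P.p) : P.GaloisRepUnramifiedAt q := by
  intro A hA σ hσ T
  have hT : P.p • T.1 = 0 := by
    have := T.2
    rw [Submodule.mem_torsionBy_iff] at this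
    rw [← Nat.cast_smul_eq_nsmul ℤ]
    exact this
  apply Subtype.ext
  change σ • T.1 = T.1
  have hqZ : Prime (q : ℤ) := Nat.prime_iff_prime_int.1 hq
  have hp2 : P.p ≠ 2 := by have := P.hp5; omega
  have hpow : ∀ n : ℤ, (q : ℤ) ∣ n ^ P.p → (q : ℤ) ∣ n := fun n h => hqZ.dvd_of_dvd_pow h
  have hnot : ∀ m n : ℤ, gcd m n = 1 → (q : ℤ) ∣ m → ¬ (q : ℤ) ∣ n := by
    intro m n hmn hm hn
    have := dvd_gcd hm hn
    rw [hmn] at this
    exact hqZ.not_isUnit (isUnit_of_dvd_one this)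
  have hFLT := P.hFLT
  have hFLTQ : (P.a : ℚ) ^ P.p + (P.b : ℚ) ^ P.p = (P.c : ℚ) ^ P.p := by exact_mod_cast hFLT
  by_cases ha : (q : ℤ) ∣ P.a
  · -- `(r, D, M, d) = (0, -A, B, -a)`
    have hb : ¬ (q : ℤ) ∣ P.b := hnot _ _ P.hgcdab ha
    have hc : ¬ (q : ℤ) ∣ P.c := hnot _ _ P.hgcdac ha
    refine Fermat.Agent.S05Aux.smul_eq_self_of_shape P.freyCurve A hq hq2 hA P.p P.pp hp2 hqp
      0 (-(P.a ^ P.p)) (P.b ^ P.p) (-P.a) rfl rfl ?_ ?_ ?_ (fun h => hb (hpow _ h)) ?_ ?_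
      (neg_ne_zero.2 P.ha0) σ hσ T.1 hT
    · simp only [freyCurve]; push_cast; ring
    · simp only [freyCurve]; push_cast; ring
    · simp only [freyCurve]; push_cast; ring
    · intro h
      apply hc
      apply hpow
      rw [← hFLT]
      have : P.a ^ P.p + P.b ^ P.p = -(-(P.a ^ P.p) - P.b ^ P.p) := by ring
      rw [this, dvd_neg]
      exact h
    · rw [P.hp_odd.neg_pow]
  by_cases hc : (q : ℤ) ∣ P.c
  · -- `(r, D, M, d) = (A, C, A, c)`
    have hb : ¬ (q : ℤ) ∣ P.b := by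
      intro hb
      exact hnot _ _ P.hgcdbc hb hc
    refine Fermat.Agent.S05Aux.smul_eq_self_of_shape P.freyCurve A hq hq2 hA P.p P.pp hp2 hqp
      (P.a ^ P.p) (P.c ^ P.p) (P.a ^ P.p) P.c rfl rfl ?_ ?_ ?_ (fun h => ha (hpow _ h)) ?_ rfl
      P.hc0 σ hσ T.1 hT
    · simp only [freyCurve]; push_cast; rw [← hFLTQ]; ring
    · simp only [freyCurve]; push_cast; rw [← hFLTQ]; ring
    · simp only [freyCurve]; push_cast; ring
    · intro h
      apply hb
      apply hpow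
      have : P.b ^ P.p = P.c ^ P.p - P.a ^ P.p := by rw [← hFLT]; ring
      rw [this]
      exact h
  · -- `(r, D, M, d) = (0, B, -A, b)`
    refine Fermat.Agent.S05Aux.smul_eq_self_of_shape P.freyCurve A hq hq2 hA P.p P.pp hp2 hqp
      0 (P.b ^ P.p) (-(P.a ^ P.p)) P.b rfl rfl ?_ ?_ ?_ ?_ ?_ rfl
      P.hb0 σ hσ T.1 hT
    · simp only [freyCurve]; push_cast; ring
    · simp only [freyCurve]; push_cast; ring
    · simp only [freyCurve]; push_cast; ring
    · rw [dvd_neg]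
      exact fun h => ha (hpow _ h)
    · intro h
      apply hc
      apply hpow
      rw [← hFLT]
      have : P.a ^ P.p + P.b ^ P.p = P.b ^ P.p - -(P.a ^ P.p) := by ring
      rw [this]
      exact h

end Fermat.Agent.S05
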