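import Fermat.Statements.S22
import Fermat.Prelude.Sol.S_CuspForm_intLattice_fg
import Fermat.Agent.S22Aux.Algebra
import Fermat.Agent.S22Aux.Hecke

set_option autoImplicit false
open CuspForm

namespace Fermat.Agent.S22

open Fermat.Agent.S22Aux CongruenceSubgroup UpperHalfPlane
open P2MW.S_CuspForm_intLattice_fg.W3WsD

/-- The space of cusp forms is finite dimensional (via the Sturm bound). -/
theorem finiteDimensional_cuspForm (N : ℕ) [NeZero N] (k : ℤ) :
    Module.Finite ℂ (CuspForm (Gamma0 N) k) := by
  let T : CuspForm (Gamma0 N) k →ₗ[ℂ] (Fin (sturmB N k + 1) → ℂ) :=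
    { toFun := fun f i => ModularFormClass.qCoeff ⇑f i
      map_add' := fun f g => by
        funext i
        exact qCoeff_add f g i
      map_smul' := fun c f => by
        funext i
        simp only [ModularFormClass.qCoeff, RingHom.id_apply, Pi.smul_apply, smul_eq_mul]
        have h1 : ⇑(c • f) = c • ⇑f := by
          ext z
          simp
        rw [h1, ModularForm.qExpansion_smul one_pos (hΓ N) c f]
        simp }
  have hT : Function.Injective T := by
    intro f g hfg
    exact trunc_injective N k hfg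
  exact Module.Finite.of_injective T hT

/-- Cusp forms of weight `≤ 1` on `Γ₀(N)` vanish. -/
theorem cuspForm_eq_zero_of_weight_le_one (N : ℕ) [NeZero N] {k : ℤ} (hk : k ≤ 1)
    (f : CuspForm (Gamma0 N) k) : f = 0 := by
  have key : (ModularFormClass.modularForm f : ModularForm (Gamma0 N) k) = 0 := by
    rcases hk.lt_or_eq with hk' | rfl
    · apply ModularForm.sturm_bound_Gamma0 N
      intro n hn
      have h0 : (k * ((Gamma0 N).index : ℤ)).toNat = 0 := by
        apply Int.toNat_of_nonpos
        exact mul_nonpos_of_nonpos_of_nonneg (by omega) (by positivity)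
      have hn0 : n = 0 := by
        rw [h0] at hn
        simpa using hn
      subst hn0
      exact CuspFormClass.qExpansion_coeff_zero f one_pos
        (CongruenceSubgroup.one_mem_strictPeriods_Gamma0 N)
    · apply ModularForm.eq_zero_of_neg_one_mem _ (by decide)
      refine ⟨-1, ?_, ?_⟩
      · rw [SetLike.mem_coe, Gamma0_mem]
        simp
      · ext i j
        simp
  ext z
  have := congrArg (fun F : ModularForm (Gamma0 N) k => F z) key
  simpa using this

theorem result_of_two_le (N : ℕ) [NeZero N] (w : ℕ) (S : Set ℕ) :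
    Module.Finite ℤ (CuspForm.heckeAlgebra N ((w : ℤ) + 2) S) := by
  classical
  have hfin := finiteDimensional_cuspForm N ((w : ℤ) + 2)
  obtain ⟨s, hs⟩ := hfin.fg_top
  choose Mf hMfg hMin using fun f : CuspForm (Gamma0 N) ((w : ℤ) + 2) => exists_fg_inL f
  set M : Submodule ℤ ℂ := s.sup Mf with hM
  have hMFG : M.FG := Submodule.fg_finset_sup s Mf fun f _ => hMfg f
  refine finite_adjoin_of_lattice (latticeL N w M) (latticeL_fg w M hMFG) ?_ _ ?_
  · rw [eq_top_iff, ← hs]
    refine Submodule.span_mono fun f hf => ?_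
    exact mem_latticeL.mpr ((hMin f).mono (Finset.le_sup (f := Mf) hf))
  · rintro T (⟨ℓ, hℓ, hℓN, -, rfl⟩ | ⟨q, hqN, hq, -, rfl⟩) f hf
    · exact mem_latticeL.mpr (InL.heckeT hℓ hℓN (mem_latticeL.mp hf))
    · exact mem_latticeL.mpr (InL.heckeU hq.ne_zero hqN (mem_latticeL.mp hf))

theorem result (N : ℕ) [NeZero N] (k : ℤ) (S : Set ℕ) :
    Module.Finite ℤ (CuspForm.heckeAlgebra N k S) := by
  rcases le_or_gt k 1 with hk | hk
  · have hsub : Subsingleton (CuspForm (Gamma0 N) k) :=
      ⟨fun f g => by rw [cuspForm_eq_zero_of_weight_le_one N hk f,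
        cuspForm_eq_zero_of_weight_le_one N hk g]⟩
    have hsub2 : Subsingleton (Module.End ℂ (CuspForm (Gamma0 N) k)) :=
      ⟨fun a b => LinearMap.ext fun x => Subsingleton.elim _ _⟩
    have hsub3 : Subsingleton (CuspForm.heckeAlgebra N k S) :=
      ⟨fun a b => Subtype.ext (Subsingleton.elim _ _)⟩
    infer_instance
  · obtain ⟨w, rfl⟩ : ∃ w : ℕ, k = (w : ℤ) + 2 := ⟨(k - 2).toNat, by omega⟩
    exact result_of_two_le N w S

end Fermat.Agent.S22
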