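-- Statement S49 (row 44): Deligne–Serre lifting lemma.
import Fermat.Statements.S49
import Fermat.Agent.Lib.HeckeEigen

set_option autoImplicit false
open CuspForm EisensteinWeightOne CongruenceSubgroup ModularFormClass
open FLT FLT.AbstractIntegralStructure

namespace Fermat.Agent.S49

open Fermat.Agent.HeckeEigen

theorem map_e1Chi3In_eq_one :
    PowerSeries.map (Int.castRingHom (ZMod 3)) (e1Chi3In ℤ) = 1 := by
  ext n
  simp only [e1Chi3In, e1Chi3, PowerSeries.coeff_map, PowerSeries.coeff_mk, PowerSeries.coeff_one]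
  split_ifs with h
  · simp
  · have h6 : (6 : ZMod 3) = 0 := by decide
    simp [h6]

theorem bridgeProduct_coeff_cast (a : ℕ → ℤ) (n : ℕ) :
    (((bridgeProduct a).coeff n : ℤ) : ZMod 3) = ((a n : ℤ) : ZMod 3) := by
  have h1 : PowerSeries.map (Int.castRingHom (ZMod 3)) (bridgeProduct a) =
      PowerSeries.map (Int.castRingHom (ZMod 3)) (PowerSeries.mk a) := by
    rw [bridgeProduct, map_mul, map_e1Chi3In_eq_one, mul_one]
  have h2 := congrArg (PowerSeries.coeff n) h1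
  simpa using h2

theorem chiNegThree_cast (ℓ : ℕ) : ((chiNegThree ℓ : ℤ) : ZMod 3) = (ℓ : ZMod 3) := by
  have h := Nat.mod_lt ℓ (show 0 < 3 by norm_num)
  have h2 : (ℓ : ZMod 3) = ((ℓ % 3 : ℕ) : ZMod 3) := by simp
  rw [h2]
  unfold chiNegThree
  interval_cases h3 : ℓ % 3 <;> simp <;> decide

theorem hasIntegralStructure_of_hasIntegralBasis {N : ℕ} (h : CuspForm.HasIntegralBasis N) :
    CuspForm.HasIntegralStructure N 2 := by
  unfold CuspForm.HasIntegralStructure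
  unfold CuspForm.HasIntegralBasis at h
  rw [eq_top_iff, ← h]
  apply Submodule.span_mono
  intro f hf
  apply Submodule.subset_span
  intro n
  obtain ⟨m, hm⟩ := Subring.mem_bot.1 (hf n)
  exact ⟨m, hm.symm⟩

theorem result
    {N : ℕ} [NeZero N] (h : CuspForm.HasIntegralBasis N) {a : ℕ → ℤ}
    (heig : FormalHecke.IsEigensystem
      (fun ℓ => if ℓ ∣ N then 0 else ((chiNegThree ℓ : ℤ) : ℤ)) a)
    (hreal : CuspForm.IsLatticeRealized N a) :
    ∃ (f : CuspForm (Gamma0 N) 2) (_ : f.IsNormalizedEigenform)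
      (𝔪' : Ideal (integralClosure ℤ ℂ)), 𝔪'.IsMaximal ∧
      ((3 : ℕ) : integralClosure ℤ ℂ) ∈ 𝔪' ∧
      ∀ (ℓ : ℕ) (_ : ℓ.Prime) (_ : ¬ ℓ ∣ N),
        ∃ c : integralClosure ℤ ℂ, (c : ℂ) = ModularFormClass.qCoeff f ℓ ∧
          c - (a ℓ : integralClosure ℤ ℂ) ∈ 𝔪' := by
  classical
  have hIS := hasIntegralStructure_of_hasIntegralBasis h
  have hfinA : Module.Finite ℤ (heckeAlgebra N 2 ∅) :=
    heckeAlgebra_finite_of_hasIntegralStructure (by norm_num) hIS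
  have hfd : FiniteDimensional ℂ (CuspForm (Gamma0 N) 2) := finiteDimensional_cuspForm N 2
  obtain ⟨f, hfint, af, haf, hcong⟩ := hreal
  have hfL : f ∈ intLattice N 2 := (mem_intLattice_iff' f).2 fun n => ⟨af n, (haf n).symm⟩
  -- `af n ≡ a n mod 3`
  have hafa : ∀ n, ((af n : ℤ) : ZMod 3) = ((a n : ℤ) : ZMod 3) := by
    intro n
    rw [← bridgeProduct_coeff_cast a n]
    have := (ZMod.intCast_zmod_eq_zero_iff_dvd _ 3).2 (hcong n)
    push_cast at this
    exact sub_eq_zero.1 this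
  let ι : heckeAlgebra N 2 ∅ →+* Module.End ℂ (CuspForm (Gamma0 N) 2) :=
    { toFun := Subtype.val
      map_one' := rfl
      map_mul' := fun _ _ => rfl
      map_zero' := rfl
      map_add' := fun _ _ => rfl }
  have hι : Function.Injective ι := Subtype.val_injective
  let 𝔪 : Ideal (heckeAlgebra N 2 ∅) :=
    { carrier := {t | ∃ g ∈ intLattice N 2, ι t f = (3 : ℂ) • g}
      add_mem' := by
        rintro s t ⟨g, hg, hsg⟩ ⟨g', hg', htg⟩
        exact ⟨g + g', add_mem hg hg', by rw [map_add, LinearMap.add_apply, hsg, htg, smul_add]⟩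
      zero_mem' := ⟨0, zero_mem _, by simp⟩
      smul_mem' := by
        rintro s t ⟨g, hg, htg⟩
        refine ⟨ι s g, CuspForm.mem_intLattice_of_mem_heckeAlgebra (by norm_num) s.2 hg, ?_⟩
        rw [smul_eq_mul, map_mul, Module.End.mul_apply, htg, map_smul] }
  have hmem𝔪 : ∀ t, t ∈ 𝔪 ↔ ∃ g ∈ intLattice N 2, ι t f = (3 : ℂ) • g := fun t => Iff.rfl
  -- `𝔪` is proper
  have h𝔪ne : 𝔪 ≠ ⊤ := by
    intro htop
    have h1 : (1 : heckeAlgebra N 2 ∅) ∈ 𝔪 := by rw [htop]; trivial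
    obtain ⟨g, hg, hfg⟩ := (hmem𝔪 1).1 h1
    rw [map_one, Module.End.one_apply] at hfg
    obtain ⟨m, hm⟩ := (mem_intLattice_iff' g).1 hg 1
    have h2 : qCoeff ⇑f 1 = 3 * qCoeff ⇑g 1 := by rw [hfg, qCoeff_smul']
    rw [← haf 1, hm] at h2
    have h3 : af 1 = 3 * m := by exact_mod_cast h2
    have h4 := hafa 1
    rw [h3, heig.1] at h4
    have h5 : ((3 : ℤ) : ZMod 3) = 0 := by decide
    push_cast at h4 h5
    rw [h5, zero_mul] at h4
    exact zero_ne_one h4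
  -- criterion for membership
  have hcrit : ∀ (t : heckeAlgebra N 2 ∅) (c : ℤ),
      (∀ n, ∃ m : ℤ, qCoeff ⇑(ι t f) n - c * qCoeff ⇑f n = 3 * m) →
        t - algebraMap ℤ _ c ∈ 𝔪 := by
    intro t c hn
    refine (hmem𝔪 _).2 ⟨(3 : ℂ)⁻¹ • (ι t f - (c : ℂ) • f), ?_, ?_⟩
    · rw [mem_intLattice_iff']
      intro n
      obtain ⟨m, hm⟩ := hn n
      refine ⟨m, ?_⟩
      rw [qCoeff_smul', sub_eq_add_neg, ← neg_smul, qCoeff_add', qCoeff_smul']
      have : qCoeff ⇑(ι t f) n + -(c : ℂ) * qCoeff ⇑f n = 3 * m := by rw [← hm]; ring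
      rw [this]
      field_simp
    · rw [smul_smul, mul_inv_cancel₀ (by norm_num : (3 : ℂ) ≠ 0), one_smul, map_sub,
        LinearMap.sub_apply]
      congr 1
      have : ι (algebraMap ℤ (heckeAlgebra N 2 ∅) c) = algebraMap ℤ _ c := rfl
      rw [this]
      simp only [Module.algebraMap_end_apply]
      exact (Int.cast_smul_eq_zsmul ℂ c f).symm
  have hT𝔪 : ∀ (ℓ : ℕ) (hℓ : ℓ.Prime), Tgen N ℓ hℓ - algebraMap ℤ _ (a ℓ) ∈ 𝔪 := by
    intro ℓ hℓ
    apply hcrit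
    intro n
    have hq : qCoeff ⇑(ι (Tgen N ℓ hℓ) f) n = _ := qCoeff_Tgen hℓ f n
    rw [hq]
    let eN : ℤ := if ℓ ∣ N then 0 else (ℓ : ℤ)
    have heN : eulerE N ℓ = (eN : ℂ) := by
      simp only [eulerE, eN]
      split_ifs <;> simp
    have heN3 : ((eN : ℤ) : ZMod 3) =
        (((if ℓ ∣ N then 0 else ((chiNegThree ℓ : ℤ) : ℤ)) : ℤ) : ZMod 3) := by
      simp only [eN]
      split_ifs
      · rfl
      · rw [chiNegThree_cast]; simp
    let X : ℤ := af (ℓ * n) + eN * (if ℓ ∣ n then af (n / ℓ) else 0) - a ℓ * af n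
    have hX : (3 : ℤ) ∣ X := by
      apply (ZMod.intCast_zmod_eq_zero_iff_dvd X 3).1
      have h1 := congrArg (fun z : ℤ => (z : ZMod 3)) (heig.2 ℓ hℓ n)
      simp only at h1
      simp only [X]
      by_cases hd : ℓ ∣ n
      · rw [if_pos hd] at h1 ⊢
        rw [Int.cast_add, Int.cast_mul, ← heN3, Int.cast_mul] at h1
        rw [Int.cast_sub, Int.cast_add, Int.cast_mul, Int.cast_mul, hafa, hafa, hafa]
        linear_combination h1
      · rw [if_neg hd] at h1 ⊢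
        rw [Int.cast_add, Int.cast_mul, ← heN3, Int.cast_mul] at h1
        rw [Int.cast_sub, Int.cast_add, Int.cast_mul, Int.cast_mul, hafa, hafa]
        linear_combination h1
    obtain ⟨m, hm⟩ := hX
    refine ⟨m, ?_⟩
    have : ((X : ℤ) : ℂ) = 3 * m := by rw [hm]; push_cast; ring
    rw [← this, heN]
    simp only [X, ← haf]
    split_ifs
    · push_cast; ring
    · push_cast; ring
  have h3𝔪 : (3 : heckeAlgebra N 2 ∅) ∈ 𝔪 := by
    refine (hmem𝔪 _).2 ⟨f, hfL, ?_⟩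
    have : ι (3 : heckeAlgebra N 2 ∅) = 3 := map_ofNat ι 3
    rw [this]
    simp only [Module.End.ofNat_apply]
    rw [ofNat_smul_eq_nsmul, ofNat_smul_eq_nsmul ℂ]
  obtain ⟨w, lam, 𝔪', hw0, hweig, h𝔪'max, h𝔪'⟩ := exists_lift_of_ideal ι hι 𝔪 h𝔪ne
  obtain ⟨hnorm, hlam⟩ := isNormalizedEigenform_of_eigenvector hw0
    (fun ℓ => if hℓ : ℓ.Prime then (lam (Tgen N ℓ hℓ) : ℂ) else 0)
    (fun ℓ hℓ => by rw [dif_pos hℓ]; exact hweig _)
  refine ⟨_, hnorm, 𝔪', h𝔪'max, ?_, ?_⟩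
  · have := h𝔪' 3 h3𝔪
    rw [map_ofNat] at this
    simpa using this
  · intro ℓ hℓ _
    refine ⟨lam (Tgen N ℓ hℓ), ?_, ?_⟩
    · rw [hlam ℓ hℓ, dif_pos hℓ]
    · have := h𝔪' _ (hT𝔪 ℓ hℓ)
      simpa using this

end Fermat.Agent.S49
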