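import Fermat.Statements.S51
import Fermat.Agent.S51.Descent
import Fermat.Agent.S51.Algebra
import Fermat.Agent.S51.Torsion

set_option autoImplicit false
open WeierstrassCurve WeierstrassCurve.Affine WeierstrassCurve.Affine.Point
open CuspForm ModularFormClass UpperHalfPlane
open WeierstrassCurve

namespace Fermat.Agent.S51

theorem result (W : WeierstrassCurve ℤ) (hΔ : W.Δ ≠ 0) (hW : W.IsSemistableModel) : W.ModRepIsIrreducible 3 ∨ W.ModRepIsIrreducible 5 := by
  by_contra hcon
  rw [not_or] at hcon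
  obtain ⟨x0, s, m, h1, h2, h3, h4, h5⟩ :=
    Fermat.Agent.S51Aux.exists_isogeny_data W hΔ hcon.1 hcon.2
  exact Fermat.Agent.S51Aux.false_of_isogeny_data Fermat.Agent.S51Aux.ratPoints W.c_relation hΔ
    (hW 5 (by norm_num)) rfl rfl h1 h2 h3 h4 h5

end Fermat.Agent.S51
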