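/-
S53 helper library: dictionary between `GaloisRepAdic` / `ResidualGaloisRep` and 2x2 matrices.
-/
import Mathlib
import Fermat.Prelude.Def_GaloisRep_Adic

set_option autoImplicit false

namespace Fermat.Agent.S53Aux

open IsLocalRing Module

/-- the absolute Galois group of `ℚ` -/
abbrev GQ := AlgebraicClosure ℚ ≃ₐ[ℚ] AlgebraicClosure ℚ
/-- two by two matrices -/
abbrev M2 (A : Type) := Matrix (Fin 2) (Fin 2) A

section Generic

variable {R : Type} [CommRing R] {V V' : Type} [AddCommGroup V] [Module R V]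
  [AddCommGroup V'] [Module R V']

theorem toMatrix_map_equiv (b : Basis (Fin 2) R V) (e : V ≃ₗ[R] V') (f : V →ₗ[R] V)
    (f' : V' →ₗ[R] V') (h : ∀ x, e (f x) = f' (e x)) :
    LinearMap.toMatrix (b.map e) (b.map e) f' = LinearMap.toMatrix b b f := by
  ext i j
  simp only [LinearMap.toMatrix_apply, Basis.map_apply, Basis.map_repr, LinearEquiv.trans_apply]
  rw [← h, LinearEquiv.symm_apply_apply]

theorem equiv_intertwines (b : Basis (Fin 2) R V) (b' : Basis (Fin 2) R V') (f : V →ₗ[R] V)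
    (f' : V' →ₗ[R] V') (h : LinearMap.toMatrix b b f = LinearMap.toMatrix b' b' f') (x : V) :
    (b.equiv b' (Equiv.refl _)) (f x) = f' (b.equiv b' (Equiv.refl _) x) := by
  have key : ((b.equiv b' (Equiv.refl _) : V ≃ₗ[R] V') : V →ₗ[R] V') ∘ₗ f
      = f' ∘ₗ ((b.equiv b' (Equiv.refl _) : V ≃ₗ[R] V') : V →ₗ[R] V') := by
    apply (LinearMap.toMatrix b b').injective
    rw [LinearMap.toMatrix_comp b b b', LinearMap.toMatrix_comp b b' b',
      LinearMap.toMatrix_basis_equiv, h, one_mul, mul_one]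
  exact congrArg (fun g => g x) key

theorem toMatrix_conj (b : Basis (Fin 2) R V) (P Q : M2 R) (hPQ : P * Q = 1) (hQP : Q * P = 1) :
    ∃ b' : Basis (Fin 2) R V, ∀ f : V →ₗ[R] V,
      LinearMap.toMatrix b' b' f = P * LinearMap.toMatrix b b f * Q := by
  let e : V ≃ₗ[R] V := LinearEquiv.ofLinearMap (Matrix.toLin b b Q) (Matrix.toLin b b P)
    (by rw [← Matrix.toLin_mul b b b, hQP, Matrix.toLin_one])
    (by rw [← Matrix.toLin_mul b b b, hPQ, Matrix.toLin_one])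
  refine ⟨b.map e, fun f => ?_⟩
  rw [toMatrix_map_equiv b e ((e.symm : V →ₗ[R] V) ∘ₗ f ∘ₗ (e : V →ₗ[R] V)) f (by intro x; simp)]
  rw [LinearMap.toMatrix_comp b b b, LinearMap.toMatrix_comp b b b]
  have h1 : LinearMap.toMatrix b b (e : V →ₗ[R] V) = Q := by
    show LinearMap.toMatrix b b (Matrix.toLin b b Q) = Q
    exact LinearMap.toMatrix_toLin b b Q
  have h2 : LinearMap.toMatrix b b (e.symm : V →ₗ[R] V) = P := by
    show LinearMap.toMatrix b b (Matrix.toLin b b P) = P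
    exact LinearMap.toMatrix_toLin b b P
  rw [h1, h2, mul_assoc]

theorem toMatrix_change (b b' : Basis (Fin 2) R V) :
    ∃ P Q : M2 R, P * Q = 1 ∧ Q * P = 1 ∧ ∀ f : V →ₗ[R] V,
      LinearMap.toMatrix b' b' f = P * LinearMap.toMatrix b b f * Q :=
  ⟨b'.toMatrix b, b.toMatrix b', Basis.toMatrix_mul_toMatrix_flip b' b,
    Basis.toMatrix_mul_toMatrix_flip b b', fun f =>
      (basis_toMatrix_mul_linearMap_toMatrix_mul_basis_toMatrix b' b b' b f).symm⟩

theorem repr_mem_of_mem_smul_top (b : Basis (Fin 2) R V) (I : Ideal R) {x : V}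
    (hx : x ∈ I • (⊤ : Submodule R V)) (i : Fin 2) : b.repr x i ∈ I := by
  refine Submodule.smul_induction_on (p := fun x => b.repr x i ∈ I) hx ?_ ?_
  · intro a ha w _
    simpa using I.mul_mem_right _ ha
  · intro x y hx hy
    simpa using I.add_mem hx hy

theorem mem_smul_top_of_forall_mem (I : Ideal R) (x : Fin 2 → R) (hx : ∀ i, x i ∈ I) :
    x ∈ I • (⊤ : Submodule R (Fin 2 → R)) := by
  rw [pi_eq_sum_univ x]
  refine Submodule.sum_mem _ fun i _ => ?_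
  exact Submodule.smul_mem_smul (hx i) Submodule.mem_top

end Generic


section Adic

variable {A : Type} [CommRing A] [IsLocalRing A]

/-- `ρ` is given by the matrices `r σ` in some basis. -/
def HasMat (ρ : GaloisRepAdic A) (r : GQ → M2 A) : Prop :=
  ∃ b : Basis (Fin 2) A ρ.V, ∀ σ, LinearMap.toMatrix b b (ρ.ρ σ) = r σ

theorem exists_hasMat (ρ : GaloisRepAdic A) : ∃ r, HasMat ρ r :=
  ⟨_, Module.finBasisOfFinrankEq A ρ.V ρ.finrank_eq, fun _ => rfl⟩

theorem HasMat.isEquiv {ρ ρ' : GaloisRepAdic A} {r : GQ → M2 A} (h : HasMat ρ r)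
    (h' : HasMat ρ' r) : ρ.IsEquiv ρ' := by
  obtain ⟨b, hb⟩ := h
  obtain ⟨b', hb'⟩ := h'
  exact ⟨⟨b.equiv b' (Equiv.refl _), fun σ x =>
    equiv_intertwines b b' (ρ.ρ σ) (ρ'.ρ σ) ((hb σ).trans (hb' σ).symm) x⟩⟩

theorem HasMat.of_isEquiv {ρ ρ' : GaloisRepAdic A} {r : GQ → M2 A} (e : ρ.IsEquiv ρ')
    (h : HasMat ρ r) : HasMat ρ' r := by
  obtain ⟨b, hb⟩ := h
  obtain ⟨e⟩ := e
  exact ⟨b.map e.toLinearEquiv, fun σ => by
    rw [toMatrix_map_equiv b e.toLinearEquiv (ρ.ρ σ) (ρ'.ρ σ) (e.map_apply σ), hb]⟩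

theorem HasMat.conj {ρ : GaloisRepAdic A} {r : GQ → M2 A} (h : HasMat ρ r) (P Q : M2 A)
    (hPQ : P * Q = 1) (hQP : Q * P = 1) : HasMat ρ (fun σ => P * r σ * Q) := by
  obtain ⟨b, hb⟩ := h
  obtain ⟨b', hb'⟩ := toMatrix_conj b P Q hPQ hQP
  exact ⟨b', fun σ => by rw [hb', hb]⟩

theorem HasMat.exists_conj {ρ : GaloisRepAdic A} {r r' : GQ → M2 A} (h : HasMat ρ r)
    (h' : HasMat ρ r') : ∃ P Q : M2 A, P * Q = 1 ∧ Q * P = 1 ∧ ∀ σ, r' σ = P * r σ * Q := by
  obtain ⟨b, hb⟩ := h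
  obtain ⟨b', hb'⟩ := h'
  obtain ⟨P, Q, h1, h2, h3⟩ := toMatrix_change b b'
  exact ⟨P, Q, h1, h2, fun σ => by rw [← hb', ← hb, h3]⟩

theorem HasMat.map_one {ρ : GaloisRepAdic A} {r : GQ → M2 A} (h : HasMat ρ r) : r 1 = 1 := by
  obtain ⟨b, hb⟩ := h
  rw [← hb, _root_.map_one]
  exact LinearMap.toMatrix_one b

theorem HasMat.map_mul {ρ : GaloisRepAdic A} {r : GQ → M2 A} (h : HasMat ρ r) (σ τ : GQ) :
    r (σ * τ) = r σ * r τ := by
  obtain ⟨b, hb⟩ := h
  rw [← hb, ← hb, ← hb, _root_.map_mul]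
  exact LinearMap.toMatrix_mul b _ _

/-- adic continuity of a matrix valued function -/
def MatCont (r : GQ → M2 A) : Prop :=
  ∀ n : ℕ, ∃ L : IntermediateField ℚ (AlgebraicClosure ℚ), FiniteDimensional ℚ L ∧
    ∀ σ : GQ, (∀ x ∈ L, σ x = x) → ∀ i j, (r σ - 1) i j ∈ maximalIdeal A ^ n

theorem HasMat.cont {ρ : GaloisRepAdic A} {r : GQ → M2 A} (h : HasMat ρ r) : MatCont r := by
  obtain ⟨b, hb⟩ := h
  intro n
  obtain ⟨L, hL, h1⟩ := ρ.isAdicContinuous n
  refine ⟨L, hL, fun σ hσ i j => ?_⟩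
  have := repr_mem_of_mem_smul_top b _ (h1 σ hσ (b j)) i
  rw [← hb, Matrix.sub_apply, LinearMap.toMatrix_apply, Matrix.one_apply]
  simpa [Finsupp.single_apply, eq_comm] using this

/-- the representation attached to a matrix valued function -/
noncomputable def ofMat (r : GQ → M2 A) (h1 : r 1 = 1) (hm : ∀ σ τ, r (σ * τ) = r σ * r τ)
    (hc : MatCont r) : GaloisRepAdic A where
  V := Fin 2 → A
  finrank_eq := by simp
  ρ := { toFun := fun σ => Matrix.toLin' (r σ)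
         map_one' := by rw [h1, Matrix.toLin'_one]; rfl
         map_mul' := fun σ τ => by rw [hm, Matrix.toLin'_mul]; rfl }
  isAdicContinuous := by
    intro n
    obtain ⟨L, hL, h⟩ := hc n
    refine ⟨L, hL, fun σ hσ v => ?_⟩
    apply mem_smul_top_of_forall_mem
    intro i
    have : (Matrix.toLin' (r σ) v - v) i = ∑ j, (r σ - 1) i j * v j := by
      rw [Pi.sub_apply, Matrix.toLin'_apply, Matrix.mulVec, dotProduct]
      simp only [Matrix.sub_apply, sub_mul, Finset.sum_sub_distrib, Matrix.one_apply, ite_mul,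
        one_mul, zero_mul, Finset.sum_ite_eq, Finset.mem_univ, if_true]
    show (Matrix.toLin' (r σ) v - v) i ∈ _
    rw [this]
    exact Ideal.sum_mem _ fun j _ => Ideal.mul_mem_right _ _ (h σ hσ i j)

theorem hasMat_ofMat (r : GQ → M2 A) (h1 : r 1 = 1) (hm : ∀ σ τ, r (σ * τ) = r σ * r τ)
    (hc : MatCont r) : HasMat (ofMat r h1 hm hc) r :=
  ⟨Pi.basisFun A (Fin 2), fun σ => by
    show LinearMap.toMatrix (Pi.basisFun A (Fin 2)) (Pi.basisFun A (Fin 2))
      (Matrix.toLin' (r σ)) = r σ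
    rw [LinearMap.toMatrix_eq_toMatrix', LinearMap.toMatrix'_toLin']⟩

theorem HasMat.baseChangeAlong {B : Type} [CommRing B] [IsLocalRing B] {ρ : GaloisRepAdic A}
    {r : GQ → M2 A} (h : HasMat ρ r) (φ : A →+* B) (hφ : IsLocalHom φ) :
    HasMat (ρ.baseChangeAlong φ hφ) (fun σ => (r σ).map φ) := by
  obtain ⟨b, hb⟩ := h
  let _ : Algebra A B := φ.toAlgebra
  refine ⟨Algebra.TensorProduct.basis B b, fun σ => ?_⟩
  show LinearMap.toMatrix (Algebra.TensorProduct.basis B b) (Algebra.TensorProduct.basis B b)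
    ((ρ.ρ σ).baseChange B) = _
  rw [LinearMap.toMatrix_baseChange, hb]
  rfl

end Adic


section Residual

variable {k : Type} [Field k]

/-- `ρ` is given by the matrices `r σ` in some basis. -/
def HasMatRes (ρ : ResidualGaloisRep k) (r : GQ → M2 k) : Prop :=
  ∃ b : Basis (Fin 2) k ρ.V, ∀ σ, LinearMap.toMatrix b b (ρ.ρ σ) = r σ

theorem exists_hasMatRes (ρ : ResidualGaloisRep k) : ∃ r, HasMatRes ρ r :=
  ⟨_, Module.finBasisOfFinrankEq k ρ.V ρ.finrank_eq, fun _ => rfl⟩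

theorem HasMatRes.isEquiv {ρ ρ' : ResidualGaloisRep k} {r : GQ → M2 k} (h : HasMatRes ρ r)
    (h' : HasMatRes ρ' r) : ρ.IsEquiv ρ' := by
  obtain ⟨b, hb⟩ := h
  obtain ⟨b', hb'⟩ := h'
  exact ⟨⟨b.equiv b' (Equiv.refl _), fun σ x =>
    equiv_intertwines b b' (ρ.ρ σ) (ρ'.ρ σ) ((hb σ).trans (hb' σ).symm) x⟩⟩

theorem HasMatRes.of_isEquiv {ρ ρ' : ResidualGaloisRep k} {r : GQ → M2 k} (e : ρ.IsEquiv ρ')
    (h : HasMatRes ρ r) : HasMatRes ρ' r := by
  obtain ⟨b, hb⟩ := h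
  obtain ⟨e⟩ := e
  exact ⟨b.map e.toLinearEquiv, fun σ => by
    rw [toMatrix_map_equiv b e.toLinearEquiv (ρ.ρ σ) (ρ'.ρ σ) (e.map_apply σ), hb]⟩

theorem HasMatRes.conj {ρ : ResidualGaloisRep k} {r : GQ → M2 k} (h : HasMatRes ρ r) (P Q : M2 k)
    (hPQ : P * Q = 1) (hQP : Q * P = 1) : HasMatRes ρ (fun σ => P * r σ * Q) := by
  obtain ⟨b, hb⟩ := h
  obtain ⟨b', hb'⟩ := toMatrix_conj b P Q hPQ hQP
  exact ⟨b', fun σ => by rw [hb', hb]⟩

theorem HasMatRes.exists_conj {ρ : ResidualGaloisRep k} {r r' : GQ → M2 k} (h : HasMatRes ρ r)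
    (h' : HasMatRes ρ r') : ∃ P Q : M2 k, P * Q = 1 ∧ Q * P = 1 ∧ ∀ σ, r' σ = P * r σ * Q := by
  obtain ⟨b, hb⟩ := h
  obtain ⟨b', hb'⟩ := h'
  obtain ⟨P, Q, h1, h2, h3⟩ := toMatrix_change b b'
  exact ⟨P, Q, h1, h2, fun σ => by rw [← hb', ← hb, h3]⟩

theorem HasMatRes.baseChange {ρ : ResidualGaloisRep k} {r : GQ → M2 k} (h : HasMatRes ρ r)
    (k' : Type) [Field k'] [Algebra k k'] :
    HasMatRes (ρ.baseChange k') (fun σ => (r σ).map (algebraMap k k')) := by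
  obtain ⟨b, hb⟩ := h
  refine ⟨Algebra.TensorProduct.basis k' b, fun σ => ?_⟩
  show LinearMap.toMatrix (Algebra.TensorProduct.basis k' b) (Algebra.TensorProduct.basis k' b)
    ((ρ.ρ σ).baseChange k') = _
  rw [LinearMap.toMatrix_baseChange, hb]

theorem HasMatRes.baseChangeAlong {ρ : ResidualGaloisRep k} {r : GQ → M2 k} (h : HasMatRes ρ r)
    {k' : Type} [Field k'] (ψ : k →+* k') :
    HasMatRes (ρ.baseChangeAlong ψ) (fun σ => (r σ).map ψ) := by
  let _ : Algebra k k' := ψ.toAlgebra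
  exact h.baseChange k'

theorem HasMatRes.ofResidual {ρ : ResidualGaloisRep k} {r : GQ → M2 k} (h : HasMatRes ρ r) :
    HasMat (GaloisRepAdic.ofResidualGaloisRep ρ) r := h

theorem HasMat.residual {A : Type} [CommRing A] [IsLocalRing A] {ρ : GaloisRepAdic A}
    {r : GQ → M2 A} (h : HasMat ρ r) :
    HasMatRes ρ.residual (fun σ => (r σ).map (IsLocalRing.residue A)) := by
  obtain ⟨b, hb⟩ := h
  refine ⟨Algebra.TensorProduct.basis (ResidueField A) b, fun σ => ?_⟩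
  show LinearMap.toMatrix (Algebra.TensorProduct.basis (ResidueField A) b)
    (Algebra.TensorProduct.basis (ResidueField A) b) ((ρ.ρ σ).baseChange (ResidueField A)) = _
  rw [LinearMap.toMatrix_baseChange, hb]
  rfl

end Residual

end Fermat.Agent.S53Aux
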