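/-
S53 helper library: normal forms of 2x2 matrices over local rings.
-/
import Mathlib

set_option autoImplicit false

namespace Fermat.Agent.S53Aux

open IsLocalRing Polynomial

section Quad

variable {A : Type} [CommRing A] [IsLocalRing A]

theorem isUnit_add_of_mem {u x : A} (hu : IsUnit u) (hx : x ∈ maximalIdeal A) : IsUnit (u + x) := by
  by_contra h
  have h' : u + x ∈ maximalIdeal A := (mem_maximalIdeal _).mpr h
  have : u ∈ maximalIdeal A := by
    have := (maximalIdeal A).sub_mem h' hx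
    simpa using this
  exact (mem_maximalIdeal _).mp this hu

theorem quad_unique (a1 a2 b b' : A) (h1 : IsUnit a1) (hb : b ∈ maximalIdeal A)
    (hb' : b' ∈ maximalIdeal A) (h : a1 * b + a2 * b ^ 2 = a1 * b' + a2 * b' ^ 2) : b = b' := by
  have hu : IsUnit (a1 + a2 * (b + b')) :=
    isUnit_add_of_mem h1 (Ideal.mul_mem_left _ _ ((maximalIdeal A).add_mem hb hb'))
  have h0 : (a1 + a2 * (b + b')) * (b - b') = 0 := by linear_combination h
  have := (hu.mul_right_eq_zero).mp h0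
  exact sub_eq_zero.mp this

theorem quad_exists [IsAdicComplete (maximalIdeal A) A] (a0 a1 a2 : A)
    (h0 : a0 ∈ maximalIdeal A) (h1 : IsUnit a1) :
    ∃ b ∈ maximalIdeal A, a0 + a1 * b + a2 * b ^ 2 = 0 := by
  have hens : HenselianRing A (maximalIdeal A) := inferInstance
  let f : A[X] := X ^ 2 + C a1 * X + C (a0 * a2)
  have hf : f.Monic := by
    have : f = X ^ 2 + (C a1 * X + C (a0 * a2)) := by simp only [f]; ring
    rw [this]
    apply monic_X_pow_add
    refine lt_of_le_of_lt (degree_linear_le) (by norm_num)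
  have he : f.eval (-a1) ∈ maximalIdeal A := by
    have : f.eval (-a1) = a0 * a2 := by simp [f]; ring
    rw [this]; exact Ideal.mul_mem_right _ _ h0
  have hd : IsUnit (Ideal.Quotient.mk (maximalIdeal A) (f.derivative.eval (-a1))) := by
    have : f.derivative.eval (-a1) = -a1 := by simp [f]; ring
    rw [this]
    exact (h1.neg).map _
  obtain ⟨s, hs, hs'⟩ := hens.is_henselian f hf (-a1) he hd
  have hsu : IsUnit s := by
    have : s = -a1 + (s - -a1) := by ring
    rw [this]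
    exact isUnit_add_of_mem h1.neg hs'
  obtain ⟨u, rfl⟩ := hsu
  have hroot : (u : A) ^ 2 + a1 * u + a0 * a2 = 0 := by
    have := hs
    simpa [f, IsRoot] using this
  refine ⟨a0 * (↑u⁻¹ : A), Ideal.mul_mem_right _ _ h0, ?_⟩
  have hu : (u : A) * (↑u⁻¹ : A) = 1 := u.mul_inv
  have : a0 + a1 * (a0 * (↑u⁻¹ : A)) + a2 * (a0 * (↑u⁻¹ : A)) ^ 2
      = a0 * (↑u⁻¹ : A) ^ 2 * ((u : A) ^ 2 + a1 * u + a0 * a2)
        + a0 * (1 - ((u : A) * (↑u⁻¹ : A)) ^ 2) + a1 * a0 * (↑u⁻¹ : A) * (1 - (u : A) * (↑u⁻¹ : A)) := by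
    ring
  rw [this, hroot, hu]
  ring

end Quad


section TwoByTwo

variable {A : Type} [CommRing A]

local notation "M₂" => Matrix (Fin 2) (Fin 2) A

/-- `1 + y N` -/
def Umat (N : M₂) (y : A) : M₂ := 1 + y • N
/-- `1 + y adj N` -/
def Umat' (N : M₂) (y : A) : M₂ := 1 + y • N.adjugate
/-- `det (1 + y N)` -/
def Udet (N : M₂) (y : A) : A := 1 + y * N.trace + y ^ 2 * N.det

theorem Umat_mul_Umat' (N : M₂) (y : A) : Umat N y * Umat' N y = Udet N y • (1 : M₂) := by
  ext i j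
  fin_cases i <;> fin_cases j <;>
    simp [Umat, Umat', Udet, Matrix.mul_apply, Fin.sum_univ_two, Matrix.adjugate_fin_two,
      Matrix.trace_fin_two, Matrix.det_fin_two] <;> ring

theorem Umat'_mul_Umat (N : M₂) (y : A) : Umat' N y * Umat N y = Udet N y • (1 : M₂) := by
  ext i j
  fin_cases i <;> fin_cases j <;>
    simp [Umat, Umat', Udet, Matrix.mul_apply, Fin.sum_univ_two, Matrix.adjugate_fin_two,
      Matrix.trace_fin_two, Matrix.det_fin_two] <;> ring

theorem Umat_comm (N : M₂) (y : A) : Umat N y * N = N * Umat N y := by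
  simp [Umat, add_mul, mul_add]

theorem Umat_conj_apply (N M : M₂) (y : A) (i j : Fin 2) :
    (Umat N y * M * Umat' N y) i j = M i j + y * ((N * M - M * N) i j + N.trace * M i j)
      + y ^ 2 * (N * M * N.adjugate) i j := by
  fin_cases i <;> fin_cases j <;>
    simp [Umat, Umat', Matrix.mul_apply, Fin.sum_univ_two, Matrix.adjugate_fin_two,
      Matrix.trace_fin_two] <;> ring

theorem Umat'_conj_apply (N M : M₂) (y : A) (i j : Fin 2) :
    (Umat' N y * M * Umat N y) i j = M i j + y * (-(N * M - M * N) i j + N.trace * M i j)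
      + y ^ 2 * (N.adjugate * M * N) i j := by
  fin_cases i <;> fin_cases j <;>
    simp [Umat, Umat', Matrix.mul_apply, Fin.sum_univ_two, Matrix.adjugate_fin_two,
      Matrix.trace_fin_two, Matrix.vecMul, dotProduct] <;> ring

end TwoByTwo


section Existence

variable {A : Type} [CommRing A]

local notation "M₂" => Matrix (Fin 2) (Fin 2) A

theorem norm_step1 (N : M₂) (u : Aˣ) (hu : N 1 0 = u) :
    (!![1, -(N 0 0) * (↑u⁻¹ : A); 0, (↑u⁻¹ : A)] : M₂) * !![1, N 0 0; 0, (u : A)] = 1 ∧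
    (!![1, N 0 0; 0, (u : A)] : M₂) * !![1, -(N 0 0) * (↑u⁻¹ : A); 0, (↑u⁻¹ : A)] = 1 ∧
    ((!![1, -(N 0 0) * (↑u⁻¹ : A); 0, (↑u⁻¹ : A)] : M₂) * N * !![1, N 0 0; 0, (u : A)]) 0 0 = 0 ∧
    ((!![1, -(N 0 0) * (↑u⁻¹ : A); 0, (↑u⁻¹ : A)] : M₂) * N * !![1, N 0 0; 0, (u : A)]) 1 0 = 1 := by
  have h1 : (u : A) * (↑u⁻¹ : A) = 1 := u.mul_inv
  have h2 : (↑u⁻¹ : A) * (u : A) = 1 := u.inv_mul
  refine ⟨?_, ?_, ?_, ?_⟩
  · ext i j
    fin_cases i <;> fin_cases j <;> simp [Matrix.mul_apply, Fin.sum_univ_two, h2, mul_assoc]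
  · ext i j
    fin_cases i <;> fin_cases j <;> simp [Matrix.mul_apply, Fin.sum_univ_two, h1]
  · simp [Matrix.mul_apply, Fin.sum_univ_two, hu, mul_assoc, h2, Matrix.vecMul, dotProduct]
  · simp [Matrix.mul_apply, Fin.sum_univ_two, hu, h2, Matrix.vecMul, dotProduct]

variable [IsLocalRing A]

theorem map_residue_conj (P Q X : M₂) (hP : P.map (residue A) = 1) (hQ : Q.map (residue A) = 1) :
    (P * X * Q).map (residue A) = X.map (residue A) := by
  rw [Matrix.map_mul, Matrix.map_mul, hP, hQ, one_mul, mul_one]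

theorem isUnit_iff_residue_ne_zero (a : A) : IsUnit a ↔ residue A a ≠ 0 := by
  rw [Ne, residue_eq_zero_iff, mem_maximalIdeal, mem_nonunits_iff, not_not]

theorem norm_step1' (N : M₂) (h00 : N 0 0 ∈ maximalIdeal A) (h10 : N 1 0 - 1 ∈ maximalIdeal A) :
    ∃ P Q : M₂, P * Q = 1 ∧ Q * P = 1 ∧ P.map (residue A) = 1 ∧ Q.map (residue A) = 1 ∧
      (P * N * Q) 0 0 = 0 ∧ (P * N * Q) 1 0 = 1 := by
  have hu : IsUnit (N 1 0) := by
    have : N 1 0 = 1 + (N 1 0 - 1) := by ring
    rw [this]; exact isUnit_add_of_mem isUnit_one h10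
  obtain ⟨u, hu⟩ := hu
  obtain ⟨h1, h2, h3, h4⟩ := norm_step1 N u hu.symm
  have r00 : residue A (N 0 0) = 0 := (residue_eq_zero_iff _).mpr h00
  have ru : residue A (u : A) = 1 := by
    rw [hu]
    have := (residue_eq_zero_iff _).mpr h10
    rwa [map_sub, map_one, sub_eq_zero] at this
  have rv : residue A (↑u⁻¹ : A) = 1 := by
    have : residue A (u : A) * residue A (↑u⁻¹ : A) = 1 := by rw [← map_mul, u.mul_inv, map_one]
    rwa [ru, one_mul] at this
  refine ⟨_, _, h1, h2, ?_, ?_, h3, h4⟩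
  · ext i j
    fin_cases i <;> fin_cases j <;> simp [r00, rv]
  · ext i j
    fin_cases i <;> fin_cases j <;> simp [r00, ru]

theorem norm_step2 [IsAdicComplete (maximalIdeal A) A] (N M : M₂) (i j : Fin 2) (c : A)
    (hc : M i j - c ∈ maximalIdeal A) (hcomm : IsUnit ((N * M - M * N) i j)) :
    ∃ P Q : M₂, P * Q = 1 ∧ Q * P = 1 ∧ P.map (residue A) = 1 ∧ Q.map (residue A) = 1 ∧
      P * N * Q = N ∧ (P * M * Q) i j = c := by
  obtain ⟨b, hb, hq⟩ := quad_exists (M i j - c) ((N * M - M * N) i j + N.trace * (M i j - c))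
    ((N * M * N.adjugate) i j - c * N.det) hc
    (isUnit_add_of_mem hcomm (Ideal.mul_mem_left _ _ hc))
  have hδ : IsUnit (Udet N b) := by
    have : Udet N b = 1 + (b * N.trace + b ^ 2 * N.det) := by simp only [Udet]; ring
    rw [this]
    refine isUnit_add_of_mem isUnit_one ((maximalIdeal A).add_mem (Ideal.mul_mem_right _ _ hb) ?_)
    exact Ideal.mul_mem_right _ _ (Ideal.pow_mem_of_mem _ hb 2 (by norm_num))
  obtain ⟨δ, hδ⟩ := hδ
  have rb : residue A b = 0 := (residue_eq_zero_iff _).mpr hb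
  have rδ : residue A (δ : A) = 1 := by rw [hδ]; simp [Udet, rb]
  have rδ' : residue A (↑δ⁻¹ : A) = 1 := by
    have : residue A (δ : A) * residue A (↑δ⁻¹ : A) = 1 := by rw [← map_mul, δ.mul_inv, map_one]
    rwa [rδ, one_mul] at this
  have e1 : (↑δ⁻¹ : A) * Udet N b = 1 := by rw [← hδ]; exact δ.inv_mul
  refine ⟨Umat N b, (↑δ⁻¹ : A) • Umat' N b, ?_, ?_, ?_, ?_, ?_, ?_⟩
  · rw [Matrix.mul_smul, Umat_mul_Umat', smul_smul, e1, one_smul]
  · rw [Matrix.smul_mul, Umat'_mul_Umat, smul_smul, e1, one_smul]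
  · ext p q
    simp [Umat, rb, Matrix.one_apply]
  · ext p q
    simp [Umat', rb, rδ, Matrix.one_apply]
    split_ifs <;> simp [rδ]
  · rw [Umat_comm, Matrix.mul_smul, mul_assoc, Umat_mul_Umat', Matrix.mul_smul, smul_smul, e1,
      one_smul, mul_one]
  · rw [Matrix.mul_smul, Matrix.smul_apply, Umat_conj_apply, smul_eq_mul]
    have : M i j + b * ((N * M - M * N) i j + N.trace * M i j) + b ^ 2 * (N * M * N.adjugate) i j
        = c * Udet N b := by
      simp only [Udet]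
      linear_combination hq
    rw [this, mul_comm c, ← mul_assoc, e1, one_mul]

theorem norm_exists [IsAdicComplete (maximalIdeal A) A] (N M : M₂) (i j : Fin 2) (c : A)
    (h00 : N 0 0 ∈ maximalIdeal A) (h10 : N 1 0 - 1 ∈ maximalIdeal A)
    (hc : M i j - c ∈ maximalIdeal A) (hcomm : IsUnit ((N * M - M * N) i j)) :
    ∃ P Q : M₂, P * Q = 1 ∧ Q * P = 1 ∧ P.map (residue A) = 1 ∧ Q.map (residue A) = 1 ∧
      (P * N * Q) 0 0 = 0 ∧ (P * N * Q) 1 0 = 1 ∧ (P * M * Q) i j = c := by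
  obtain ⟨P₁, Q₁, h1, h2, h3, h4, h5, h6⟩ := norm_step1' N h00 h10
  have hc' : (P₁ * M * Q₁) i j - c ∈ maximalIdeal A := by
    rw [← residue_eq_zero_iff, map_sub] at hc ⊢
    have := congrFun (congrFun (map_residue_conj P₁ Q₁ M h3 h4) i) j
    simp only [Matrix.map_apply] at this
    rw [this]; exact hc
  have hcomm' : IsUnit (((P₁ * N * Q₁) * (P₁ * M * Q₁) - (P₁ * M * Q₁) * (P₁ * N * Q₁)) i j) := by
    have e : (P₁ * N * Q₁) * (P₁ * M * Q₁) - (P₁ * M * Q₁) * (P₁ * N * Q₁)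
        = P₁ * (N * M - M * N) * Q₁ := by
      have a1 : (P₁ * N * Q₁) * (P₁ * M * Q₁) = P₁ * N * (Q₁ * P₁) * M * Q₁ := by
        simp only [mul_assoc]
      have a2 : (P₁ * M * Q₁) * (P₁ * N * Q₁) = P₁ * M * (Q₁ * P₁) * N * Q₁ := by
        simp only [mul_assoc]
      rw [a1, a2, h2]
      simp only [mul_one, mul_sub, sub_mul, mul_assoc]
    rw [e, isUnit_iff_residue_ne_zero]
    rw [isUnit_iff_residue_ne_zero] at hcomm
    have := congrFun (congrFun (map_residue_conj P₁ Q₁ (N * M - M * N) h3 h4) i) j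
    simp only [Matrix.map_apply] at this
    rw [this]; exact hcomm
  obtain ⟨P₂, Q₂, g1, g2, g3, g4, g5, g6⟩ :=
    norm_step2 (P₁ * N * Q₁) (P₁ * M * Q₁) i j c hc' hcomm'
  refine ⟨P₂ * P₁, Q₁ * Q₂, ?_, ?_, ?_, ?_, ?_, ?_, ?_⟩
  · calc P₂ * P₁ * (Q₁ * Q₂) = P₂ * (P₁ * Q₁) * Q₂ := by simp only [mul_assoc]
      _ = 1 := by rw [h1, mul_one, g1]
  · calc Q₁ * Q₂ * (P₂ * P₁) = Q₁ * (Q₂ * P₂) * P₁ := by simp only [mul_assoc]
      _ = 1 := by rw [g2, mul_one, h2]
  · rw [Matrix.map_mul, g3, h3, one_mul]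
  · rw [Matrix.map_mul, g4, h4, one_mul]
  · have : P₂ * P₁ * N * (Q₁ * Q₂) = P₂ * (P₁ * N * Q₁) * Q₂ := by simp only [mul_assoc]
    rw [this, g5, h5]
  · have : P₂ * P₁ * N * (Q₁ * Q₂) = P₂ * (P₁ * N * Q₁) * Q₂ := by simp only [mul_assoc]
    rw [this, g5, h6]
  · have : P₂ * P₁ * M * (Q₁ * Q₂) = P₂ * (P₁ * M * Q₁) * Q₂ := by simp only [mul_assoc]
    rw [this, g6]

end Existence


section Uniqueness

variable {A : Type} [CommRing A] [IsLocalRing A]

local notation "M₂" => Matrix (Fin 2) (Fin 2) A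

theorem norm_unique (N M N' M' P Q : M₂) (i j : Fin 2) (c : A)
    (hPQ : P * Q = 1) (hN : P * N = N' * P) (hM : P * M = M' * P)
    (n00 : N 0 0 = 0) (n10 : N 1 0 = 1) (n00' : N' 0 0 = 0) (n10' : N' 1 0 = 1)
    (mij : M i j = c) (mij' : M' i j = c)
    (p01 : P 0 1 ∈ maximalIdeal A) (p10 : P 1 0 ∈ maximalIdeal A)
    (hcomm : IsUnit ((N' * M' - M' * N') i j)) :
    ∃ l : A, IsUnit l ∧ P = l • (1 : M₂) := by
  have hdet : IsUnit P.det := by
    have : P.det * Q.det = 1 := by rw [← Matrix.det_mul, hPQ, Matrix.det_one]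
    exact IsUnit.of_mul_eq_one _ this
  have hl : IsUnit (P 0 0) := by
    have h1 : IsUnit (P 0 0 * P 1 1) := by
      have : P 0 0 * P 1 1 = P.det + P 0 1 * P 1 0 := by rw [Matrix.det_fin_two]; ring
      rw [this]
      exact isUnit_add_of_mem hdet (Ideal.mul_mem_right _ _ p01)
    exact isUnit_of_mul_isUnit_left h1
  obtain ⟨l, hl⟩ := hl
  have c0 : P 0 1 = N' 0 1 * P 1 0 := by
    have := congrFun (congrFun hN 0) 0
    simp only [Matrix.mul_apply, Fin.sum_univ_two, n00, n10, n00'] at this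
    simpa using this
  have c1 : P 1 1 = P 0 0 + N' 1 1 * P 1 0 := by
    have := congrFun (congrFun hN 1) 0
    simp only [Matrix.mul_apply, Fin.sum_univ_two, n00, n10, n10'] at this
    simpa using this
  set y : A := P 1 0 * (↑l⁻¹ : A) with hy
  have hym : y ∈ maximalIdeal A := Ideal.mul_mem_right _ _ p10
  have hly : (l : A) * y = P 1 0 := by
    rw [hy, mul_comm (P 1 0), ← mul_assoc, l.mul_inv, one_mul]
  have hP : P = (l : A) • Umat N' y := by
    ext a b
    fin_cases a <;> fin_cases b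
    · simp [Umat, n00', hl]
    · simp only [Umat, Fin.zero_eta, Fin.mk_one, Matrix.smul_apply, Matrix.add_apply,
        Matrix.one_apply, smul_eq_mul]
      rw [c0, ← hly]; simp; ring
    · simp only [Umat, Fin.zero_eta, Fin.mk_one, Matrix.smul_apply, Matrix.add_apply,
        Matrix.one_apply, smul_eq_mul, n10']
      rw [← hly]; simp
    · simp only [Umat, Fin.mk_one, Matrix.smul_apply, Matrix.add_apply,
        Matrix.one_apply, smul_eq_mul]
      rw [c1, ← hly, ← hl]; simp; ring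
  have hUM : Umat N' y * M = M' * Umat N' y := by
    have h := hM
    rw [hP, Matrix.smul_mul, Matrix.mul_smul] at h
    have := congrArg (fun X => (↑l⁻¹ : A) • X) h
    simpa [smul_smul] using this
  have hδ : Udet N' y • M = Umat' N' y * M' * Umat N' y := by
    rw [mul_assoc, ← hUM, ← mul_assoc, Umat'_mul_Umat, Matrix.smul_mul, one_mul]
  have hent := congrFun (congrFun hδ i) j
  rw [Matrix.smul_apply, Umat'_conj_apply, mij, mij', smul_eq_mul] at hent
  have hy0 : y = 0 := by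
    apply quad_unique (-(N' * M' - M' * N') i j) ((N'.adjugate * M' * N') i j - c * N'.det) y 0
      hcomm.neg hym (Ideal.zero_mem _)
    simp only [Udet] at hent
    linear_combination -hent
  refine ⟨l, l.isUnit, ?_⟩
  rw [hP, hy0]
  simp [Umat]

end Uniqueness

end Fermat.Agent.S53Aux
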