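/-
S53 helper library: consequences of absolute irreducibility in matrix form.
-/
import Fermat.Agent.S53_Mat
import Fermat.Agent.S53_Norm

set_option autoImplicit false

namespace Fermat.Agent.S53Aux

open IsLocalRing Module

section AbsIrr

variable {k : Type} [Field k]

theorem absIrr_schur {ρ : ResidualGaloisRep k} {r : GQ → M2 k} (h : HasMatRes ρ r)
    (habs : ρ.IsAbsolutelyIrreducible) (P : M2 k) (hP : ∀ σ, P * r σ = r σ * P) :
    P 0 1 = 0 ∧ P 1 0 = 0 := by
  let K := AlgebraicClosure k
  obtain ⟨b, hb⟩ := h.baseChange K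
  let PK : M2 K := P.map (algebraMap k K)
  let T : Module.End K (ρ.baseChange K).V := Matrix.toLin b b PK
  have hρ : ∀ σ, (ρ.baseChange K).ρ σ = Matrix.toLin b b ((r σ).map (algebraMap k K)) := by
    intro σ
    have := hb σ
    simp only at this
    rw [← this, Matrix.toLin_toMatrix]
  have hcomm : ∀ σ x, T ((ρ.baseChange K).ρ σ x) = (ρ.baseChange K).ρ σ (T x) := by
    intro σ x
    have : (Matrix.toLin b b PK) ∘ₗ (Matrix.toLin b b ((r σ).map (algebraMap k K)))
        = (Matrix.toLin b b ((r σ).map (algebraMap k K))) ∘ₗ (Matrix.toLin b b PK) := by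
      rw [← Matrix.toLin_mul b b b, ← Matrix.toLin_mul b b b]
      congr 1
      simp only [PK]
      rw [← Matrix.map_mul, ← Matrix.map_mul, hP]
    rw [hρ σ]
    exact congrArg (fun g => g x) this
  have : Nontrivial (ρ.baseChange K).V := by
    apply Module.nontrivial_of_finrank_pos (R := K)
    rw [(ρ.baseChange K).finrank_eq]; norm_num
  obtain ⟨μ, hμ⟩ := Module.End.exists_eigenvalue T
  have hW := habs (T.eigenspace μ) (by
    intro σ x hx
    rw [Module.End.mem_eigenspace_iff] at hx ⊢
    rw [hcomm, hx, map_smul])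
  rcases hW with hW | hW
  · exact absurd hW hμ
  · have hT : T = μ • (1 : Module.End K (ρ.baseChange K).V) := by
      refine LinearMap.ext fun x => ?_
      have : x ∈ T.eigenspace μ := by rw [hW]; trivial
      rw [Module.End.mem_eigenspace_iff] at this
      simpa using this
    have hPK : PK = μ • (1 : M2 K) := by
      have h1 : LinearMap.toMatrix b b T = PK := LinearMap.toMatrix_toLin b b PK
      rw [← h1, hT, map_smul]
      congr 1
      exact LinearMap.toMatrix_one b
    constructor
    · have := congrFun (congrFun hPK 0) 1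
      simp only [PK, Matrix.map_apply, Matrix.smul_apply, Matrix.one_apply] at this
      simpa using this
    · have := congrFun (congrFun hPK 1) 0
      simp only [PK, Matrix.map_apply, Matrix.smul_apply, Matrix.one_apply] at this
      simpa using this

theorem absIrr_exists_ne {ρ : ResidualGaloisRep k} {r : GQ → M2 k} (h : HasMatRes ρ r)
    (habs : ρ.IsAbsolutelyIrreducible) : ∃ g, r g 1 0 ≠ 0 := by
  by_contra hcon
  push Not at hcon
  let K := AlgebraicClosure k
  obtain ⟨b, hb⟩ := h.baseChange K
  have hb0 : ∀ σ, (ρ.baseChange K).ρ σ (b 0) = (algebraMap k K (r σ 0 0)) • b 0 := by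
    intro σ
    have h0 := hb σ
    simp only at h0
    have h1 := Matrix.toLin_self b b ((r σ).map (algebraMap k K)) 0
    rw [← h0, Matrix.toLin_toMatrix, h0, Fin.sum_univ_two] at h1
    simp only [Matrix.map_apply, hcon σ, map_zero, zero_smul, add_zero] at h1
    exact h1
  have hW := habs (K ∙ b 0) (by
    intro σ x hx
    obtain ⟨c, rfl⟩ := Submodule.mem_span_singleton.mp hx
    rw [map_smul, hb0, smul_smul]
    exact Submodule.mem_span_singleton.mpr ⟨_, rfl⟩)
  rcases hW with hW | hW
  · rw [Submodule.span_singleton_eq_bot] at hW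
    exact b.ne_zero 0 hW
  · have : b 1 ∈ K ∙ b 0 := by rw [hW]; trivial
    obtain ⟨c, hc⟩ := Submodule.mem_span_singleton.mp this
    have := congrArg (fun x => b.repr x 1) hc
    simp at this

end AbsIrr

end Fermat.Agent.S53Aux
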