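/-
S53 helper library: rigidification data and normalized lifts.
-/
import Fermat.Agent.S53_Res

set_option autoImplicit false

namespace Fermat.Agent.S53Aux

open IsLocalRing Module

/-- Rigidification data for a residual representation, expressed through a set-theoretic lift
`rt` of the residual matrices to `𝒪`. -/
structure ResData (𝒪 : Type) [CommRing 𝒪] [IsLocalRing 𝒪] where
  rt : GQ → M2 𝒪
  g1 : GQ
  g2 : GQ
  i : Fin 2
  j : Fin 2
  h00 : rt g1 0 0 ∈ maximalIdeal 𝒪
  h10 : rt g1 1 0 - 1 ∈ maximalIdeal 𝒪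
  hcomm : IsUnit ((rt g1 * rt g2 - rt g2 * rt g1) i j)
  schur : ∀ P : M2 𝒪, (∀ σ a b, (P * rt σ - rt σ * P) a b ∈ maximalIdeal 𝒪) →
    P 0 1 ∈ maximalIdeal 𝒪 ∧ P 1 0 ∈ maximalIdeal 𝒪

theorem mmap_sub {A B : Type} [CommRing A] [CommRing B] (f : A →+* B) (X Y : M2 A) :
    (X - Y).map f = X.map f - Y.map f := by
  ext a b; simp

theorem mmap_one {A B : Type} [CommRing A] [CommRing B] (f : A →+* B) :
    (1 : M2 A).map f = 1 := by
  ext a b; simp [Matrix.one_apply]

variable {𝒪 : Type} [CommRing 𝒪] [IsLocalRing 𝒪]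

theorem exists_resData (ρbar : ResidualGaloisRep (ResidueField 𝒪))
    (habs : ρbar.IsAbsolutelyIrreducible) :
    ∃ D : ResData 𝒪, HasMatRes ρbar (fun σ => (D.rt σ).map (residue 𝒪)) := by
  obtain ⟨r₀, hr₀⟩ := exists_hasMatRes ρbar
  obtain ⟨g1, hg1⟩ := absIrr_exists_ne hr₀ habs
  obtain ⟨h1, h2, h3, h4⟩ := norm_step1 (r₀ g1) (Units.mk0 _ hg1) rfl
  have hr := hr₀.conj _ _ h1 h2
  set r : GQ → M2 (ResidueField 𝒪) := fun σ => _ * r₀ σ * _ with hrdef
  have hschur := absIrr_schur hr habs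
  have hex : ∃ g2, r g1 * r g2 ≠ r g2 * r g1 := by
    by_contra hcon
    push Not at hcon
    have := (hschur (r g1) hcon).2
    rw [show r g1 1 0 = 1 from h4] at this
    exact one_ne_zero this
  obtain ⟨g2, hg2⟩ := hex
  have hij : ∃ i j, (r g1 * r g2 - r g2 * r g1) i j ≠ 0 := by
    by_contra hcon
    push Not at hcon
    apply hg2
    rw [← sub_eq_zero]
    ext i j
    exact hcon i j
  obtain ⟨i, j, hij⟩ := hij
  let rt : GQ → M2 𝒪 := fun σ => (r σ).map (Function.surjInv (residue_surjective (R := 𝒪)))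
  have hrt : ∀ σ, (rt σ).map (residue 𝒪) = r σ := by
    intro σ
    ext a b
    simp only [rt, Matrix.map_apply]
    exact Function.surjInv_eq residue_surjective _
  have hent : ∀ σ a b, residue 𝒪 (rt σ a b) = r σ a b := fun σ a b => by
    rw [← hrt σ]; rfl
  refine ⟨⟨rt, g1, g2, i, j, ?_, ?_, ?_, ?_⟩, ?_⟩
  · rw [← residue_eq_zero_iff, hent]; exact h3
  · rw [← residue_eq_zero_iff, map_sub, hent, map_one, sub_eq_zero]; exact h4
  · rw [isUnit_iff_residue_ne_zero]
    have : residue 𝒪 ((rt g1 * rt g2 - rt g2 * rt g1) i j)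
        = ((rt g1 * rt g2 - rt g2 * rt g1).map (residue 𝒪)) i j := rfl
    rw [this, mmap_sub, Matrix.map_mul, Matrix.map_mul, hrt, hrt]
    exact hij
  · intro P hP
    have := hschur (P.map (residue 𝒪)) (by
      intro σ
      rw [← hrt σ, ← Matrix.map_mul, ← Matrix.map_mul, ← sub_eq_zero, ← mmap_sub]
      ext a b
      exact (residue_eq_zero_iff _).mpr (hP σ a b))
    exact ⟨(residue_eq_zero_iff _).mp this.1, (residue_eq_zero_iff _).mp this.2⟩
  · simp only [hrt]
    exact hr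


section NLift

variable {A : Type} [CommRing A] [IsLocalRing A] [Algebra 𝒪 A]

/-- `r` is a normalized lift of the residual matrices. -/
structure NLift (D : ResData 𝒪) (r : GQ → M2 A) : Prop where
  res : ∀ σ, (r σ).map (residue A) = (D.rt σ).map ((residue A).comp (algebraMap 𝒪 A))
  n00 : r D.g1 0 0 = 0
  n10 : r D.g1 1 0 = 1
  nij : r D.g2 D.i D.j = algebraMap 𝒪 A (D.rt D.g2 D.i D.j)

theorem algebraMap_mem_maximalIdeal [IsLocalHom (algebraMap 𝒪 A)] {o : 𝒪}
    (ho : o ∈ maximalIdeal 𝒪) : algebraMap 𝒪 A o ∈ maximalIdeal A :=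
  map_nonunit (algebraMap 𝒪 A) o ho

/-- (K4) a representation with a normalized matrix form lifts `ρbar`. -/
theorem residual_isEquiv_of_res [IsLocalHom (algebraMap 𝒪 A)] (D : ResData 𝒪)
    {ρbar : ResidualGaloisRep (ResidueField 𝒪)}
    (hD : HasMatRes ρbar (fun σ => (D.rt σ).map (residue 𝒪)))
    {ρ : GaloisRepAdic A} {r : GQ → M2 A} (h : HasMat ρ r)
    (hres : ∀ σ, (r σ).map (residue A) = (D.rt σ).map ((residue A).comp (algebraMap 𝒪 A))) :
    ρ.residual.IsEquiv (ρbar.baseChangeAlong (ResidueField.map (algebraMap 𝒪 A))) := by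
  refine h.residual.isEquiv ?_
  have := hD.baseChangeAlong (ResidueField.map (algebraMap 𝒪 A))
  convert this using 2 with σ
  rw [hres σ]
  ext a b
  simp [ResidueField.map_residue]

/-- a lift of the residual matrices exists in every deformation -/
theorem exists_hasMat_res [IsLocalHom (algebraMap 𝒪 A)] (D : ResData 𝒪)
    {ρbar : ResidualGaloisRep (ResidueField 𝒪)}
    (hD : HasMatRes ρbar (fun σ => (D.rt σ).map (residue 𝒪)))
    (ρ : GaloisRepAdic A)
    (hρ : ρ.residual.IsEquiv (ρbar.baseChangeAlong (ResidueField.map (algebraMap 𝒪 A)))) :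
    ∃ r, HasMat ρ r ∧
      ∀ σ, (r σ).map (residue A) = (D.rt σ).map ((residue A).comp (algebraMap 𝒪 A)) := by
  obtain ⟨r₀, hr₀⟩ := exists_hasMat ρ
  have h1 := hr₀.residual
  obtain ⟨e⟩ := hρ
  have h2 := (hD.baseChangeAlong (ResidueField.map (algebraMap 𝒪 A))).of_isEquiv ⟨e.symm⟩
  obtain ⟨Pb, Qb, hPQ, hQP, hconj⟩ := h1.exists_conj h2
  let P : M2 A := Pb.map (Function.surjInv (residue_surjective (R := A)))
  have hP : P.map (residue A) = Pb := by
    ext a b
    simp only [P, Matrix.map_apply]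
    exact Function.surjInv_eq residue_surjective _
  have hdet : IsUnit P.det := by
    rw [isUnit_iff_residue_ne_zero]
    have : residue A P.det = Pb.det := by
      rw [← hP]; exact RingHom.map_det (residue A) P
    rw [this]
    intro h0
    have : Pb.det * Qb.det = 1 := by rw [← Matrix.det_mul, hPQ, Matrix.det_one]
    rw [h0, zero_mul] at this
    exact zero_ne_one this
  have h3 : P * P⁻¹ = 1 := Matrix.mul_nonsing_inv P hdet
  have h4 : P⁻¹ * P = 1 := Matrix.nonsing_inv_mul P hdet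
  have hQ : (P⁻¹).map (residue A) = Qb := by
    have : Pb * (P⁻¹).map (residue A) = 1 := by rw [← hP, ← Matrix.map_mul, h3, mmap_one]
    calc (P⁻¹).map (residue A) = (Qb * Pb) * (P⁻¹).map (residue A) := by rw [hQP, one_mul]
      _ = Qb := by rw [mul_assoc, this, mul_one]
  refine ⟨_, hr₀.conj P P⁻¹ h3 h4, fun σ => ?_⟩
  rw [Matrix.map_mul, Matrix.map_mul, hP, hQ]
  have := hconj σ
  rw [← this]
  ext a b
  simp [ResidueField.map_residue]

/-- (K1) existence of the normalized form. -/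
theorem exists_nlift [IsLocalHom (algebraMap 𝒪 A)] [IsAdicComplete (maximalIdeal A) A]
    (D : ResData 𝒪) {ρbar : ResidualGaloisRep (ResidueField 𝒪)}
    (hD : HasMatRes ρbar (fun σ => (D.rt σ).map (residue 𝒪)))
    (ρ : GaloisRepAdic A)
    (hρ : ρ.residual.IsEquiv (ρbar.baseChangeAlong (ResidueField.map (algebraMap 𝒪 A)))) :
    ∃ r, HasMat ρ r ∧ NLift D r := by
  obtain ⟨r₁, hr₁, hres⟩ := exists_hasMat_res D hD ρ hρ
  have hent : ∀ σ a b, residue A (r₁ σ a b) = residue A (algebraMap 𝒪 A (D.rt σ a b)) := by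
    intro σ a b
    exact congrFun (congrFun (hres σ) a) b
  have hmat : ∀ X : M2 𝒪, X.map ((residue A).comp (algebraMap 𝒪 A))
      = (X.map (algebraMap 𝒪 A)).map (residue A) := by
    intro X; ext a b; simp
  obtain ⟨P, Q, h1, h2, h3, h4, h5, h6, h7⟩ := norm_exists (r₁ D.g1) (r₁ D.g2) D.i D.j
    (algebraMap 𝒪 A (D.rt D.g2 D.i D.j))
    (by rw [← residue_eq_zero_iff, hent, residue_eq_zero_iff]
        exact algebraMap_mem_maximalIdeal D.h00)
    (by rw [← residue_eq_zero_iff, map_sub, hent, ← map_sub, residue_eq_zero_iff]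
        have := algebraMap_mem_maximalIdeal (A := A) D.h10
        simpa using this)
    (by rw [← residue_eq_zero_iff, map_sub, hent, sub_self])
    (by
      rw [isUnit_iff_residue_ne_zero]
      have e1 : residue A ((r₁ D.g1 * r₁ D.g2 - r₁ D.g2 * r₁ D.g1) D.i D.j)
          = ((r₁ D.g1 * r₁ D.g2 - r₁ D.g2 * r₁ D.g1).map (residue A)) D.i D.j := rfl
      rw [e1, mmap_sub, Matrix.map_mul, Matrix.map_mul, hres, hres, ← Matrix.map_mul,
        ← Matrix.map_mul, ← mmap_sub]
      have := (D.hcomm.map (algebraMap 𝒪 A))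
      rw [isUnit_iff_residue_ne_zero] at this
      exact this)
  refine ⟨_, hr₁.conj P Q h1 h2, ⟨fun σ => ?_, h5, h6, h7⟩⟩
  rw [map_residue_conj P Q _ h3 h4, hres]

/-- (K2) uniqueness of the normalized form. -/
theorem nlift_unique [IsLocalHom (algebraMap 𝒪 A)]
    (hsurj : Function.Surjective (residue A ∘ algebraMap 𝒪 A))
    (D : ResData 𝒪) {ρ ρ' : GaloisRepAdic A} {r r' : GQ → M2 A} (h : HasMat ρ r)
    (h' : HasMat ρ' r') (e : ρ.IsEquiv ρ') (hn : NLift D r) (hn' : NLift D r') : r = r' := by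
  obtain ⟨P, Q, hPQ, hQP, hconj⟩ := (h.of_isEquiv e).exists_conj h'
  have hint : ∀ σ, P * r σ = r' σ * P := by
    intro σ
    rw [hconj σ, mul_assoc, hQP, mul_one]
  -- lift `P` modulo the maximal ideal to `𝒪`
  let P₀ : M2 𝒪 := fun a b => Function.surjInv hsurj (residue A (P a b))
  have hP₀ : P₀.map ((residue A).comp (algebraMap 𝒪 A)) = P.map (residue A) := by
    ext a b
    exact Function.surjInv_eq hsurj _
  have hs := D.schur P₀ (by
    intro σ a b
    by_contra hcon
    have hu : IsUnit ((P₀ * D.rt σ - D.rt σ * P₀) a b) := by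
      by_contra h0; exact hcon ((mem_maximalIdeal _).mpr h0)
    have hu' := hu.map (algebraMap 𝒪 A)
    rw [isUnit_iff_residue_ne_zero] at hu'
    apply hu'
    have e1 : residue A (algebraMap 𝒪 A ((P₀ * D.rt σ - D.rt σ * P₀) a b))
        = ((P₀ * D.rt σ - D.rt σ * P₀).map ((residue A).comp (algebraMap 𝒪 A))) a b := rfl
    rw [e1, mmap_sub, Matrix.map_mul, Matrix.map_mul, hP₀]
    nth_rewrite 1 [← hn.res σ]
    rw [← hn'.res σ, ← Matrix.map_mul, ← Matrix.map_mul, hint, sub_self]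
    rfl)
  have hmem : ∀ a b, P₀ a b ∈ maximalIdeal 𝒪 → P a b ∈ maximalIdeal A := by
    intro a b hab
    rw [← residue_eq_zero_iff]
    have := congrFun (congrFun hP₀ a) b
    simp only [Matrix.map_apply, RingHom.comp_apply] at this
    rw [← this, residue_eq_zero_iff]
    exact algebraMap_mem_maximalIdeal hab
  obtain ⟨l, hl, hPl⟩ := norm_unique (r D.g1) (r D.g2) (r' D.g1) (r' D.g2) P Q D.i D.j
    (algebraMap 𝒪 A (D.rt D.g2 D.i D.j)) hPQ (hint _) (hint _) hn.n00 hn.n10 hn'.n00 hn'.n10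
    hn.nij hn'.nij (hmem 0 1 hs.1) (hmem 1 0 hs.2)
    (by
      rw [isUnit_iff_residue_ne_zero]
      have e1 : residue A ((r' D.g1 * r' D.g2 - r' D.g2 * r' D.g1) D.i D.j)
          = ((r' D.g1 * r' D.g2 - r' D.g2 * r' D.g1).map (residue A)) D.i D.j := rfl
      rw [e1, mmap_sub, Matrix.map_mul, Matrix.map_mul, hn'.res, hn'.res, ← Matrix.map_mul,
        ← Matrix.map_mul, ← mmap_sub]
      have := (D.hcomm.map (algebraMap 𝒪 A))
      rw [isUnit_iff_residue_ne_zero] at this
      exact this)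
  funext σ
  have := hint σ
  rw [hPl, Matrix.smul_mul, Matrix.mul_smul, one_mul, mul_one] at this
  obtain ⟨u, rfl⟩ := hl
  have h2 := congrArg (fun X => (↑u⁻¹ : A) • X) this
  simpa [smul_smul] using h2

/-- (K3) functoriality of normalized lifts. -/
theorem NLift.map {B : Type} [CommRing B] [IsLocalRing B] [Algebra 𝒪 B] {D : ResData 𝒪}
    {r : GQ → M2 A} (hn : NLift D r) (φ : A →ₐ[𝒪] B) [IsLocalHom (φ : A →+* B)] :
    NLift D (fun σ => (r σ).map φ) := by
  refine ⟨fun σ => ?_, ?_, ?_, ?_⟩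
  · ext a b
    have h1 := congrFun (congrFun (hn.res σ) a) b
    simp only [Matrix.map_apply, RingHom.comp_apply] at h1 ⊢
    have h2 := congrArg (ResidueField.map (φ : A →+* B)) h1
    rw [ResidueField.map_residue, ResidueField.map_residue] at h2
    simpa using h2
  · simp [hn.n00]
  · simp [hn.n10]
  · simp [hn.nij]

end NLift

end Fermat.Agent.S53Aux
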