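/-
S53 helper library, part "Artinian test algebras" (pure commutative algebra).
-/
import Mathlib
import Fermat.Prelude.Def_GaloisRep_DeformationCondition

set_option autoImplicit false
set_option linter.style.haveILetI false
set_option linter.unusedVariables false
set_option linter.unusedSectionVars false

namespace Fermat.Agent.S53Aux

open IsLocalRing GaloisRep

variable {𝒪 : Type} [CommRing 𝒪] [IsLocalRing 𝒪]

section Basic

variable {A : Type} [CommRing A] [IsLocalRing A] [Algebra 𝒪 A]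

/-- (T0') -/
theorem test_exists_pow_eq_bot (hA : IsArtinianTestAlgebra 𝒪 A) :
    ∃ n : ℕ, maximalIdeal A ^ n = ⊥ := by
  haveI := hA.isArtinian
  obtain ⟨n, hn⟩ := (isArtinianRing_iff_isNilpotent_maximalIdeal A).mp inferInstance
  exact ⟨n, hn⟩

/-- (T2) -/
theorem test_mem_maximalIdeal_iff (hA : IsArtinianTestAlgebra 𝒪 A) (a : A) :
    a ∈ maximalIdeal A ↔ IsNilpotent a := by
  constructor
  · intro ha
    obtain ⟨n, hn⟩ := test_exists_pow_eq_bot hA
    refine ⟨n, ?_⟩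
    have := Ideal.pow_mem_pow ha n
    rwa [hn, Ideal.mem_bot] at this
  · intro ha
    rw [mem_maximalIdeal, mem_nonunits_iff]
    exact ha.not_isUnit

theorem finite_residueField_of_surjective [Finite (ResidueField 𝒪)]
    (h1 : IsLocalHom (algebraMap 𝒪 A))
    (h2 : Function.Surjective (IsLocalRing.residue A ∘ algebraMap 𝒪 A)) :
    Finite (ResidueField A) := by
  haveI := h1
  apply Finite.of_surjective (ResidueField.map (algebraMap 𝒪 A))
  intro y
  obtain ⟨o, rfl⟩ := h2 y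
  exact ⟨residue 𝒪 o, rfl⟩

/-- (T0) -/
theorem test_finite [Finite (ResidueField 𝒪)] (hA : IsArtinianTestAlgebra 𝒪 A) : Finite A := by
  haveI := hA.isArtinian
  haveI := finite_residueField_of_surjective hA.isLocalHom hA.residue_surjective
  obtain ⟨n, hn⟩ := test_exists_pow_eq_bot hA
  haveI : Finite (A ⧸ (⊥ : Ideal A)) := finite_quotient_iff.mpr ⟨n, hn.le⟩
  exact Finite.of_equiv _ (RingEquiv.quotientBot A).toEquiv

/-- every element is congruent to a constant -/
theorem exists_sub_algebraMap_mem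
    (h2 : Function.Surjective (IsLocalRing.residue A ∘ algebraMap 𝒪 A)) (a : A) :
    ∃ o : 𝒪, a - algebraMap 𝒪 A o ∈ maximalIdeal A := by
  obtain ⟨o, ho⟩ := h2 (residue A a)
  refine ⟨o, ?_⟩
  rw [← residue_eq_zero_iff, map_sub, sub_eq_zero]
  exact ho.symm

end Basic

section Criterion

/-- (T1a) -/
theorem isLocalRing_of_nil (A : Type) [CommRing A] [Algebra 𝒪 A] [Nontrivial A]
    (h1 : ∀ o ∈ maximalIdeal 𝒪, IsNilpotent (algebraMap 𝒪 A o))
    (h2 : ∀ a : A, ∃ o : 𝒪, IsNilpotent (a - algebraMap 𝒪 A o)) : IsLocalRing A := by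
  apply IsLocalRing.of_isUnit_or_isUnit_one_sub_self
  intro a
  obtain ⟨o, ho⟩ := h2 a
  by_cases hu : IsUnit o
  · left
    have := ho.isUnit_add_left_of_commute (hu.map (algebraMap 𝒪 A)) (Commute.all _ _)
    rwa [add_sub_cancel] at this
  · right
    have h3 : IsNilpotent a := by
      have := (Commute.all _ _).isNilpotent_add ho (h1 o hu)
      rwa [sub_add_cancel] at this
    exact h3.isUnit_one_sub

/-- (T1b) -/
theorem test_of_nil (A : Type) [CommRing A] [IsLocalRing A] [Algebra 𝒪 A] [Finite A]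
    (h1 : ∀ o ∈ maximalIdeal 𝒪, IsNilpotent (algebraMap 𝒪 A o))
    (h2 : ∀ a : A, ∃ o : 𝒪, IsNilpotent (a - algebraMap 𝒪 A o)) :
    IsArtinianTestAlgebra 𝒪 A where
  isLocalHom := ⟨fun o ho => by
    by_contra hu
    exact (h1 o hu).not_isUnit ho⟩
  residue_surjective := fun y => by
    obtain ⟨a, rfl⟩ := residue_surjective y
    obtain ⟨o, ho⟩ := h2 a
    refine ⟨o, ?_⟩
    symm
    rw [← sub_eq_zero]
    show residue A a - residue A (algebraMap 𝒪 A o) = 0
    rw [← map_sub, residue_eq_zero_iff, mem_maximalIdeal, mem_nonunits_iff]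
    exact ho.not_isUnit
  isArtinian := inferInstance

/-- (T3) algebra homs out of a test algebra into a nontrivial ring reflect units. -/
theorem test_isLocalHom {A B : Type} [CommRing A] [IsLocalRing A] [Algebra 𝒪 A]
    [CommRing B] [Nontrivial B] [Algebra 𝒪 B] (hA : IsArtinianTestAlgebra 𝒪 A)
    (φ : A →ₐ[𝒪] B) : IsLocalHom (φ : A →+* B) := by
  constructor
  intro a ha
  by_contra hu
  have h1 : IsNilpotent a := (test_mem_maximalIdeal_iff hA a).mp hu
  exact (h1.map (φ : A →+* B)).not_isUnit ha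

end Criterion

section Aug

variable (A : Type) [CommRing A] [IsLocalRing A] [Algebra 𝒪 A]

/-- (T4) the augmentation `A → k`. -/
theorem exists_aug (h1 : IsLocalHom (algebraMap 𝒪 A))
    (h2 : Function.Surjective (IsLocalRing.residue A ∘ algebraMap 𝒪 A)) :
    ∃ χ : A →ₐ[𝒪] ResidueField 𝒪, ∀ a, χ a = 0 ↔ a ∈ maximalIdeal A := by
  haveI := h1
  have hbij : Function.Bijective (ResidueField.map (algebraMap 𝒪 A)) := by
    refine ⟨(ResidueField.map (algebraMap 𝒪 A)).injective, fun y => ?_⟩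
    obtain ⟨o, rfl⟩ := h2 y
    exact ⟨residue 𝒪 o, rfl⟩
  let e := RingEquiv.ofBijective _ hbij
  refine ⟨{ ((e.symm : ResidueField A →+* ResidueField 𝒪).comp (residue A)) with
    commutes' := fun o => ?_ }, fun a => ?_⟩
  · show e.symm (residue A (algebraMap 𝒪 A o)) = residue 𝒪 o
    rw [RingEquiv.symm_apply_eq]
    rfl
  · show e.symm (residue A a) = 0 ↔ _
    rw [map_eq_zero_iff _ e.symm.injective, residue_eq_zero_iff]

end Aug


section Constructions

variable [Finite (ResidueField 𝒪)]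

/-- (T8a) the residue field is a test algebra -/
theorem test_residueField : IsArtinianTestAlgebra 𝒪 (ResidueField 𝒪) where
  isLocalHom := inferInstanceAs (IsLocalHom (residue 𝒪))
  residue_surjective := (residue_surjective (R := ResidueField 𝒪)).comp (residue_surjective (R := 𝒪))
  isArtinian := inferInstance

/-- the `𝒪`-algebra structure on the dual numbers used in `GaloisRep.TangentFinite`. -/
@[reducible] noncomputable def dualAlg (𝒪 : Type) [CommRing 𝒪] [IsLocalRing 𝒪] :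
    Algebra 𝒪 (DualNumber (ResidueField 𝒪)) :=
  ((algebraMap (ResidueField 𝒪) (DualNumber (ResidueField 𝒪))).comp
      (algebraMap 𝒪 (ResidueField 𝒪))).toAlgebra

theorem dualAlg_algebraMap (o : 𝒪) :
    letI := dualAlg 𝒪
    algebraMap 𝒪 (DualNumber (ResidueField 𝒪)) o = TrivSqZeroExt.inl (residue 𝒪 o) := rfl

/-- (T8b) the dual numbers are a test algebra -/
theorem test_dualNumber :
    letI := dualAlg 𝒪
    IsArtinianTestAlgebra 𝒪 (DualNumber (ResidueField 𝒪)) := by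
  letI := dualAlg 𝒪
  haveI : Finite (DualNumber (ResidueField 𝒪)) :=
    inferInstanceAs (Finite (ResidueField 𝒪 × ResidueField 𝒪))
  apply test_of_nil
  · intro o ho
    rw [dualAlg_algebraMap, (residue_eq_zero_iff o).mpr ho, TrivSqZeroExt.inl_zero]
    exact IsNilpotent.zero
  · intro a
    obtain ⟨o, ho⟩ := residue_surjective a.fst
    refine ⟨o, 2, ?_⟩
    rw [dualAlg_algebraMap, ho]
    ext <;> simp [pow_two]


variable {A B : Type} [CommRing A] [IsLocalRing A] [Algebra 𝒪 A]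
  [CommRing B] [IsLocalRing B] [Algebra 𝒪 B]

omit [Finite (ResidueField 𝒪)] in
theorem test_algebraMap_nilpotent (hA : IsArtinianTestAlgebra 𝒪 A) (o : 𝒪) (ho : o ∈ maximalIdeal 𝒪) :
    IsNilpotent (algebraMap 𝒪 A o) := by
  haveI := hA.isLocalHom
  exact (test_mem_maximalIdeal_iff hA _).mp (map_nonunit (algebraMap 𝒪 A) o ho)

omit [Finite (ResidueField 𝒪)] in
theorem test_exists_sub_nilpotent (hA : IsArtinianTestAlgebra 𝒪 A) (a : A) :
    ∃ o : 𝒪, IsNilpotent (a - algebraMap 𝒪 A o) := by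
  obtain ⟨o, ho⟩ := exists_sub_algebraMap_mem hA.residue_surjective a
  exact ⟨o, (test_mem_maximalIdeal_iff hA _).mp ho⟩

omit [Finite (ResidueField 𝒪)] [IsLocalRing 𝒪] [Algebra 𝒪 A] [Algebra 𝒪 B] in
theorem map_mem_pow_of_mem_pow (f : B →+* A) (hf : ∀ x ∈ maximalIdeal B, f x ∈ maximalIdeal A) (n : ℕ)
    (x : B) (hx : x ∈ maximalIdeal B ^ n) : f x ∈ maximalIdeal A ^ n := by
  have h1 : f x ∈ (maximalIdeal B ^ n).map f := Ideal.mem_map_of_mem _ hx
  rw [Ideal.map_pow] at h1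
  exact Ideal.pow_right_mono (Ideal.map_le_iff_le_comap.mpr hf) n h1

/-- (T6) subalgebras of test algebras -/
theorem test_subalgebra (hA : IsArtinianTestAlgebra 𝒪 A) (S : Subalgebra 𝒪 A) :
    ∃ _ : IsLocalRing S, IsArtinianTestAlgebra 𝒪 S ∧
      ∀ n : ℕ, maximalIdeal A ^ n = ⊥ → maximalIdeal S ^ n = ⊥ := by
  haveI := test_finite hA
  have hnil : ∀ x : S, IsNilpotent (x : A) → IsNilpotent x := by
    rintro x ⟨n, hn⟩
    exact ⟨n, Subtype.ext (by simpa using hn)⟩
  have h1 : ∀ o ∈ maximalIdeal 𝒪, IsNilpotent (algebraMap 𝒪 S o) := fun o ho =>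
    hnil _ (test_algebraMap_nilpotent hA o ho)
  have h2 : ∀ a : S, ∃ o : 𝒪, IsNilpotent (a - algebraMap 𝒪 S o) := fun a => by
    obtain ⟨o, ho⟩ := test_exists_sub_nilpotent hA (a : A)
    exact ⟨o, hnil _ ho⟩
  haveI hloc : IsLocalRing S := isLocalRing_of_nil S h1 h2
  have htest : IsArtinianTestAlgebra 𝒪 S := test_of_nil S h1 h2
  refine ⟨hloc, htest, fun n hn => ?_⟩
  rw [eq_bot_iff]
  intro x hx
  have := map_mem_pow_of_mem_pow (S.val : S →+* A) (fun y hy =>
    (test_mem_maximalIdeal_iff hA _).mpr (((test_mem_maximalIdeal_iff htest y).mp hy).map S.val)) n x hx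
  rw [hn, Ideal.mem_bot] at this
  exact Subtype.ext this

omit [Finite (ResidueField 𝒪)] [IsLocalRing 𝒪] [Algebra 𝒪 A] in
theorem maximalIdeal_quotient (𝔞 : Ideal A) [IsLocalRing (A ⧸ 𝔞)] :
    maximalIdeal (A ⧸ 𝔞) = (maximalIdeal A).map (Ideal.Quotient.mk 𝔞) := by
  haveI := IsLocalHom.of_surjective (Ideal.Quotient.mk 𝔞) Ideal.Quotient.mk_surjective
  apply le_antisymm
  · intro x hx
    obtain ⟨x, rfl⟩ := Ideal.Quotient.mk_surjective x
    apply Ideal.mem_map_of_mem
    rw [mem_maximalIdeal, mem_nonunits_iff] at hx ⊢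
    rwa [isUnit_map_iff] at hx
  · rw [Ideal.map_le_iff_le_comap]
    intro x hx
    exact map_nonunit (Ideal.Quotient.mk 𝔞) x hx

/-- (T7) quotients of test algebras -/
theorem test_quotient (hA : IsArtinianTestAlgebra 𝒪 A) (𝔞 : Ideal A) (h : 𝔞 ≠ ⊤) :
    ∃ _ : IsLocalRing (A ⧸ 𝔞), IsArtinianTestAlgebra 𝒪 (A ⧸ 𝔞) ∧
      maximalIdeal (A ⧸ 𝔞) = (maximalIdeal A).map (Ideal.Quotient.mk 𝔞) := by
  haveI := test_finite hA
  haveI : Finite (A ⧸ 𝔞) := Finite.of_surjective _ (Ideal.Quotient.mk_surjective (I := 𝔞))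
  haveI : Nontrivial (A ⧸ 𝔞) := Ideal.Quotient.nontrivial_iff.mpr h
  haveI hloc : IsLocalRing (A ⧸ 𝔞) :=
    IsLocalRing.of_surjective' (Ideal.Quotient.mk 𝔞) Ideal.Quotient.mk_surjective
  refine ⟨hloc, test_of_nil _ (fun o ho => ?_) (fun a => ?_), maximalIdeal_quotient 𝔞⟩
  · exact (test_algebraMap_nilpotent hA o ho).map (Ideal.Quotient.mk 𝔞)
  · obtain ⟨a, rfl⟩ := Ideal.Quotient.mk_surjective a
    obtain ⟨o, ho⟩ := test_exists_sub_nilpotent hA a
    exact ⟨o, by simpa using ho.map (Ideal.Quotient.mk 𝔞)⟩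

/-- (T9) Artinian quotients of complete local algebras -/
theorem test_quotient_pow [IsNoetherianRing A] (h1 : IsLocalHom (algebraMap 𝒪 A))
    (h2 : Function.Surjective (IsLocalRing.residue A ∘ algebraMap 𝒪 A)) (n : ℕ) :
    ∃ _ : IsLocalRing (A ⧸ maximalIdeal A ^ (n + 1)),
      IsArtinianTestAlgebra 𝒪 (A ⧸ maximalIdeal A ^ (n + 1)) ∧
      maximalIdeal (A ⧸ maximalIdeal A ^ (n + 1)) ^ (n + 1) = ⊥ := by
  haveI := h1
  haveI := finite_residueField_of_surjective h1 h2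
  haveI : Finite (A ⧸ maximalIdeal A ^ (n + 1)) := finite_quotient_iff.mpr ⟨n + 1, le_rfl⟩
  have hne : maximalIdeal A ^ (n + 1) ≠ ⊤ := by
    intro h
    have h3 : maximalIdeal A ^ (n + 1) ≤ maximalIdeal A := Ideal.pow_le_self (by omega)
    rw [h] at h3
    exact (Ideal.IsMaximal.ne_top inferInstance) (top_le_iff.mp h3)
  haveI : Nontrivial (A ⧸ maximalIdeal A ^ (n + 1)) := Ideal.Quotient.nontrivial_iff.mpr hne
  haveI hloc : IsLocalRing (A ⧸ maximalIdeal A ^ (n + 1)) :=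
    IsLocalRing.of_surjective' (Ideal.Quotient.mk _) Ideal.Quotient.mk_surjective
  have hnil : ∀ x ∈ maximalIdeal A, IsNilpotent (Ideal.Quotient.mk (maximalIdeal A ^ (n + 1)) x) := by
    intro x hx
    refine ⟨n + 1, ?_⟩
    rw [← map_pow, Ideal.Quotient.eq_zero_iff_mem]
    exact Ideal.pow_mem_pow hx _
  refine ⟨hloc, test_of_nil _ (fun o ho => ?_) (fun a => ?_), ?_⟩
  · exact hnil _ (map_nonunit (algebraMap 𝒪 A) o ho)
  · obtain ⟨a, rfl⟩ := Ideal.Quotient.mk_surjective a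
    obtain ⟨o, ho⟩ := exists_sub_algebraMap_mem h2 a
    exact ⟨o, by simpa using hnil _ ho⟩
  · rw [maximalIdeal_quotient, ← Ideal.map_pow, Ideal.map_quotient_self]


/-- (T5) fibre product over the residue field -/
theorem test_fibreProduct (hA : IsArtinianTestAlgebra 𝒪 A) (hB : IsArtinianTestAlgebra 𝒪 B)
    (χA : A →ₐ[𝒪] ResidueField 𝒪) (χB : B →ₐ[𝒪] ResidueField 𝒪) :
    ∃ _ : IsLocalRing (AlgHom.equalizer (χA.comp (AlgHom.fst 𝒪 A B)) (χB.comp (AlgHom.snd 𝒪 A B))),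
      IsArtinianTestAlgebra 𝒪
        (AlgHom.equalizer (χA.comp (AlgHom.fst 𝒪 A B)) (χB.comp (AlgHom.snd 𝒪 A B))) ∧
      ∀ n : ℕ, maximalIdeal A ^ n = ⊥ → maximalIdeal B ^ n = ⊥ →
        maximalIdeal
          (AlgHom.equalizer (χA.comp (AlgHom.fst 𝒪 A B)) (χB.comp (AlgHom.snd 𝒪 A B))) ^ n = ⊥ := by
  set E := AlgHom.equalizer (χA.comp (AlgHom.fst 𝒪 A B)) (χB.comp (AlgHom.snd 𝒪 A B)) with hE
  haveI := test_finite hA
  haveI := test_finite hB
  have hnil : ∀ x : E, IsNilpotent (x : A × B).1 → IsNilpotent (x : A × B).2 → IsNilpotent x := by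
    rintro x ⟨n, hn⟩ ⟨m, hm⟩
    refine ⟨n + m, Subtype.ext (Prod.ext ?_ ?_)⟩
    · simp [pow_add, hn]
    · simp [pow_add, hm]
  have h1 : ∀ o ∈ maximalIdeal 𝒪, IsNilpotent (algebraMap 𝒪 E o) := fun o ho =>
    hnil _ (test_algebraMap_nilpotent hA o ho) (test_algebraMap_nilpotent hB o ho)
  have h2 : ∀ a : E, ∃ o : 𝒪, IsNilpotent (a - algebraMap 𝒪 E o) := fun a => by
    obtain ⟨o, ho⟩ := test_exists_sub_nilpotent hA (a : A × B).1
    refine ⟨o, hnil _ ho ?_⟩
    have h3 : χA (a : A × B).1 = χB (a : A × B).2 := a.2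
    have h4 : χA ((a : A × B).1 - algebraMap 𝒪 A o) = 0 := (ho.map χA).eq_zero
    have h5 : χB ((a : A × B).2 - algebraMap 𝒪 B o) = 0 := by
      rw [map_sub, AlgHom.commutes] at h4 ⊢
      rw [← h3, h4]
    show IsNilpotent ((a : A × B).2 - algebraMap 𝒪 B o)
    rw [← test_mem_maximalIdeal_iff hB, mem_maximalIdeal, mem_nonunits_iff]
    intro hu
    exact (hu.map χB).ne_zero h5
  haveI hloc : IsLocalRing E := isLocalRing_of_nil E h1 h2
  have htest : IsArtinianTestAlgebra 𝒪 E := test_of_nil E h1 h2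
  refine ⟨hloc, htest, fun n hnA hnB => ?_⟩
  rw [eq_bot_iff]
  intro x hx
  have hx1 := map_mem_pow_of_mem_pow (((AlgHom.fst 𝒪 A B).comp E.val : E →ₐ[𝒪] A) : E →+* A) (fun y hy =>
    (test_mem_maximalIdeal_iff hA _).mpr
      (((test_mem_maximalIdeal_iff htest y).mp hy).map ((AlgHom.fst 𝒪 A B).comp E.val))) n x hx
  have hx2 := map_mem_pow_of_mem_pow (((AlgHom.snd 𝒪 A B).comp E.val : E →ₐ[𝒪] B) : E →+* B) (fun y hy =>
    (test_mem_maximalIdeal_iff hB _).mpr
      (((test_mem_maximalIdeal_iff htest y).mp hy).map ((AlgHom.snd 𝒪 A B).comp E.val))) n x hx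
  rw [hnA, Ideal.mem_bot] at hx1
  rw [hnB, Ideal.mem_bot] at hx2
  exact Subtype.ext (Prod.ext hx1 hx2)

/-- (Sep) dual-number points separate the square-zero, `𝔪_𝒪`-torsion test algebras. -/
theorem exists_dualNumber_point (hA : IsArtinianTestAlgebra 𝒪 A)
    (h1 : ∀ o ∈ maximalIdeal 𝒪, algebraMap 𝒪 A o = 0)
    (h2 : ∀ a ∈ maximalIdeal A, ∀ b ∈ maximalIdeal A, a * b = 0)
    (a₀ : A) (ha₀ : a₀ ∈ maximalIdeal A) (hne : a₀ ≠ 0) :
    letI := dualAlg 𝒪
    ∃ h : A →ₐ[𝒪] DualNumber (ResidueField 𝒪), h a₀ ≠ 0 := by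
  letI := dualAlg 𝒪
  obtain ⟨χ, hχ⟩ := exists_aug A hA.isLocalHom hA.residue_surjective
  let s : ResidueField 𝒪 →+* A := Ideal.Quotient.lift (maximalIdeal 𝒪) (algebraMap 𝒪 A) h1
  have hs : ∀ o, s (residue 𝒪 o) = algebraMap 𝒪 A o := fun o => rfl
  have hχs : ∀ c, χ (s c) = c := by
    intro c
    obtain ⟨o, rfl⟩ := residue_surjective c
    rw [hs, AlgHom.commutes]; rfl
  letI : Algebra (ResidueField 𝒪) A := s.toAlgebra
  have hsmul : ∀ (c : ResidueField 𝒪) (a : A), c • a = s c * a := fun c a => rfl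
  obtain ⟨lam, hlam⟩ : ∃ lam : Module.Dual (ResidueField 𝒪) A, lam a₀ ≠ 0 := by
    by_contra hcon
    push Not at hcon
    exact hne ((Module.forall_dual_apply_eq_zero_iff (ResidueField 𝒪) a₀).mp hcon)
  have hD : ∀ a, a - s (χ a) ∈ maximalIdeal A := by
    intro a
    rw [← hχ, map_sub, hχs, sub_self]
  let h₀ : A →+* DualNumber (ResidueField 𝒪) :=
    { toFun := fun a => TrivSqZeroExt.inl (χ a) + TrivSqZeroExt.inr (lam (a - s (χ a)))
      map_one' := by simp
      map_zero' := by simp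
      map_add' := fun a b => by
        have : a + b - s (χ (a + b)) = (a - s (χ a)) + (b - s (χ b)) := by
          rw [map_add, map_add]; ring
        rw [this, map_add, map_add, TrivSqZeroExt.inl_add, TrivSqZeroExt.inr_add]
        abel
      map_mul' := fun a b => by
        have h3 : a * b - s (χ (a * b)) = χ a • (b - s (χ b)) + χ b • (a - s (χ a)) := by
          have h4 := h2 _ (hD a) _ (hD b)
          rw [hsmul, hsmul, map_mul, map_mul]
          linear_combination h4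
        rw [h3, map_add, map_smul, map_smul, map_mul]
        ext <;> simp [mul_comm] }
  refine ⟨{ h₀ with commutes' := fun o => ?_ }, ?_⟩
  · show TrivSqZeroExt.inl (χ (algebraMap 𝒪 A o)) +
      TrivSqZeroExt.inr (lam (algebraMap 𝒪 A o - s (χ (algebraMap 𝒪 A o)))) = _
    rw [AlgHom.commutes, dualAlg_algebraMap]
    have : algebraMap 𝒪 (ResidueField 𝒪) o = residue 𝒪 o := rfl
    rw [this, hs, sub_self, map_zero, TrivSqZeroExt.inr_zero, add_zero]
  · show TrivSqZeroExt.inl (χ a₀) + TrivSqZeroExt.inr (lam (a₀ - s (χ a₀))) ≠ 0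
    rw [(hχ a₀).mpr ha₀, map_zero, sub_zero, TrivSqZeroExt.inl_zero, zero_add]
    intro h5
    exact hlam (by simpa using congrArg TrivSqZeroExt.snd h5)

end Constructions

end Fermat.Agent.S53Aux
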