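/-
S53 helper library: the functor of normalized lifts of type `𝒟` on Artinian test algebras.
-/
import Fermat.Agent.S53_Lift
import Fermat.Agent.S53_TestAlg

set_option autoImplicit false

namespace Fermat.Agent.S53Aux

open IsLocalRing GaloisRep

section FinLevel

variable {A B : Type} [CommRing A] [CommRing B]

/-- the matrix valued function is trivial on an open subgroup -/
def FinLevel (r : GQ → M2 A) : Prop :=
  ∃ L : IntermediateField ℚ (AlgebraicClosure ℚ), FiniteDimensional ℚ L ∧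
    ∀ σ : GQ, (∀ x ∈ L, σ x = x) → r σ = 1

theorem FinLevel.matCont [IsLocalRing A] {r : GQ → M2 A} (h : FinLevel r) : MatCont r := by
  obtain ⟨L, hL, h⟩ := h
  exact fun n => ⟨L, hL, fun σ hσ i j => by rw [h σ hσ, sub_self]; exact Ideal.zero_mem _⟩

theorem MatCont.finLevel [IsLocalRing A] {r : GQ → M2 A} (h : MatCont r) (n : ℕ)
    (hn : maximalIdeal A ^ n = ⊥) : FinLevel r := by
  obtain ⟨L, hL, h⟩ := h n
  refine ⟨L, hL, fun σ hσ => ?_⟩
  rw [← sub_eq_zero]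
  ext i j
  have := h σ hσ i j
  rwa [hn, Ideal.mem_bot] at this

theorem map_injective_of_injective (φ : A →+* B) (hφ : Function.Injective φ) {X Y : M2 A}
    (h : X.map φ = Y.map φ) : X = Y := by
  ext i j
  exact hφ (congrFun (congrFun h i) j)

theorem FinLevel.of_injective (φ : A →+* B) (hφ : Function.Injective φ) {r : GQ → M2 A}
    (h : FinLevel (fun σ => (r σ).map φ)) : FinLevel r := by
  obtain ⟨L, hL, h⟩ := h
  refine ⟨L, hL, fun σ hσ => map_injective_of_injective φ hφ ?_⟩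
  rw [mmap_one]; exact h σ hσ

theorem FinLevel.map (φ : A →+* B) {r : GQ → M2 A} (h : FinLevel r) :
    FinLevel (fun σ => (r σ).map φ) := by
  obtain ⟨L, hL, h⟩ := h
  exact ⟨L, hL, fun σ hσ => by show (r σ).map φ = 1; rw [h σ hσ, mmap_one]⟩

theorem FinLevel.inf {r : GQ → M2 A} {r' : GQ → M2 B} (h : FinLevel r) (h' : FinLevel r') :
    ∃ L : IntermediateField ℚ (AlgebraicClosure ℚ), FiniteDimensional ℚ L ∧
      ∀ σ : GQ, (∀ x ∈ L, σ x = x) → r σ = 1 ∧ r' σ = 1 := by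
  obtain ⟨L, hL, h⟩ := h
  obtain ⟨L', hL', h'⟩ := h'
  refine ⟨L ⊔ L', IntermediateField.finiteDimensional_sup L L', fun σ hσ => ⟨?_, ?_⟩⟩
  · exact h σ fun x hx => hσ x ((le_sup_left : L ≤ L ⊔ L') hx)
  · exact h' σ fun x hx => hσ x ((le_sup_right : L' ≤ L ⊔ L') hx)

end FinLevel

section NLiftMore

variable {𝒪 : Type} [CommRing 𝒪] [IsLocalRing 𝒪] {D : ResData 𝒪}
  {A : Type} [CommRing A] [IsLocalRing A] [Algebra 𝒪 A]

theorem res_iff_sub_mem (r : GQ → M2 A) :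
    (∀ σ, (r σ).map (residue A) = (D.rt σ).map ((residue A).comp (algebraMap 𝒪 A))) ↔
      ∀ σ a b, r σ a b - algebraMap 𝒪 A (D.rt σ a b) ∈ maximalIdeal A := by
  constructor
  · intro h σ a b
    rw [← residue_eq_zero_iff, map_sub, sub_eq_zero]
    exact congrFun (congrFun (h σ) a) b
  · intro h σ
    ext a b
    have := h σ a b
    rw [← residue_eq_zero_iff, map_sub, sub_eq_zero] at this
    exact this

theorem NLift.sub_mem {r : GQ → M2 A} (h : NLift D r) (σ : GQ) (a b : Fin 2) :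
    r σ a b - algebraMap 𝒪 A (D.rt σ a b) ∈ maximalIdeal A :=
  (res_iff_sub_mem r).mp h.res σ a b

theorem NLift.of_injective {B : Type} [CommRing B] [IsLocalRing B] [Algebra 𝒪 B]
    (φ : A →ₐ[𝒪] B) (hφ : Function.Injective φ) {r : GQ → M2 A}
    (h : NLift D (fun σ => (r σ).map φ)) : NLift D r := by
  refine ⟨(res_iff_sub_mem r).mpr fun σ a b => ?_, hφ ?_, hφ ?_, hφ ?_⟩
  · have := h.sub_mem σ a b
    by_contra hcon
    have hu : IsUnit (r σ a b - algebraMap 𝒪 A (D.rt σ a b)) := by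
      by_contra h0; exact hcon ((mem_maximalIdeal _).mpr h0)
    have hu' := hu.map φ
    rw [map_sub, AlgHom.commutes] at hu'
    exact (mem_maximalIdeal _).mp this hu'
  · rw [map_zero]; exact h.n00
  · rw [map_one]; exact h.n10
  · rw [AlgHom.commutes]; exact h.nij

end NLiftMore

section InF

variable {𝒪 : Type} [CommRing 𝒪] [IsLocalRing 𝒪]
  (𝒟 : ∀ ⦃A : Type⦄ [CommRing A] [IsLocalRing A] [Algebra 𝒪 A], GaloisRepAdic A → Prop)
  (D : ResData 𝒪)

/-- normalized lifts of type `𝒟`. -/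
def InF (A : Type) [CommRing A] [IsLocalRing A] [Algebra 𝒪 A] (r : GQ → M2 A) : Prop :=
  NLift D r ∧ ∃ ρ : GaloisRepAdic A, HasMat ρ r ∧ 𝒟 ρ

variable {𝒟 D} (h𝒟 : IsDeformationCondition 𝒪 𝒟)
  {A B : Type} [CommRing A] [IsLocalRing A] [Algebra 𝒪 A]
  [CommRing B] [IsLocalRing B] [Algebra 𝒪 B]

include h𝒟

/-- (F1) -/
theorem InF.map (hA : IsArtinianTestAlgebra 𝒪 A) (hB : IsArtinianTestAlgebra 𝒪 B)
    (φ : A →ₐ[𝒪] B) {r : GQ → M2 A} (h : InF 𝒟 D A r) :
    InF 𝒟 D B (fun σ => (r σ).map φ) := by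
  have hφ : IsLocalHom (φ : A →+* B) := test_isLocalHom hA φ
  obtain ⟨hn, ρ, hρ, hd⟩ := h
  exact ⟨hn.map φ, ρ.baseChangeAlong (φ : A →+* B) hφ, hρ.baseChangeAlong (φ : A →+* B) hφ,
    h𝒟.baseChangeAlong hA hB φ hφ hd⟩

/-- (F2) -/
theorem InF.of_injective (hA : IsArtinianTestAlgebra 𝒪 A) (hB : IsArtinianTestAlgebra 𝒪 B)
    (φ : A →ₐ[𝒪] B) (hφi : Function.Injective φ) {r : GQ → M2 A}
    (h : InF 𝒟 D B (fun σ => (r σ).map φ)) : InF 𝒟 D A r := by
  have hφ : IsLocalHom (φ : A →+* B) := test_isLocalHom hA φ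
  obtain ⟨hn, ρ, hρ, hd⟩ := h
  obtain ⟨n, hnB⟩ := test_exists_pow_eq_bot hB
  have h1 : r 1 = 1 := map_injective_of_injective (φ : A →+* B) hφi (by
    rw [mmap_one]; exact hρ.map_one)
  have hm : ∀ σ τ, r (σ * τ) = r σ * r τ := fun σ τ =>
    map_injective_of_injective (φ : A →+* B) hφi (by
      rw [Matrix.map_mul]; exact hρ.map_mul σ τ)
  have hc : MatCont r :=
    (FinLevel.of_injective (φ : A →+* B) hφi (hρ.cont.finLevel n hnB)).matCont
  refine ⟨hn.of_injective φ hφi, ofMat r h1 hm hc, hasMat_ofMat r h1 hm hc, ?_⟩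
  apply h𝒟.of_baseChangeAlong_injective hA hB φ hφ hφi
  exact h𝒟.of_isEquiv hB (hρ.isEquiv ((hasMat_ofMat r h1 hm hc).baseChangeAlong _ hφ)) hd

omit h𝒟 in
theorem test_aug_eq (hA : IsArtinianTestAlgebra 𝒪 A) (χ : A →ₐ[𝒪] ResidueField 𝒪) {a : A} {o : 𝒪}
    (h : a - algebraMap 𝒪 A o ∈ maximalIdeal A) : χ a = algebraMap 𝒪 (ResidueField 𝒪) o := by
  have hn : IsNilpotent (a - algebraMap 𝒪 A o) := (test_mem_maximalIdeal_iff hA _).mp h
  have := (hn.map χ).eq_zero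
  rwa [map_sub, AlgHom.commutes, sub_eq_zero] at this

omit h𝒟 in
theorem NLift.of_jointly_injective {Z : Type} [CommRing Z] [IsLocalRing Z] [Algebra 𝒪 Z]
    (pA : Z →ₐ[𝒪] A) (pB : Z →ₐ[𝒪] B) (hinj : ∀ z, pA z = 0 → pB z = 0 → z = 0)
    {r : GQ → M2 Z} (hA : NLift D (fun σ => (r σ).map pA)) (hB : NLift D (fun σ => (r σ).map pB)) :
    NLift D r := by
  have hinj' : ∀ z z', pA z = pA z' → pB z = pB z' → z = z' := fun z z' h1 h2 =>
    sub_eq_zero.mp (hinj _ (by rw [map_sub, h1, sub_self]) (by rw [map_sub, h2, sub_self]))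
  refine ⟨(res_iff_sub_mem r).mpr fun σ a b => ?_, hinj' _ _ ?_ ?_, hinj' _ _ ?_ ?_,
    hinj' _ _ ?_ ?_⟩
  · have := hA.sub_mem σ a b
    by_contra hcon
    have hu : IsUnit (r σ a b - algebraMap 𝒪 Z (D.rt σ a b)) := by
      by_contra h0; exact hcon ((mem_maximalIdeal _).mpr h0)
    have hu' := hu.map pA
    rw [map_sub, AlgHom.commutes] at hu'
    exact (mem_maximalIdeal _).mp this hu'
  · rw [map_zero]; exact hA.n00
  · rw [map_zero]; exact hB.n00
  · rw [map_one]; exact hA.n10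
  · rw [map_one]; exact hB.n10
  · rw [AlgHom.commutes]; exact hA.nij
  · rw [AlgHom.commutes]; exact hB.nij

/-- (F3) -/
theorem InF.prod [Finite (ResidueField 𝒪)] (hA : IsArtinianTestAlgebra 𝒪 A)
    (hB : IsArtinianTestAlgebra 𝒪 B) {rA : GQ → M2 A} {rB : GQ → M2 B}
    (hrA : InF 𝒟 D A rA) (hrB : InF 𝒟 D B rB) :
    ∃ (Z : Type) (_ : CommRing Z) (_ : IsLocalRing Z) (_ : Algebra 𝒪 Z)
      (_ : IsArtinianTestAlgebra 𝒪 Z) (pA : Z →ₐ[𝒪] A) (pB : Z →ₐ[𝒪] B) (r : GQ → M2 Z),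
      InF 𝒟 D Z r ∧ (∀ σ, (r σ).map pA = rA σ) ∧ (∀ σ, (r σ).map pB = rB σ) ∧
      (∀ z, pA z = 0 → pB z = 0 → z = 0) ∧
      (∀ n, maximalIdeal A ^ n = ⊥ → maximalIdeal B ^ n = ⊥ → maximalIdeal Z ^ n = ⊥) := by
  obtain ⟨χA, -⟩ := exists_aug A hA.isLocalHom hA.residue_surjective
  obtain ⟨χB, -⟩ := exists_aug B hB.isLocalHom hB.residue_surjective
  obtain ⟨hloc, htest, hlev⟩ := test_fibreProduct hA hB χA χB
  let S := AlgHom.equalizer (χA.comp (AlgHom.fst 𝒪 A B)) (χB.comp (AlgHom.snd 𝒪 A B))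
  let pA : S →ₐ[𝒪] A := (AlgHom.fst 𝒪 A B).comp S.val
  let pB : S →ₐ[𝒪] B := (AlgHom.snd 𝒪 A B).comp S.val
  obtain ⟨hnA, ρA, hρA, hdA⟩ := hrA
  obtain ⟨hnB, ρB, hρB, hdB⟩ := hrB
  have hmem : ∀ σ a b, (rA σ a b, rB σ a b) ∈ S := by
    intro σ a b
    show χA (rA σ a b) = χB (rB σ a b)
    rw [test_aug_eq hA χA (hnA.sub_mem σ a b), test_aug_eq hB χB (hnB.sub_mem σ a b)]
  let r : GQ → M2 S := fun σ => Matrix.of fun a b => ⟨(rA σ a b, rB σ a b), hmem σ a b⟩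
  have hpA : ∀ σ, (r σ).map pA = rA σ := fun σ => by ext a b; rfl
  have hpB : ∀ σ, (r σ).map pB = rB σ := fun σ => by ext a b; rfl
  have hinj : ∀ z : S, pA z = 0 → pB z = 0 → z = 0 := by
    intro z h1 h2
    exact Subtype.ext (Prod.ext h1 h2)
  have hext : ∀ X Y : M2 S, X.map pA = Y.map pA → X.map pB = Y.map pB → X = Y := by
    intro X Y h1 h2
    ext a b
    · exact congrFun (congrFun h1 a) b
    · exact congrFun (congrFun h2 a) b
  have hn : NLift D r := NLift.of_jointly_injective pA pB hinj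
    (by simp only [hpA]; exact hnA) (by simp only [hpB]; exact hnB)
  have h1 : r 1 = 1 := hext _ _
    (by rw [hpA, hρA.map_one]; exact (mmap_one (pA : S →+* A)).symm)
    (by rw [hpB, hρB.map_one]; exact (mmap_one (pB : S →+* B)).symm)
  have hm : ∀ σ τ, r (σ * τ) = r σ * r τ := fun σ τ => hext _ _
    (by
      have : (r σ * r τ).map pA = (r σ).map pA * (r τ).map pA :=
        Matrix.map_mul (f := (pA : S →+* A))
      rw [this, hpA, hpA, hpA, hρA.map_mul])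
    (by
      have : (r σ * r τ).map pB = (r σ).map pB * (r τ).map pB :=
        Matrix.map_mul (f := (pB : S →+* B))
      rw [this, hpB, hpB, hpB, hρB.map_mul])
  obtain ⟨nA, hnA'⟩ := test_exists_pow_eq_bot hA
  obtain ⟨nB, hnB'⟩ := test_exists_pow_eq_bot hB
  have hfl : FinLevel r := by
    obtain ⟨L, hL, h⟩ := (hρA.cont.finLevel nA hnA').inf (hρB.cont.finLevel nB hnB')
    refine ⟨L, hL, fun σ hσ => hext _ _ ?_ ?_⟩
    · rw [hpA, (h σ hσ).1]; exact (mmap_one (pA : S →+* A)).symm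
    · rw [hpB, (h σ hσ).2]; exact (mmap_one (pB : S →+* B)).symm
  have hc : MatCont r := hfl.matCont
  have hlA : IsLocalHom (pA : S →+* A) := test_isLocalHom htest pA
  have hlB : IsLocalHom (pB : S →+* B) := test_isLocalHom htest pB
  refine ⟨S, inferInstance, hloc, inferInstance, htest, pA, pB, r,
    ⟨hn, ofMat r h1 hm hc, hasMat_ofMat r h1 hm hc, ?_⟩, hpA, hpB, hinj, hlev⟩
  refine h𝒟.of_fibreProduct hA hB test_residueField htest χA χB pA pB hlA hlB ?_ ?_ ?_ ?_ ?_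
  · ext z
    exact z.2
  · intro x y hxy
    simp only [Prod.mk.injEq] at hxy
    exact Subtype.ext (Prod.ext hxy.1 hxy.2)
  · intro a b hab
    exact ⟨⟨(a, b), hab⟩, rfl, rfl⟩
  · refine h𝒟.of_isEquiv hA (hρA.isEquiv ?_) hdA
    have := (hasMat_ofMat r h1 hm hc).baseChangeAlong (pA : S →+* A) hlA
    convert this using 2 with σ
    exact (hpA σ).symm
  · refine h𝒟.of_isEquiv hB (hρB.isEquiv ?_) hdB
    have := (hasMat_ofMat r h1 hm hc).baseChangeAlong (pB : S →+* B) hlB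
    convert this using 2 with σ
    exact (hpB σ).symm

end InF

end Fermat.Agent.S53Aux
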