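/-
S53 helper library: the polynomial ring naming matrix entries, and uniform generators of the
maximal ideals coming from `TangentFinite`.
-/
import Fermat.Agent.S53_Functor

set_option autoImplicit false
set_option linter.style.haveILetI false

namespace Fermat.Agent.S53Aux

open IsLocalRing GaloisRep

section Ev

variable {𝒪 : Type} [CommRing 𝒪]

/-- the polynomial ring on the matrix entries -/
abbrev EE (𝒪 : Type) [CommRing 𝒪] := MvPolynomial (GQ × Fin 2 × Fin 2) 𝒪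

variable {A B : Type} [CommRing A] [Algebra 𝒪 A] [CommRing B] [Algebra 𝒪 B]

/-- evaluation of polynomials in the matrix entries -/
noncomputable def ev (r : GQ → M2 A) : EE 𝒪 →ₐ[𝒪] A :=
  MvPolynomial.aeval (fun x => r x.1 x.2.1 x.2.2)

@[simp] theorem ev_X (r : GQ → M2 A) (g : GQ) (a b : Fin 2) :
    ev (𝒪 := 𝒪) r (MvPolynomial.X (g, a, b)) = r g a b := by
  simp [ev]

@[simp] theorem ev_C (r : GQ → M2 A) (o : 𝒪) :
    ev (𝒪 := 𝒪) r (MvPolynomial.C o) = algebraMap 𝒪 A o := by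
  simp [ev]

theorem ev_map (φ : A →ₐ[𝒪] B) (r : GQ → M2 A) (y : EE 𝒪) :
    ev (fun σ => (r σ).map φ) y = φ (ev r y) := by
  have : ev (𝒪 := 𝒪) (fun σ => (r σ).map φ) = φ.comp (ev r) := by
    apply MvPolynomial.algHom_ext
    intro x
    simp [ev]
  rw [this]; rfl

end Ev

section EvRes

variable {𝒪 : Type} [CommRing 𝒪] [IsLocalRing 𝒪] {D : ResData 𝒪}
  {A : Type} [CommRing A] [IsLocalRing A] [Algebra 𝒪 A]

theorem ev_sub_mem {r : GQ → M2 A} (hn : NLift D r) (y : EE 𝒪) :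
    ev r y - algebraMap 𝒪 A (ev D.rt y) ∈ maximalIdeal A := by
  have : ((residue A).comp (ev (𝒪 := 𝒪) r : EE 𝒪 →+* A))
      = ((residue A).comp (algebraMap 𝒪 A)).comp (ev (𝒪 := 𝒪) D.rt : EE 𝒪 →+* 𝒪) := by
    apply MvPolynomial.ringHom_ext
    · intro o
      simp
    · rintro ⟨g, a, b⟩
      have := hn.sub_mem g a b
      rw [← residue_eq_zero_iff, map_sub, sub_eq_zero] at this
      simpa using this
  have h2 := congrArg (fun f => f y) this
  rw [← residue_eq_zero_iff, map_sub, sub_eq_zero]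
  simpa using h2

theorem ev_mem_maximalIdeal [IsLocalHom (algebraMap 𝒪 A)] {r : GQ → M2 A} (hn : NLift D r)
    {y : EE 𝒪} (hy : ev D.rt y ∈ maximalIdeal 𝒪) : ev r y ∈ maximalIdeal A := by
  have := (maximalIdeal A).add_mem (ev_sub_mem hn y) (algebraMap_mem_maximalIdeal hy)
  simpa using this

theorem ev_rt_mem_of_mem [IsLocalHom (algebraMap 𝒪 A)] {r : GQ → M2 A} (hn : NLift D r)
    {y : EE 𝒪} (hy : ev r y ∈ maximalIdeal A) : ev D.rt y ∈ maximalIdeal 𝒪 := by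
  have h1 := (maximalIdeal A).sub_mem hy (ev_sub_mem hn y)
  rw [sub_sub_cancel] at h1
  by_contra hcon
  have hu : IsUnit (ev D.rt y) := by
    by_contra h0; exact hcon ((mem_maximalIdeal _).mpr h0)
  exact (mem_maximalIdeal _).mp h1 (hu.map _)

end EvRes

section Tangent

variable {𝒪 : Type} [CommRing 𝒪] [IsLocalRing 𝒪] [Finite (ResidueField 𝒪)]
  {𝒟 : ∀ ⦃A : Type⦄ [CommRing A] [IsLocalRing A] [Algebra 𝒪 A], GaloisRepAdic A → Prop}
  {D : ResData 𝒪}

theorem finite_tangent {ρbar : ResidualGaloisRep (ResidueField 𝒪)}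
    (hD : HasMatRes ρbar (fun σ => (D.rt σ).map (residue 𝒪)))
    (hfin : TangentFinite 𝒪 ρbar 𝒟) :
    letI := dualAlg 𝒪
    Finite {t : GQ → M2 (DualNumber (ResidueField 𝒪)) // InF 𝒟 D (DualNumber (ResidueField 𝒪)) t} := by
  letI := dualAlg 𝒪
  letI : Algebra (ResidueField 𝒪) (ResidueField (DualNumber (ResidueField 𝒪))) :=
    ((IsLocalRing.residue (DualNumber (ResidueField 𝒪))).comp
      (algebraMap (ResidueField 𝒪) (DualNumber (ResidueField 𝒪)))).toAlgebra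
  have htest : IsArtinianTestAlgebra 𝒪 (DualNumber (ResidueField 𝒪)) := test_dualNumber
  haveI := htest.isLocalHom
  unfold TangentFinite at hfin
  haveI := hfin
  have hres : ∀ (t : GQ → M2 (DualNumber (ResidueField 𝒪))) (ρ : GaloisRepAdic (DualNumber (ResidueField 𝒪))),
      NLift D t → HasMat ρ t →
      ρ.residual.IsEquiv (ρbar.baseChange (ResidueField (DualNumber (ResidueField 𝒪)))) := by
    intro t ρ hn hρ
    refine hρ.residual.isEquiv ?_
    have := hD.baseChange (ResidueField (DualNumber (ResidueField 𝒪)))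
    convert this using 2 with σ
    rw [hn.res σ]
    ext a b
    rfl
  refine @Finite.of_injective _ _ hfin (fun t => Quotient.mk _
    (⟨t.2.2.choose, t.2.2.choose_spec.2, hres t.1 _ t.2.1 t.2.2.choose_spec.1⟩ :
      {ρ : GaloisRepAdic (DualNumber (ResidueField 𝒪)) //
      𝒟 ρ ∧ ρ.residual.IsEquiv (ρbar.baseChange (ResidueField (DualNumber (ResidueField 𝒪)))) })) ?_
  intro t t' htt
  have := Quotient.exact htt
  exact Subtype.ext (nlift_unique htest.residue_surjective D t.2.2.choose_spec.1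
    t'.2.2.choose_spec.1 this t.2.1 t'.2.1)

/-- uniform generators of the maximal ideals of "tight" objects. -/
theorem exists_generators (h𝒟 : IsDeformationCondition 𝒪 𝒟)
    {ρbar : ResidualGaloisRep (ResidueField 𝒪)}
    (hD : HasMatRes ρbar (fun σ => (D.rt σ).map (residue 𝒪)))
    (hfin : TangentFinite 𝒪 ρbar 𝒟) (ϖ : 𝒪) (hϖ : maximalIdeal 𝒪 = Ideal.span {ϖ}) :
    ∃ (σ : Type) (_ : Finite σ) (e : σ → EE 𝒪) (i₀ : σ), e i₀ = MvPolynomial.C ϖ ∧
      (∀ s, ev D.rt (e s) ∈ maximalIdeal 𝒪) ∧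
      ∀ (A : Type) [CommRing A] [IsLocalRing A] [Algebra 𝒪 A], IsArtinianTestAlgebra 𝒪 A →
        ∀ r : GQ → M2 A, InF 𝒟 D A r → Function.Surjective (ev (𝒪 := 𝒪) r) →
          maximalIdeal A = Ideal.span (Set.range fun s => ev r (e s)) := by
  letI := dualAlg 𝒪
  have htest : IsArtinianTestAlgebra 𝒪 (DualNumber (ResidueField 𝒪)) := test_dualNumber
  haveI : Finite (DualNumber (ResidueField 𝒪)) := test_finite htest
  haveI := finite_tangent hD hfin
  have hϖm : ϖ ∈ maximalIdeal 𝒪 := by rw [hϖ]; exact Ideal.mem_span_singleton_self ϖ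
  let T := {t : GQ → M2 (DualNumber (ResidueField 𝒪)) // InF 𝒟 D (DualNumber (ResidueField 𝒪)) t}
  let Ψ : EE 𝒪 → (T → DualNumber (ResidueField 𝒪)) := fun y t => ev t.1 y
  classical
  let e : Option (T → DualNumber (ResidueField 𝒪)) → EE 𝒪 := fun s =>
    match s with
    | none => MvPolynomial.C ϖ
    | some z => if h : ∃ y, ev D.rt y ∈ maximalIdeal 𝒪 ∧ Ψ y = z then h.choose
        else MvPolynomial.C ϖ
  have he : ∀ s, ev D.rt (e s) ∈ maximalIdeal 𝒪 := by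
    intro s
    match s with
    | none => simpa [e] using hϖm
    | some z =>
      by_cases h : ∃ y, ev D.rt y ∈ maximalIdeal 𝒪 ∧ Ψ y = z
      · simp only [e, dif_pos h]; exact h.choose_spec.1
      · simp only [e, dif_neg h]; simpa using hϖm
  refine ⟨Option (T → DualNumber (ResidueField 𝒪)), inferInstance, e, none, rfl, he, ?_⟩
  intro A _ _ _ hA r hr hsurj
  haveI := hA.isLocalHom
  haveI := hA.isArtinian
  set 𝔤 : Ideal A := Ideal.span (Set.range fun s => ev r (e s)) with h𝔤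
  have hg_le : 𝔤 ≤ maximalIdeal A := by
    rw [h𝔤, Ideal.span_le]
    rintro _ ⟨s, rfl⟩
    exact ev_mem_maximalIdeal hr.1 (he s)
  refine le_antisymm ?_ hg_le
  refine Submodule.le_of_le_smul_of_le_jacobson_bot (I := maximalIdeal A)
    (IsNoetherian.noetherian _) (by rw [IsLocalRing.jacobson_eq_maximalIdeal ⊥ bot_ne_top]) ?_
  intro a ha
  by_contra hcon
  set 𝔠 : Ideal A := 𝔤 ⊔ maximalIdeal A • maximalIdeal A with h𝔠
  have hc_le : 𝔠 ≤ maximalIdeal A := sup_le hg_le Ideal.mul_le_left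
  have hc_ne : 𝔠 ≠ ⊤ := fun h => (maximalIdeal.isMaximal A).ne_top (top_le_iff.mp (h ▸ hc_le))
  obtain ⟨hloc, htq, hmq⟩ := test_quotient hA 𝔠 hc_ne
  have h1 : ∀ o ∈ maximalIdeal 𝒪, algebraMap 𝒪 (A ⧸ 𝔠) o = 0 := by
    intro o ho
    rw [hϖ, Ideal.mem_span_singleton] at ho
    obtain ⟨o', rfl⟩ := ho
    have : algebraMap 𝒪 A ϖ ∈ 𝔠 := by
      refine Ideal.mem_sup_left (Ideal.subset_span ⟨none, ?_⟩)
      simp [e]
    rw [map_mul, IsScalarTower.algebraMap_apply 𝒪 A (A ⧸ 𝔠) ϖ]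
    rw [show algebraMap A (A ⧸ 𝔠) (algebraMap 𝒪 A ϖ) = 0 from Ideal.Quotient.eq_zero_iff_mem.mpr this,
      zero_mul]
  have h2 : ∀ x ∈ maximalIdeal (A ⧸ 𝔠), ∀ y ∈ maximalIdeal (A ⧸ 𝔠), x * y = 0 := by
    intro x hx y hy
    rw [hmq, Ideal.mem_map_iff_of_surjective _ Ideal.Quotient.mk_surjective] at hx hy
    obtain ⟨x, hx, rfl⟩ := hx
    obtain ⟨y, hy, rfl⟩ := hy
    rw [← map_mul]
    exact Ideal.Quotient.eq_zero_iff_mem.mpr (Ideal.mem_sup_right (Ideal.mul_mem_mul hx hy))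
  have ha0 : Ideal.Quotient.mk 𝔠 a ∈ maximalIdeal (A ⧸ 𝔠) := by
    rw [hmq]; exact Ideal.mem_map_of_mem _ ha
  have hne : Ideal.Quotient.mk 𝔠 a ≠ 0 := fun h => hcon (Ideal.Quotient.eq_zero_iff_mem.mp h)
  obtain ⟨h, hh⟩ := exists_dualNumber_point htq h1 h2 _ ha0 hne
  let φ : A →ₐ[𝒪] DualNumber (ResidueField 𝒪) := h.comp (Ideal.Quotient.mkₐ 𝒪 𝔠)
  have ht : InF 𝒟 D (DualNumber (ResidueField 𝒪)) (fun σ => (r σ).map φ) := hr.map h𝒟 hA htest φ
  obtain ⟨y, rfl⟩ := hsurj a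
  have hy : ev D.rt y ∈ maximalIdeal 𝒪 := ev_rt_mem_of_mem hr.1 ha
  have hex : ∃ y', ev D.rt y' ∈ maximalIdeal 𝒪 ∧ Ψ y' = Ψ y := ⟨y, hy, rfl⟩
  have hes : e (some (Ψ y)) = hex.choose := by simp only [e, dif_pos hex]
  have hΨ : Ψ (e (some (Ψ y))) = Ψ y := by rw [hes]; exact hex.choose_spec.2
  have h3 := congrFun hΨ ⟨_, ht⟩
  simp only [Ψ] at h3
  rw [ev_map, ev_map] at h3
  apply hh
  have h4 : φ (ev r (e (some (Ψ y)))) = 0 := by
    show h (Ideal.Quotient.mk 𝔠 _) = 0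
    have h5 : ev r (e (some (Ψ y))) ∈ 𝔠 :=
      Ideal.mem_sup_left (Ideal.subset_span ⟨some (Ψ y), rfl⟩)
    rw [Ideal.Quotient.eq_zero_iff_mem.mpr h5, map_zero]
  rw [h4] at h3
  exact h3.symm

end Tangent

end Fermat.Agent.S53Aux
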