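/-
S53 helper library, part "power series and towers" (pure commutative algebra).
All statements are independent of Galois representations.
-/
import Mathlib
import Fermat.Prelude.Thm_IsAdicComplete_of_module_finite

set_option autoImplicit false
set_option linter.style.haveILetI false
set_option linter.unusedVariables false

namespace Fermat.Agent.S53Aux

open IsLocalRing

section PS

variable {𝒪 : Type} [CommRing 𝒪] {σ : Type} [Finite σ]

/-- the ideal of variables in the power series ring -/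
noncomputable abbrev varIdeal (σ 𝒪 : Type) [CommRing 𝒪] : Ideal (MvPowerSeries σ 𝒪) :=
  Ideal.span (Set.range (MvPowerSeries.X : σ → MvPowerSeries σ 𝒪))

omit [Finite σ] in
theorem map_idealOfVars :
    (MvPolynomial.idealOfVars σ 𝒪).map (algebraMap (MvPolynomial σ 𝒪) (MvPowerSeries σ 𝒪)) =
      varIdeal σ 𝒪 := by
  rw [MvPolynomial.idealOfVars, Ideal.map_span, ← Set.range_comp]
  congr 2
  ext1 i
  simp [MvPowerSeries.algebraMap_apply']

theorem mem_varIdeal_pow_of_truncTotal (x : MvPowerSeries σ 𝒪) (n : ℕ)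
    (hx : MvPowerSeries.truncTotalAlgHom σ 𝒪 n x = 0) : x ∈ varIdeal σ 𝒪 ^ n := by
  set e := MvPowerSeries.toAdicCompletionAlgEquiv σ 𝒪 with he
  have h1 : e x ∈ (AdicCompletion.eval (MvPolynomial.idealOfVars σ 𝒪) (MvPolynomial σ 𝒪) n).ker := by
    rw [LinearMap.mem_ker, AdicCompletion.eval_apply, he, MvPowerSeries.toAdicCompletionAlgEquiv_apply,
      MvPowerSeries.toAdicCompletion_apply_eq_mk_truncTotal]
    rw [MvPowerSeries.truncTotalAlgHom_apply, Ideal.Quotient.eq_zero_iff_mem] at hx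
    rw [Ideal.Quotient.eq_zero_iff_mem]
    simpa using hx
  rw [← AdicCompletion.pow_smul_top_eq_ker_eval (MvPolynomial.idealOfVars_fg σ 𝒪)] at h1
  have h2 : e.symm (e x) ∈ Submodule.map e.symm.toLinearEquiv.toLinearMap
      (MvPolynomial.idealOfVars σ 𝒪 ^ n • (⊤ : Submodule (MvPolynomial σ 𝒪) _)) :=
    Submodule.mem_map_of_mem h1
  rw [Submodule.map_smul'', AlgEquiv.symm_apply_apply] at h2
  have h3 : x ∈ MvPolynomial.idealOfVars σ 𝒪 ^ n • (⊤ : Submodule (MvPolynomial σ 𝒪) (MvPowerSeries σ 𝒪)) :=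
    Submodule.smul_mono le_rfl le_top h2
  rw [Ideal.smul_top_eq_map, Submodule.restrictScalars_mem, Ideal.map_pow, map_idealOfVars] at h3
  exact h3

theorem exists_polynomial_sub_mem (x : MvPowerSeries σ 𝒪) (n : ℕ) :
    ∃ q : MvPolynomial σ 𝒪, x - (q : MvPowerSeries σ 𝒪) ∈ varIdeal σ 𝒪 ^ n := by
  refine ⟨MvPowerSeries.truncTotal n x, mem_varIdeal_pow_of_truncTotal _ _ ?_⟩
  have h : ((MvPowerSeries.truncTotal n x : MvPolynomial σ 𝒪) : MvPowerSeries σ 𝒪) =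
      algebraMap (MvPolynomial σ 𝒪) (MvPowerSeries σ 𝒪) (MvPowerSeries.truncTotal n x) := by
    simp [MvPowerSeries.algebraMap_apply']
  rw [map_sub, h, AlgHom.commutes, MvPowerSeries.truncTotalAlgHom_apply]
  simp

theorem exists_algHom_of_nilpotent {A : Type} [CommRing A] [Algebra 𝒪 A] (s : σ → A) (n : ℕ)
    (hs : Ideal.span (Set.range s) ^ n = ⊥) :
    ∃ f : MvPowerSeries σ 𝒪 →ₐ[𝒪] A, ∀ i, f (MvPowerSeries.X i) = s i := by
  have h : ∀ a ∈ MvPolynomial.idealOfVars σ 𝒪 ^ n, MvPolynomial.aeval s a = 0 := by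
    intro a ha
    have h1 : MvPolynomial.aeval s a ∈ (MvPolynomial.idealOfVars σ 𝒪 ^ n).map
        (MvPolynomial.aeval s : MvPolynomial σ 𝒪 →ₐ[𝒪] A) := Ideal.mem_map_of_mem _ ha
    rw [Ideal.map_pow, MvPolynomial.idealOfVars, Ideal.map_span, ← Set.range_comp] at h1
    have h2 : ((MvPolynomial.aeval s : MvPolynomial σ 𝒪 →ₐ[𝒪] A) ∘ MvPolynomial.X) = s := by
      ext i; simp
    rw [h2, hs] at h1
    simpa using h1
  refine ⟨(Ideal.Quotient.liftₐ (MvPolynomial.idealOfVars σ 𝒪 ^ n) (MvPolynomial.aeval s) h).comp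
    ((MvPowerSeries.truncTotalAlgHom σ 𝒪 n).restrictScalars 𝒪), fun i => ?_⟩
  have hX : (MvPowerSeries.X i : MvPowerSeries σ 𝒪) =
      algebraMap (MvPolynomial σ 𝒪) (MvPowerSeries σ 𝒪) (MvPolynomial.X i) := by
    simp [MvPowerSeries.algebraMap_apply']
  rw [AlgHom.comp_apply, AlgHom.restrictScalars_apply, hX, AlgHom.commutes]
  simp


omit [Finite σ] in
theorem algHom_coe_eq {A : Type} [CommRing A] [Algebra 𝒪 A]
    (f g : MvPowerSeries σ 𝒪 →ₐ[𝒪] A)
    (h : ∀ i, f (MvPowerSeries.X i) = g (MvPowerSeries.X i)) (q : MvPolynomial σ 𝒪) :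
    f (q : MvPowerSeries σ 𝒪) = g (q : MvPowerSeries σ 𝒪) := by
  have : f.comp (MvPolynomial.coeToMvPowerSeries.algHom 𝒪) =
      g.comp (MvPolynomial.coeToMvPowerSeries.algHom 𝒪) := by
    apply MvPolynomial.algHom_ext
    intro i
    simp [h]
  have := DFunLike.congr_fun this q
  simpa using this

omit [Finite σ] in
theorem algHom_mem_pow {A : Type} [CommRing A] [Algebra 𝒪 A] (𝔪 : Ideal A)
    (φ : MvPowerSeries σ 𝒪 →ₐ[𝒪] A) (hφ : ∀ i, φ (MvPowerSeries.X i) ∈ 𝔪) (n : ℕ)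
    (y : MvPowerSeries σ 𝒪) (hy : y ∈ varIdeal σ 𝒪 ^ n) : φ y ∈ 𝔪 ^ n := by
  have h1 : φ y ∈ (varIdeal σ 𝒪 ^ n).map φ := Ideal.mem_map_of_mem _ hy
  rw [Ideal.map_pow] at h1
  refine Ideal.pow_right_mono ?_ n h1
  rw [varIdeal, Ideal.map_span, Ideal.span_le]
  rintro _ ⟨_, ⟨i, rfl⟩, rfl⟩
  exact hφ i

theorem algHom_ext_of_hausdorff {A : Type} [CommRing A] [Algebra 𝒪 A] (𝔪 : Ideal A)
    [IsHausdorff 𝔪 A] (f g : MvPowerSeries σ 𝒪 →ₐ[𝒪] A)
    (hf : ∀ i, f (MvPowerSeries.X i) ∈ 𝔪)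
    (h : ∀ i, f (MvPowerSeries.X i) = g (MvPowerSeries.X i)) : f = g := by
  ext x
  rw [← sub_eq_zero]
  apply IsHausdorff.haus (I := 𝔪) inferInstance
  intro n
  rw [SModEq.zero, smul_eq_mul, Ideal.mul_top]
  obtain ⟨q, hq⟩ := exists_polynomial_sub_mem x n
  have h1 := algHom_mem_pow 𝔪 f hf n _ hq
  have h2 := algHom_mem_pow 𝔪 g (fun i => h i ▸ hf i) n _ hq
  rw [map_sub] at h1 h2
  have := sub_mem h1 h2
  rwa [algHom_coe_eq f g h q, sub_sub_sub_cancel_right] at this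

theorem algHom_ext_of_nilpotent {A : Type} [CommRing A] [Algebra 𝒪 A]
    (f g : MvPowerSeries σ 𝒪 →ₐ[𝒪] A) (n : ℕ)
    (hs : Ideal.span (Set.range fun i => f (MvPowerSeries.X i)) ^ n = ⊥)
    (h : ∀ i, f (MvPowerSeries.X i) = g (MvPowerSeries.X i)) : f = g := by
  have key : ∀ (φ : MvPowerSeries σ 𝒪 →ₐ[𝒪] A), (∀ i, f (MvPowerSeries.X i) = φ (MvPowerSeries.X i)) →
      ∀ y ∈ varIdeal σ 𝒪 ^ n, φ y = 0 := by
    intro φ hφ y hy
    have h1 : φ y ∈ (varIdeal σ 𝒪 ^ n).map φ := Ideal.mem_map_of_mem _ hy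
    rw [Ideal.map_pow, varIdeal, Ideal.map_span, ← Set.range_comp] at h1
    have h2 : (φ ∘ MvPowerSeries.X) = fun i => f (MvPowerSeries.X i) := by
      ext i; simp [hφ]
    rw [h2, hs] at h1
    simpa using h1
  have hpoly : ∀ q : MvPolynomial σ 𝒪, f (q : MvPowerSeries σ 𝒪) = g (q : MvPowerSeries σ 𝒪) := by
    intro q
    have : f.comp (MvPolynomial.coeToMvPowerSeries.algHom 𝒪) =
        g.comp (MvPolynomial.coeToMvPowerSeries.algHom 𝒪) := by
      apply MvPolynomial.algHom_ext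
      intro i
      simp [h]
    have := DFunLike.congr_fun this q
    simpa using this
  ext x
  obtain ⟨q, hq⟩ := exists_polynomial_sub_mem x n
  have h1 := key f (fun _ => rfl) _ hq
  have h2 := key g h _ hq
  rw [map_sub, sub_eq_zero] at h1 h2
  rw [h1, h2, hpoly]

end PS

section Tower

variable {P : Type} [CommRing P] (I : Ideal P) [IsAdicComplete I P] (J : ℕ → Ideal P)

/-- limit of a sequence with successive differences in `I ^ n`. -/
theorem exists_limit_of_succ (z : ℕ → P) (hz : ∀ n, z (n + 1) - z n ∈ I ^ n) :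
    ∃ y, ∀ n, y - z n ∈ I ^ n := by
  have hc : AdicCompletion.IsAdicCauchy I P z := by
    rw [AdicCompletion.isAdicCauchy_iff]
    intro n
    rw [SModEq.sub_mem, smul_eq_mul, Ideal.mul_top]
    have := neg_mem (hz n)
    rwa [neg_sub] at this
  obtain ⟨L, hL⟩ := IsPrecomplete.prec (I := I) inferInstance (f := z) (fun {m n} h => hc h)
  refine ⟨L, fun n => ?_⟩
  have := hL n
  rw [SModEq.sub_mem, smul_eq_mul, Ideal.mul_top] at this
  have := neg_mem this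
  rwa [neg_sub] at this

theorem tower_exists_limit (hIJ : ∀ n, I ^ n ≤ J n) (hanti : ∀ n, J (n + 1) ≤ J n)
    (hstep : ∀ n, J n ≤ J (n + 1) ⊔ I ^ n)
    (x : ℕ → P) (hx : ∀ n, x (n + 1) - x n ∈ J n) : ∃ y, ∀ n, y - x n ∈ J n := by
  have step : ∀ n (z : P), ∃ z', z - x n ∈ J n → (z' - x (n + 1) ∈ J (n + 1) ∧ z' - z ∈ I ^ n) := by
    intro n z
    by_cases hz : z - x n ∈ J n
    · have h1 : x (n + 1) - z ∈ J n := by
        have := sub_mem (hx n) hz
        rwa [sub_sub_sub_cancel_right] at this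
      obtain ⟨a, ha, b, hb, hab⟩ := Submodule.mem_sup.mp (hstep n h1)
      refine ⟨x (n + 1) - a, fun _ => ⟨?_, ?_⟩⟩
      · have := neg_mem ha
        convert this using 1; ring
      · convert hb using 1
        rw [← sub_eq_zero]; linear_combination -hab
    · exact ⟨0, fun h => absurd h hz⟩
  choose f hf using step
  let z : ℕ → P := fun n => Nat.rec (x 0) (fun n z => f n z) n
  have hz : ∀ n, z n - x n ∈ J n := by
    intro n
    induction n with
    | zero => simp [z]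
    | succ n ih => exact (hf n (z n) ih).1
  have hz2 : ∀ n, z (n + 1) - z n ∈ I ^ n := fun n => (hf n (z n) (hz n)).2
  obtain ⟨y, hy⟩ := exists_limit_of_succ I z hz2
  refine ⟨y, fun n => ?_⟩
  have := add_mem (hIJ n (hy n)) (hz n)
  rwa [sub_add_sub_cancel] at this

theorem tower_le_iInf_sup (hIJ : ∀ n, I ^ n ≤ J n) (hanti : ∀ n, J (n + 1) ≤ J n)
    (hstep : ∀ n, J n ≤ J (n + 1) ⊔ I ^ n) (n : ℕ) : J n ≤ (⨅ m, J m) ⊔ I ^ n := by
  intro p hp
  have step : ∀ m (z : P), ∃ z', z ∈ J m → (z' ∈ J (m + 1) ∧ z' - z ∈ I ^ m) := by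
    intro m z
    by_cases hz : z ∈ J m
    · obtain ⟨a, ha, b, hb, hab⟩ := Submodule.mem_sup.mp (hstep m hz)
      refine ⟨a, fun _ => ⟨ha, ?_⟩⟩
      have := neg_mem hb
      convert this using 1
      rw [← sub_eq_zero]; linear_combination hab
    · exact ⟨0, fun h => absurd h hz⟩
  choose f hf using step
  let z : ℕ → P := fun m => Nat.rec p (fun m z => if n ≤ m then f m z else z) m
  have hzs : ∀ m, z (m + 1) = if n ≤ m then f m (z m) else z m := fun m => rfl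
  have hz0 : ∀ m, m ≤ n → z m = p := by
    intro m
    induction m with
    | zero => intro _; rfl
    | succ m ih =>
      intro h
      rw [hzs, if_neg (by omega), ih (by omega)]
  have hz : ∀ m, n ≤ m → z m ∈ J m := by
    intro m hm
    induction m, hm using Nat.le_induction with
    | base => rw [hz0 n le_rfl]; exact hp
    | succ m hm ih => rw [hzs, if_pos hm]; exact (hf m (z m) ih).1
  have hz2 : ∀ m, z (m + 1) - z m ∈ I ^ m := by
    intro m
    rw [hzs]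
    split_ifs with h
    · exact (hf m (z m) (hz m h)).2
    · simp
  obtain ⟨y, hy⟩ := exists_limit_of_succ I z hz2
  have hanti' : Antitone J := antitone_nat_of_succ_le hanti
  have hyJ : ∀ m, n ≤ m → y ∈ J m := by
    intro m hm
    have := add_mem (hIJ m (hy m)) (hz m hm)
    rwa [sub_add_cancel] at this
  refine Submodule.mem_sup.mpr ⟨y, ?_, p - y, ?_, by ring⟩
  · rw [Submodule.mem_iInf]
    intro m
    rcases le_total n m with h | h
    · exact hyJ m h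
    · exact hanti' h (hyJ n le_rfl)
  · have := neg_mem (hy n)
    rwa [neg_sub, hz0 n le_rfl] at this

end Tower

section Least

theorem exists_least_ideal {P : Type} [CommRing P] [IsLocalRing P] [IsNoetherianRing P]
    [Finite (ResidueField P)] (S : Set (Ideal P)) (hne : S.Nonempty) (n : ℕ)
    (hS : ∀ 𝔧 ∈ S, maximalIdeal P ^ n ≤ 𝔧)
    (hinf : ∀ 𝔞 ∈ S, ∀ 𝔟 ∈ S, ∃ 𝔠 ∈ S, 𝔠 ≤ 𝔞 ⊓ 𝔟) : ∃ 𝔧 ∈ S, ∀ 𝔞 ∈ S, 𝔧 ≤ 𝔞 := by
  haveI : Finite (P ⧸ maximalIdeal P) := ‹Finite (ResidueField P)›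
  haveI : Finite (P ⧸ maximalIdeal P ^ n) :=
    Ideal.finite_quotient_pow (IsNoetherian.noetherian _) n
  let q : P →ₗ[P] (P ⧸ maximalIdeal P ^ n) := Submodule.mkQ (maximalIdeal P ^ n)
  obtain ⟨M, ⟨𝔧, h𝔧, rfl⟩, hmin⟩ := IsArtinian.set_has_minimal
    ((fun 𝔧 : Ideal P => Submodule.map q 𝔧) '' S) (hne.image _)
  refine ⟨𝔧, h𝔧, fun 𝔞 h𝔞 => ?_⟩
  obtain ⟨𝔠, h𝔠, hle⟩ := hinf 𝔞 h𝔞 𝔧 h𝔧
  have h1 : Submodule.map q 𝔠 ≤ Submodule.map q 𝔧 := Submodule.map_mono (hle.trans inf_le_right)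
  have h2 : ¬ Submodule.map q 𝔠 < Submodule.map q 𝔧 := hmin _ ⟨𝔠, h𝔠, rfl⟩
  have h3 : Submodule.map q 𝔧 ≤ Submodule.map q 𝔠 := by
    by_contra h
    exact h2 (lt_of_le_not_ge h1 h)
  have h4 := Submodule.comap_mono (f := q) h3
  rw [Submodule.comap_map_mkQ, Submodule.comap_map_mkQ] at h4
  calc 𝔧 ≤ maximalIdeal P ^ n ⊔ 𝔧 := le_sup_right
    _ ≤ maximalIdeal P ^ n ⊔ 𝔠 := h4
    _ ≤ 𝔠 := sup_le (hS 𝔠 h𝔠) le_rfl
    _ ≤ 𝔞 := hle.trans inf_le_left

end Least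

section Quot0
variable {𝒪 : Type} [CommRing 𝒪] {σ : Type} [Finite σ]

theorem mem_varIdeal_of_constantCoeff (x : MvPowerSeries σ 𝒪)
    (hx : MvPowerSeries.constantCoeff x = 0) : x ∈ varIdeal σ 𝒪 := by
  rw [← pow_one (varIdeal σ 𝒪)]
  apply mem_varIdeal_pow_of_truncTotal
  rw [MvPowerSeries.truncTotalAlgHom_apply, Ideal.Quotient.eq_zero_iff_mem,
    MvPolynomial.mem_pow_idealOfVars_iff']
  intro d hd
  rw [MvPowerSeries.coeff_truncTotal _ hd]
  have : d = 0 := by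
    have h0 : Finsupp.degree d = 0 := by omega
    exact (Finsupp.degree_eq_zero_iff d).mp h0
  rw [this, MvPowerSeries.coeff_zero_eq_constantCoeff_apply, hx]

theorem sub_C_constantCoeff_mem (x : MvPowerSeries σ 𝒪) :
    x - MvPowerSeries.C (MvPowerSeries.constantCoeff x) ∈ varIdeal σ 𝒪 :=
  mem_varIdeal_of_constantCoeff _ (by simp)

omit [Finite σ] in
theorem varIdeal_le_maximalIdeal [IsLocalRing 𝒪] : varIdeal σ 𝒪 ≤ maximalIdeal (MvPowerSeries σ 𝒪) := by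
  rw [varIdeal, Ideal.span_le]
  rintro _ ⟨i, rfl⟩
  rw [SetLike.mem_coe, mem_maximalIdeal, mem_nonunits_iff, MvPowerSeries.isUnit_iff_constantCoeff]
  simp

omit [Finite σ] in
theorem C_mem_maximalIdeal_iff [IsLocalRing 𝒪] (a : 𝒪) :
    (MvPowerSeries.C a : MvPowerSeries σ 𝒪) ∈ maximalIdeal (MvPowerSeries σ 𝒪) ↔ a ∈ maximalIdeal 𝒪 := by
  rw [mem_maximalIdeal, mem_nonunits_iff, MvPowerSeries.isUnit_iff_constantCoeff, mem_maximalIdeal,
    mem_nonunits_iff]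
  simp

end Quot0

section Quot

variable {𝒪 : Type} [CommRing 𝒪] [IsDomain 𝒪] [IsDiscreteValuationRing 𝒪]
  {σ : Type} [Finite σ]

instance finite_residueField_mvPowerSeries [Finite (ResidueField 𝒪)] :
    Finite (ResidueField (MvPowerSeries σ 𝒪)) := by
  let φ : 𝒪 →+* ResidueField (MvPowerSeries σ 𝒪) :=
    (residue (MvPowerSeries σ 𝒪)).comp MvPowerSeries.C
  have hφ : ∀ a ∈ maximalIdeal 𝒪, φ a = 0 := by
    intro a ha
    exact (residue_eq_zero_iff _).mpr ((C_mem_maximalIdeal_iff a).mpr ha)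
  let ψ : ResidueField 𝒪 →+* ResidueField (MvPowerSeries σ 𝒪) :=
    Ideal.Quotient.lift (maximalIdeal 𝒪) φ hφ
  apply Finite.of_surjective ψ
  intro y
  obtain ⟨x, rfl⟩ := residue_surjective y
  refine ⟨residue 𝒪 (MvPowerSeries.constantCoeff x), ?_⟩
  show φ _ = _
  symm
  rw [← sub_eq_zero]
  show residue _ x - residue _ (MvPowerSeries.C (MvPowerSeries.constantCoeff x)) = 0
  rw [← map_sub, residue_eq_zero_iff]
  exact varIdeal_le_maximalIdeal (sub_C_constantCoeff_mem x)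

theorem quotient_props (J : Ideal (MvPowerSeries σ 𝒪)) (hJ : J ≠ ⊤) (ϖ : 𝒪)
    (hϖ : maximalIdeal 𝒪 = Ideal.span {ϖ}) (i₀ : σ)
    (hi₀ : MvPowerSeries.X i₀ - MvPowerSeries.C ϖ ∈ J) :
    ∃ _ : IsLocalRing (MvPowerSeries σ 𝒪 ⧸ J),
      maximalIdeal (MvPowerSeries σ 𝒪 ⧸ J) = (varIdeal σ 𝒪).map (Ideal.Quotient.mk J) ∧
      IsAdicComplete (maximalIdeal (MvPowerSeries σ 𝒪 ⧸ J)) (MvPowerSeries σ 𝒪 ⧸ J) ∧
      IsLocalHom (algebraMap 𝒪 (MvPowerSeries σ 𝒪 ⧸ J)) ∧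
      Function.Surjective (IsLocalRing.residue (MvPowerSeries σ 𝒪 ⧸ J) ∘
        algebraMap 𝒪 (MvPowerSeries σ 𝒪 ⧸ J)) := by
  haveI : Nontrivial (MvPowerSeries σ 𝒪 ⧸ J) := Ideal.Quotient.nontrivial_iff.mpr hJ
  haveI hloc : IsLocalRing (MvPowerSeries σ 𝒪 ⧸ J) :=
    IsLocalRing.of_surjective' (Ideal.Quotient.mk J) Ideal.Quotient.mk_surjective
  haveI hlh : IsLocalHom (Ideal.Quotient.mk J) :=
    IsLocalHom.of_surjective _ Ideal.Quotient.mk_surjective
  have hmem : ∀ x : MvPowerSeries σ 𝒪, Ideal.Quotient.mk J x ∈ maximalIdeal (MvPowerSeries σ 𝒪 ⧸ J) ↔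
      x ∈ maximalIdeal (MvPowerSeries σ 𝒪) := by
    intro x
    rw [mem_maximalIdeal, mem_maximalIdeal, mem_nonunits_iff, mem_nonunits_iff, isUnit_map_iff]
  have hmax : maximalIdeal (MvPowerSeries σ 𝒪 ⧸ J) = (varIdeal σ 𝒪).map (Ideal.Quotient.mk J) := by
    apply le_antisymm
    · intro y hy
      obtain ⟨x, rfl⟩ := Ideal.Quotient.mk_surjective y
      rw [hmem] at hy
      have h1 : MvPowerSeries.constantCoeff x ∈ maximalIdeal 𝒪 := by
        rw [mem_maximalIdeal, mem_nonunits_iff, ← MvPowerSeries.isUnit_iff_constantCoeff]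
        exact hy
      rw [hϖ, Ideal.mem_span_singleton'] at h1
      obtain ⟨a, ha⟩ := h1
      have h2 : Ideal.Quotient.mk J x = Ideal.Quotient.mk J (x - MvPowerSeries.C (MvPowerSeries.constantCoeff x))
          + Ideal.Quotient.mk J (MvPowerSeries.C a) * Ideal.Quotient.mk J (MvPowerSeries.X i₀) := by
        have h3 : Ideal.Quotient.mk J (MvPowerSeries.X i₀) = Ideal.Quotient.mk J (MvPowerSeries.C ϖ) :=
          Ideal.Quotient.eq.mpr hi₀
        rw [h3, ← map_mul, ← map_mul, ha, ← map_add, sub_add_cancel]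
      rw [h2]
      exact add_mem (Ideal.mem_map_of_mem _ (sub_C_constantCoeff_mem x))
        (Ideal.mul_mem_left _ _ (Ideal.mem_map_of_mem _ (Ideal.subset_span ⟨i₀, rfl⟩)))
    · rw [Ideal.map_le_iff_le_comap]
      intro x hx
      rw [Ideal.mem_comap, hmem]
      exact varIdeal_le_maximalIdeal hx
  refine ⟨hloc, hmax, ?_, ?_, ?_⟩
  · rw [hmax]
    have h1 : IsAdicComplete (varIdeal σ 𝒪) (MvPowerSeries σ 𝒪 ⧸ J) :=
      IsAdicComplete.of_module_finite (varIdeal σ 𝒪) (MvPowerSeries σ 𝒪 ⧸ J)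
    exact (IsAdicComplete.map_algebraMap_iff (S := MvPowerSeries σ 𝒪 ⧸ J) (varIdeal σ 𝒪) (MvPowerSeries σ 𝒪 ⧸ J)).mpr h1
  · constructor
    intro a ha
    by_contra hna
    have h1 : (MvPowerSeries.C a : MvPowerSeries σ 𝒪) ∈ maximalIdeal (MvPowerSeries σ 𝒪) :=
      (C_mem_maximalIdeal_iff a).mpr hna
    rw [← hmem] at h1
    exact h1 ha
  · intro y
    obtain ⟨y, rfl⟩ := residue_surjective y
    obtain ⟨x, rfl⟩ := Ideal.Quotient.mk_surjective y
    refine ⟨MvPowerSeries.constantCoeff x, ?_⟩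
    symm
    rw [← sub_eq_zero]
    show residue _ (Ideal.Quotient.mk J x) - residue _ (Ideal.Quotient.mk J (MvPowerSeries.C (MvPowerSeries.constantCoeff x))) = 0
    rw [← map_sub, ← map_sub, residue_eq_zero_iff, hmem]
    exact varIdeal_le_maximalIdeal (sub_C_constantCoeff_mem x)

end Quot

end Fermat.Agent.S53Aux
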