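/-
S53 helper library: objects (test algebras with a normalized lift of type `𝒟`), and their
classifying maps from the power series ring.
-/
import Fermat.Agent.S53_Gen
import Fermat.Agent.S53_PowerSeries

set_option autoImplicit false
set_option linter.style.haveILetI false

namespace Fermat.Agent.S53Aux

open IsLocalRing GaloisRep

section ClassMap

variable {𝒪 : Type} [CommRing 𝒪] [IsLocalRing 𝒪]
  {D : ResData 𝒪} {σ : Type} [Finite σ] {e : σ → EE 𝒪}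
  (he : ∀ s, ev D.rt (e s) ∈ maximalIdeal 𝒪)
  {A : Type} [CommRing A] [IsLocalRing A] [Algebra 𝒪 A]

include he

theorem span_ev_le [IsLocalHom (algebraMap 𝒪 A)] {r : GQ → M2 A} (hn : NLift D r) :
    Ideal.span (Set.range fun s => ev r (e s)) ≤ maximalIdeal A := by
  rw [Ideal.span_le]
  rintro _ ⟨s, rfl⟩
  exact ev_mem_maximalIdeal hn (he s)

theorem exists_classMap (hA : IsArtinianTestAlgebra 𝒪 A) {r : GQ → M2 A} (hn : NLift D r) :
    ∃ f : MvPowerSeries σ 𝒪 →ₐ[𝒪] A, ∀ s, f (MvPowerSeries.X s) = ev r (e s) := by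
  haveI := hA.isLocalHom
  obtain ⟨n, hn'⟩ := test_exists_pow_eq_bot hA
  refine exists_algHom_of_nilpotent (fun s => ev r (e s)) n ?_
  exact le_bot_iff.mp (hn' ▸ Ideal.pow_right_mono (span_ev_le he hn) n)

theorem classMap_unique (hA : IsArtinianTestAlgebra 𝒪 A) {r : GQ → M2 A} (hn : NLift D r)
    (f g : MvPowerSeries σ 𝒪 →ₐ[𝒪] A) (hf : ∀ s, f (MvPowerSeries.X s) = ev r (e s))
    (hg : ∀ s, g (MvPowerSeries.X s) = ev r (e s)) : f = g := by
  haveI := hA.isLocalHom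
  obtain ⟨n, hn'⟩ := test_exists_pow_eq_bot hA
  refine algHom_ext_of_nilpotent f g n ?_ (fun i => by rw [hf, hg])
  simp only [hf]
  exact le_bot_iff.mp (hn' ▸ Ideal.pow_right_mono (span_ev_le he hn) n)

theorem classMap_mem_pow [IsLocalHom (algebraMap 𝒪 A)] {r : GQ → M2 A} (hn : NLift D r)
    (f : MvPowerSeries σ 𝒪 →ₐ[𝒪] A) (hf : ∀ s, f (MvPowerSeries.X s) = ev r (e s)) (n : ℕ)
    {x : MvPowerSeries σ 𝒪} (hx : x ∈ varIdeal σ 𝒪 ^ n) : f x ∈ maximalIdeal A ^ n :=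
  algHom_mem_pow _ f (fun i => by rw [hf]; exact ev_mem_maximalIdeal hn (he i)) n x hx

theorem classMap_mem_maximalIdeal [IsLocalHom (algebraMap 𝒪 A)] {r : GQ → M2 A} (hn : NLift D r)
    (f : MvPowerSeries σ 𝒪 →ₐ[𝒪] A) (hf : ∀ s, f (MvPowerSeries.X s) = ev r (e s))
    {x : MvPowerSeries σ 𝒪} (hx : x ∈ maximalIdeal (MvPowerSeries σ 𝒪)) :
    f x ∈ maximalIdeal A := by
  have h1 : MvPowerSeries.constantCoeff x ∈ maximalIdeal 𝒪 := by
    rw [mem_maximalIdeal, mem_nonunits_iff, ← MvPowerSeries.isUnit_iff_constantCoeff]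
    exact hx
  have h2 := classMap_mem_pow he hn f hf 1 (x := x - MvPowerSeries.C (MvPowerSeries.constantCoeff x))
    (by rw [pow_one]; exact sub_C_constantCoeff_mem x)
  rw [pow_one, map_sub] at h2
  have h3 : f (MvPowerSeries.C (MvPowerSeries.constantCoeff x))
      = algebraMap 𝒪 A (MvPowerSeries.constantCoeff x) := by
    rw [← f.commutes]; rfl
  rw [h3] at h2
  have := (maximalIdeal A).add_mem h2 (algebraMap_mem_maximalIdeal h1)
  simpa using this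

theorem classMap_maximalIdeal_pow_le_ker [IsLocalHom (algebraMap 𝒪 A)] {r : GQ → M2 A}
    (hn : NLift D r)
    (f : MvPowerSeries σ 𝒪 →ₐ[𝒪] A) (hf : ∀ s, f (MvPowerSeries.X s) = ev r (e s)) (n : ℕ)
    (hlev : maximalIdeal A ^ n = ⊥) :
    maximalIdeal (MvPowerSeries σ 𝒪) ^ n ≤ RingHom.ker f := by
  have h1 : (maximalIdeal (MvPowerSeries σ 𝒪)).map f ≤ maximalIdeal A := by
    rw [Ideal.map_le_iff_le_comap]
    intro x hx
    exact classMap_mem_maximalIdeal he hn f hf hx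
  intro x hx
  have h2 : f x ∈ (maximalIdeal (MvPowerSeries σ 𝒪) ^ n).map f := Ideal.mem_map_of_mem _ hx
  rw [Ideal.map_pow] at h2
  have h3 := Ideal.pow_right_mono h1 n h2
  rw [hlev] at h3
  exact h3

omit he in
/-- (Claim S) -/
theorem classMap_surjective [Finite (ResidueField 𝒪)] (hA : IsArtinianTestAlgebra 𝒪 A)
    (f : MvPowerSeries σ 𝒪 →ₐ[𝒪] A)
    (hmax : maximalIdeal A = Ideal.span (Set.range fun s => f (MvPowerSeries.X s))) :
    Function.Surjective f := by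
  haveI : Finite A := test_finite hA
  letI : Algebra (MvPowerSeries σ 𝒪) A := f.toRingHom.toAlgebra
  have hmap : (varIdeal σ 𝒪).map (algebraMap (MvPowerSeries σ 𝒪) A) = maximalIdeal A := by
    rw [hmax, varIdeal, Ideal.map_span, ← Set.range_comp]; rfl
  have key : (⊤ : Submodule (MvPowerSeries σ 𝒪) A) ≤
      LinearMap.range (Algebra.linearMap (MvPowerSeries σ 𝒪) A) := by
    refine Submodule.le_of_le_smul_of_le_jacobson_bot (I := varIdeal σ 𝒪)
      Module.Finite.fg_top ?_ ?_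
    · rw [IsLocalRing.jacobson_eq_maximalIdeal ⊥ bot_ne_top]; exact varIdeal_le_maximalIdeal
    · intro a _
      obtain ⟨o, ho⟩ := exists_sub_algebraMap_mem hA.residue_surjective a
      rw [Ideal.smul_top_eq_map, hmap]
      have : a = algebraMap 𝒪 A o + (a - algebraMap 𝒪 A o) := by ring
      rw [this]
      refine Submodule.add_mem_sup ⟨MvPowerSeries.C o, ?_⟩ ho
      show f (MvPowerSeries.C o) = _
      rw [← f.commutes]; rfl
  intro a
  obtain ⟨x, hx⟩ := key (Submodule.mem_top : a ∈ ⊤)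
  exact ⟨x, hx⟩

end ClassMap

section Obj

variable {𝒪 : Type} [CommRing 𝒪] [IsLocalRing 𝒪]
  (𝒟 : ∀ ⦃A : Type⦄ [CommRing A] [IsLocalRing A] [Algebra 𝒪 A], GaloisRepAdic A → Prop)
  (D : ResData 𝒪) {σ : Type} (e : σ → EE 𝒪)

/-- a test algebra with a normalized lift of type `𝒟` and its classifying map. -/
structure Obj where
  A : Type
  [cr : CommRing A]
  [lr : IsLocalRing A]
  [alg : Algebra 𝒪 A]
  test : IsArtinianTestAlgebra 𝒪 A
  r : GQ → M2 A
  inF : InF 𝒟 D A r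
  f : MvPowerSeries σ 𝒪 →ₐ[𝒪] A
  hf : ∀ s, f (MvPowerSeries.X s) = ev r (e s)

attribute [instance] Obj.cr Obj.lr Obj.alg

variable {𝒟 D e}

instance (X : Obj 𝒟 D e) : IsLocalHom (algebraMap 𝒪 X.A) := X.test.isLocalHom

/-- the matrix entries generate the algebra -/
def Obj.Tight (X : Obj 𝒟 D e) : Prop := Function.Surjective (ev (𝒪 := 𝒪) X.r)

/-- the object has level `n` -/
def Obj.Level (X : Obj 𝒟 D e) (n : ℕ) : Prop := maximalIdeal X.A ^ n = ⊥

theorem Obj.exists_level (X : Obj 𝒟 D e) : ∃ n, X.Level n := test_exists_pow_eq_bot X.test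

theorem Obj.Level.mono {X : Obj 𝒟 D e} {n m : ℕ} (h : X.Level n) (hnm : n ≤ m) : X.Level m :=
  le_bot_iff.mp ((Ideal.pow_le_pow_right hnm).trans (le_of_eq h))

theorem Obj.Level.pos {X : Obj 𝒟 D e} {n : ℕ} (h : X.Level n) : 1 ≤ n := by
  by_contra hcon
  have h0 : n = 0 := by omega
  subst h0
  unfold Obj.Level at h
  rw [pow_zero, Ideal.one_eq_top] at h
  exact bot_ne_top h.symm

variable [Finite σ] (h𝒟 : IsDeformationCondition 𝒪 𝒟)
  (he : ∀ s, ev D.rt (e s) ∈ maximalIdeal 𝒪)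
  (hG : ∀ (A : Type) [CommRing A] [IsLocalRing A] [Algebra 𝒪 A], IsArtinianTestAlgebra 𝒪 A →
        ∀ r : GQ → M2 A, InF 𝒟 D A r → Function.Surjective (ev (𝒪 := 𝒪) r) →
          maximalIdeal A = Ideal.span (Set.range fun s => ev r (e s)))

include he in
/-- (O1) -/
theorem Obj.comp_f (X Y : Obj 𝒟 D e) (φ : X.A →ₐ[𝒪] Y.A) (h : ∀ τ, (X.r τ).map φ = Y.r τ) :
    φ.comp X.f = Y.f := by
  refine classMap_unique he Y.test Y.inF.1 _ _ (fun s => ?_) Y.hf
  rw [AlgHom.comp_apply, X.hf, ← ev_map, funext h]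

include he in
theorem Obj.apply_f (X Y : Obj 𝒟 D e) (φ : X.A →ₐ[𝒪] Y.A) (h : ∀ τ, (X.r τ).map φ = Y.r τ)
    (x : MvPowerSeries σ 𝒪) : φ (X.f x) = Y.f x := by
  rw [← Obj.comp_f he X Y φ h]; rfl

theorem Obj.apply_ev (X Y : Obj 𝒟 D e) (φ : X.A →ₐ[𝒪] Y.A) (h : ∀ τ, (X.r τ).map φ = Y.r τ)
    (y : EE 𝒪) : φ (ev X.r y) = ev Y.r y := by
  rw [← ev_map, funext h]

include hG in
theorem Obj.Tight.max_eq {X : Obj 𝒟 D e} (h : X.Tight) :
    maximalIdeal X.A = Ideal.span (Set.range fun s => X.f (MvPowerSeries.X s)) := by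
  simp only [X.hf]
  exact hG X.A X.test X.r X.inF h

include hG in
theorem Obj.Tight.surjective [Finite (ResidueField 𝒪)] {X : Obj 𝒟 D e} (h : X.Tight) :
    Function.Surjective X.f :=
  classMap_surjective X.test X.f (h.max_eq hG)

include h𝒟 he in
theorem Obj.exists_tight [Finite (ResidueField 𝒪)] (X : Obj 𝒟 D e) :
    ∃ (Y : Obj 𝒟 D e) (ι : Y.A →ₐ[𝒪] X.A), Function.Injective ι ∧
      (∀ τ, (Y.r τ).map ι = X.r τ) ∧ Y.Tight ∧ ∀ n, X.Level n → Y.Level n := by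
  let S : Subalgebra 𝒪 X.A := (ev (𝒪 := 𝒪) X.r).range
  obtain ⟨hloc, htest, hlev⟩ := test_subalgebra X.test S
  let rS : GQ → M2 S := fun τ => Matrix.of fun a b =>
    ⟨X.r τ a b, ⟨MvPolynomial.X (τ, a, b), ev_X X.r τ a b⟩⟩
  have hval : ∀ τ, (rS τ).map S.val = X.r τ := fun τ => by ext a b; rfl
  have hin : InF 𝒟 D S rS := by
    apply InF.of_injective h𝒟 htest X.test S.val Subtype.val_injective
    rw [funext hval]
    exact X.inF
  obtain ⟨f, hf⟩ := exists_classMap he htest hin.1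
  refine ⟨⟨S, htest, rS, hin, f, hf⟩, S.val, Subtype.val_injective, hval, ?_, hlev⟩
  rintro ⟨a, y, rfl⟩
  refine ⟨y, Subtype.ext ?_⟩
  show S.val (ev rS y) = _
  rw [← ev_map, funext hval]
  rfl

include h𝒟 he hG in
/-- (O2) -/
theorem Obj.exists_f_eq_ev [Finite (ResidueField 𝒪)] (X : Obj 𝒟 D e) (y : EE 𝒪) :
    ∃ x, X.f x = ev X.r y := by
  obtain ⟨Y, ι, -, hι, ht, -⟩ := X.exists_tight h𝒟 he
  obtain ⟨x, hx⟩ := ht.surjective hG (ev Y.r y)
  exact ⟨x, by rw [← Obj.apply_f he Y X ι hι, hx, Obj.apply_ev Y X ι hι]⟩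

include h𝒟 he in
theorem Obj.exists_prod [Finite (ResidueField 𝒪)] (X Y : Obj 𝒟 D e) :
    ∃ (Z : Obj 𝒟 D e) (pX : Z.A →ₐ[𝒪] X.A) (pY : Z.A →ₐ[𝒪] Y.A),
      (∀ τ, (Z.r τ).map pX = X.r τ) ∧ (∀ τ, (Z.r τ).map pY = Y.r τ) ∧
      (∀ z, pX z = 0 → pY z = 0 → z = 0) ∧
      (∀ n, X.Level n → Y.Level n → Z.Level n) := by
  obtain ⟨Z, _, _, _, htest, pA, pB, r, hr, h1, h2, h3, h4⟩ :=
    InF.prod h𝒟 X.test Y.test X.inF Y.inF
  obtain ⟨f, hf⟩ := exists_classMap he htest hr.1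
  exact ⟨⟨Z, htest, r, hr, f, hf⟩, pA, pB, h1, h2, h3, h4⟩

/-- push-forward of an object -/
@[reducible] noncomputable def Obj.push (h𝒟 : IsDeformationCondition 𝒪 𝒟) (X : Obj 𝒟 D e) (B : Type) [CommRing B]
    [IsLocalRing B] [Algebra 𝒪 B] (hB : IsArtinianTestAlgebra 𝒪 B) (φ : X.A →ₐ[𝒪] B) :
    Obj 𝒟 D e :=
  ⟨B, hB, fun τ => (X.r τ).map φ, X.inF.map h𝒟 X.test hB φ, φ.comp X.f,
    fun s => by rw [AlgHom.comp_apply, X.hf, ev_map]⟩

theorem Obj.exists_base [Finite (ResidueField 𝒪)] {ρbar : ResidualGaloisRep (ResidueField 𝒪)}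
    (he : ∀ s, ev D.rt (e s) ∈ maximalIdeal 𝒪)
    (hD : HasMatRes ρbar (fun τ => (D.rt τ).map (residue 𝒪)))
    (hbar : 𝒟 (GaloisRepAdic.ofResidualGaloisRep ρbar)) : ∃ X : Obj 𝒟 D e, X.Level 1 := by
  have htest : IsArtinianTestAlgebra 𝒪 (ResidueField 𝒪) := test_residueField
  have hn : NLift D (A := ResidueField 𝒪) (fun τ => (D.rt τ).map (residue 𝒪)) := by
    refine ⟨fun τ => ?_, ?_, ?_, rfl⟩
    · ext a b; rfl
    · exact (residue_eq_zero_iff _).mpr D.h00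
    · have := (residue_eq_zero_iff _).mpr D.h10
      rw [map_sub, map_one, sub_eq_zero] at this
      exact this
  obtain ⟨f, hf⟩ := exists_classMap he htest hn
  refine ⟨⟨ResidueField 𝒪, htest, _, ⟨hn, _, hD.ofResidual, hbar⟩, f, hf⟩, ?_⟩
  show maximalIdeal (ResidueField 𝒪) ^ 1 = ⊥
  rw [pow_one, IsLocalRing.maximalIdeal_eq_bot]

end Obj

end Fermat.Agent.S53Aux
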