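/-
S53 helper library: the tower of level ideals in the power series ring.
-/
import Fermat.Agent.S53_Obj

set_option autoImplicit false
set_option linter.style.haveILetI false
set_option linter.unusedSectionVars false

namespace Fermat.Agent.S53Aux

open IsLocalRing GaloisRep

section Tower

variable {𝒪 : Type} [CommRing 𝒪] [IsDomain 𝒪] [IsDiscreteValuationRing 𝒪]
  [Finite (ResidueField 𝒪)]
  (𝒟 : ∀ ⦃A : Type⦄ [CommRing A] [IsLocalRing A] [Algebra 𝒪 A], GaloisRepAdic A → Prop)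
  (D : ResData 𝒪) {σ : Type} [Finite σ] (e : σ → EE 𝒪)

/-- the level ideals -/
noncomputable def Jn (n : ℕ) : Ideal (MvPowerSeries σ 𝒪) :=
  sInf {𝔧 | ∃ X : Obj 𝒟 D e, X.Level n ∧ RingHom.ker X.f = 𝔧}

variable {𝒟 D e}

theorem Jn_le (X : Obj 𝒟 D e) {n : ℕ} (h : X.Level n) : Jn 𝒟 D e n ≤ RingHom.ker X.f :=
  sInf_le ⟨X, h, rfl⟩

theorem Jn_anti (n : ℕ) : Jn 𝒟 D e (n + 1) ≤ Jn 𝒟 D e n := by
  refine le_sInf ?_
  rintro _ ⟨X, h, rfl⟩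
  exact Jn_le X (h.mono (Nat.le_succ n))

variable (h𝒟 : IsDeformationCondition 𝒪 𝒟)
  (he : ∀ s, ev D.rt (e s) ∈ maximalIdeal 𝒪)
  (hG : ∀ (A : Type) [CommRing A] [IsLocalRing A] [Algebra 𝒪 A], IsArtinianTestAlgebra 𝒪 A →
        ∀ r : GQ → M2 A, InF 𝒟 D A r → Function.Surjective (ev (𝒪 := 𝒪) r) →
          maximalIdeal A = Ideal.span (Set.range fun s => ev r (e s)))
  (hbase : ∃ X : Obj 𝒟 D e, X.Level 1)

include he in
theorem pow_le_Jn (n : ℕ) : varIdeal σ 𝒪 ^ n ≤ Jn 𝒟 D e n := by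
  refine le_sInf ?_
  rintro _ ⟨X, h, rfl⟩
  intro x hx
  have := classMap_mem_pow he X.inF.1 X.f X.hf n hx
  rw [h] at this
  exact this

include he in
theorem Obj.ker_prod (X Y Z : Obj 𝒟 D e) (pX : Z.A →ₐ[𝒪] X.A) (pY : Z.A →ₐ[𝒪] Y.A)
    (h1 : ∀ τ, (Z.r τ).map pX = X.r τ) (h2 : ∀ τ, (Z.r τ).map pY = Y.r τ)
    (h3 : ∀ z, pX z = 0 → pY z = 0 → z = 0) :
    RingHom.ker Z.f = RingHom.ker X.f ⊓ RingHom.ker Y.f := by
  ext x
  rw [Ideal.mem_inf, RingHom.mem_ker, RingHom.mem_ker, RingHom.mem_ker,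
    ← Obj.apply_f he Z X pX h1, ← Obj.apply_f he Z Y pY h2]
  constructor
  · intro h; rw [h, map_zero, map_zero]; exact ⟨rfl, rfl⟩
  · rintro ⟨h, h'⟩; exact h3 _ h h'

include he in
theorem Obj.ker_of_injective (X Y : Obj 𝒟 D e) (ι : Y.A →ₐ[𝒪] X.A) (hι : Function.Injective ι)
    (h1 : ∀ τ, (Y.r τ).map ι = X.r τ) : RingHom.ker Y.f = RingHom.ker X.f := by
  ext x
  rw [RingHom.mem_ker, RingHom.mem_ker, ← Obj.apply_f he Y X ι h1, map_eq_zero_iff ι hι]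

include h𝒟 he hbase in
theorem exists_attain (n : ℕ) (hn : 1 ≤ n) :
    ∃ X : Obj 𝒟 D e, X.Tight ∧ X.Level n ∧ RingHom.ker X.f = Jn 𝒟 D e n := by
  obtain ⟨X₀, hX₀⟩ := hbase
  obtain ⟨𝔧, ⟨X, hX, rfl⟩, hleast⟩ := exists_least_ideal
    {𝔧 | ∃ X : Obj 𝒟 D e, X.Level n ∧ RingHom.ker X.f = 𝔧} ⟨_, X₀, hX₀.mono hn, rfl⟩ n
    (by
      rintro _ ⟨X, hX, rfl⟩
      exact classMap_maximalIdeal_pow_le_ker he X.inF.1 X.f X.hf n hX)
    (by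
      rintro _ ⟨X, hX, rfl⟩ _ ⟨Y, hY, rfl⟩
      obtain ⟨Z, pX, pY, h1, h2, h3, h4⟩ := Obj.exists_prod h𝒟 he X Y
      exact ⟨_, ⟨Z, h4 n hX hY, rfl⟩, le_of_eq (Obj.ker_prod he X Y Z pX pY h1 h2 h3)⟩)
  obtain ⟨Y, ι, hι, h1, ht, hlev⟩ := X.exists_tight h𝒟 he
  refine ⟨Y, ht, hlev n hX, ?_⟩
  rw [Obj.ker_of_injective he X Y ι hι h1]
  exact le_antisymm (le_sInf hleast) (Jn_le X hX)

include h𝒟 he hG hbase in
theorem Jn_step (n : ℕ) : Jn 𝒟 D e n ≤ Jn 𝒟 D e (n + 1) ⊔ varIdeal σ 𝒪 ^ n := by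
  rcases Nat.eq_zero_or_pos n with rfl | hn
  · rw [pow_zero, Ideal.one_eq_top, sup_top_eq]; exact le_top
  obtain ⟨X, ht, hlev, hker⟩ := exists_attain h𝒟 he hbase (n + 1) (Nat.le_add_left 1 n)
  have hne : maximalIdeal X.A ^ n ≠ ⊤ := by
    intro h
    have h1 : maximalIdeal X.A ^ n ≤ maximalIdeal X.A := Ideal.pow_le_self (by omega)
    rw [h] at h1
    exact (maximalIdeal.isMaximal X.A).ne_top (top_le_iff.mp h1)
  obtain ⟨hloc, htest, hmax⟩ := test_quotient X.test (maximalIdeal X.A ^ n) hne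
  let Y : Obj 𝒟 D e := X.push h𝒟 (X.A ⧸ maximalIdeal X.A ^ n) htest
    (Ideal.Quotient.mkₐ 𝒪 (maximalIdeal X.A ^ n))
  have hY : Y.Level n := by
    show maximalIdeal (X.A ⧸ maximalIdeal X.A ^ n) ^ n = ⊥
    rw [hmax, ← Ideal.map_pow, Ideal.map_quotient_self]
  intro p hp
  have h1 : X.f p ∈ maximalIdeal X.A ^ n := by
    have := Jn_le Y hY hp
    exact Ideal.Quotient.eq_zero_iff_mem.mp this
  have h2 : maximalIdeal X.A = (varIdeal σ 𝒪).map X.f := by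
    rw [ht.max_eq hG, varIdeal, Ideal.map_span, ← Set.range_comp]; rfl
  rw [h2, ← Ideal.map_pow, Ideal.mem_map_iff_of_surjective _ (ht.surjective hG)] at h1
  obtain ⟨q, hq, hqp⟩ := h1
  have h3 : p - q ∈ Jn 𝒟 D e (n + 1) := by
    rw [← hker, RingHom.mem_ker, map_sub, hqp, sub_self]
  have : p = (p - q) + q := by ring
  rw [this]
  exact Submodule.add_mem_sup h3 hq

include h𝒟 he hG hbase in
theorem exists_level_elt (y : EE 𝒪) (n : ℕ) :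
    ∃ x : MvPowerSeries σ 𝒪, ∀ X : Obj 𝒟 D e, X.Level n → X.f x = ev X.r y := by
  rcases Nat.eq_zero_or_pos n with rfl | hn
  · exact ⟨0, fun X hX => absurd hX.pos (by omega)⟩
  obtain ⟨Xn, -, hlev, hker⟩ := exists_attain h𝒟 he hbase n hn
  obtain ⟨x, hx⟩ := Xn.exists_f_eq_ev h𝒟 he hG y
  refine ⟨x, fun X hX => ?_⟩
  obtain ⟨Z, pX, pY, h1, h2, -, -⟩ := Obj.exists_prod h𝒟 he X Xn
  obtain ⟨z, hz⟩ := Z.exists_f_eq_ev h𝒟 he hG y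
  have h3 : z - x ∈ RingHom.ker Xn.f := by
    rw [RingHom.mem_ker, map_sub, hx, ← Obj.apply_f he Z Xn pY h2, hz, Obj.apply_ev Z Xn pY h2,
      sub_self]
  rw [hker] at h3
  have h4 := Jn_le X hX h3
  rw [RingHom.mem_ker, map_sub, sub_eq_zero] at h4
  rw [← h4, ← Obj.apply_f he Z X pX h1, hz, Obj.apply_ev Z X pX h1]

include h𝒟 he hG hbase in
/-- (O7) -/
theorem exists_univ_elt (y : EE 𝒪) :
    ∃ x : MvPowerSeries σ 𝒪, ∀ X : Obj 𝒟 D e, X.f x = ev X.r y := by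
  choose x hx using exists_level_elt h𝒟 he hG hbase y
  obtain ⟨z, hz⟩ := tower_exists_limit (varIdeal σ 𝒪) (Jn 𝒟 D e) (pow_le_Jn he) Jn_anti
    (Jn_step h𝒟 he hG hbase) x (by
      intro n
      rw [Jn, Submodule.mem_sInf]
      rintro _ ⟨X, hX, rfl⟩
      rw [RingHom.mem_ker, map_sub, hx n X hX, hx (n + 1) X (hX.mono (Nat.le_succ n)), sub_self])
  refine ⟨z, fun X => ?_⟩
  obtain ⟨n, hn⟩ := X.exists_level
  have := Jn_le X hn (hz n)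
  rw [RingHom.mem_ker, map_sub, sub_eq_zero] at this
  rw [this, hx n X hn]

end Tower

section Ring

variable {𝒪 : Type} [CommRing 𝒪] [IsDomain 𝒪] [IsDiscreteValuationRing 𝒪]
  [Finite (ResidueField 𝒪)]
  (𝒟 : ∀ ⦃A : Type⦄ [CommRing A] [IsLocalRing A] [Algebra 𝒪 A], GaloisRepAdic A → Prop)
  (D : ResData 𝒪) {σ : Type} [Finite σ] (e : σ → EE 𝒪)

/-- the defining ideal of the universal ring -/
noncomputable def Jinf : Ideal (MvPowerSeries σ 𝒪) := ⨅ n, Jn 𝒟 D e n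

variable {𝒟 D e}

theorem Jinf_le_ker (X : Obj 𝒟 D e) : Jinf 𝒟 D e ≤ RingHom.ker X.f := by
  obtain ⟨n, hn⟩ := X.exists_level
  exact (iInf_le _ n).trans (Jn_le X hn)

theorem mem_Jinf_iff (p : MvPowerSeries σ 𝒪) : p ∈ Jinf 𝒟 D e ↔ ∀ X : Obj 𝒟 D e, X.f p = 0 := by
  constructor
  · intro h X
    exact Jinf_le_ker X h
  · intro h
    rw [Jinf, Submodule.mem_iInf]
    intro n
    rw [Jn, Submodule.mem_sInf]
    rintro _ ⟨X, -, rfl⟩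
    exact h X

/-- the canonical map from the universal ring to an object -/
noncomputable def Obj.fbar (X : Obj 𝒟 D e) : (MvPowerSeries σ 𝒪 ⧸ Jinf 𝒟 D e) →ₐ[𝒪] X.A :=
  Ideal.Quotient.liftₐ (Jinf 𝒟 D e) X.f (fun _ ha => Jinf_le_ker X ha)

@[simp] theorem Obj.fbar_mk (X : Obj 𝒟 D e) (p : MvPowerSeries σ 𝒪) :
    X.fbar (Ideal.Quotient.mk (Jinf 𝒟 D e) p) = X.f p := rfl

theorem eq_zero_of_fbar (z : MvPowerSeries σ 𝒪 ⧸ Jinf 𝒟 D e)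
    (h : ∀ X : Obj 𝒟 D e, X.fbar z = 0) : z = 0 := by
  obtain ⟨p, rfl⟩ := Ideal.Quotient.mk_surjective z
  exact Ideal.Quotient.eq_zero_iff_mem.mpr ((mem_Jinf_iff p).mpr h)

theorem eq_of_fbar (z z' : MvPowerSeries σ 𝒪 ⧸ Jinf 𝒟 D e)
    (h : ∀ X : Obj 𝒟 D e, X.fbar z = X.fbar z') : z = z' :=
  sub_eq_zero.mp (eq_zero_of_fbar _ fun X => by rw [map_sub, h X, sub_self])

theorem Jinf_ne_top (hbase : ∃ X : Obj 𝒟 D e, X.Level 1) : Jinf 𝒟 D e ≠ ⊤ := by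
  obtain ⟨X, -⟩ := hbase
  intro h
  have := Jinf_le_ker X
  rw [h, top_le_iff] at this
  exact RingHom.ker_ne_top _ this

theorem X_sub_C_mem_Jinf (ϖ : 𝒪) (i₀ : σ) (hi₀ : e i₀ = MvPolynomial.C ϖ) :
    MvPowerSeries.X i₀ - MvPowerSeries.C ϖ ∈ Jinf 𝒟 D e := by
  rw [mem_Jinf_iff]
  intro X
  have h3 : X.f (MvPowerSeries.C ϖ) = algebraMap 𝒪 X.A ϖ := by
    rw [← X.f.commutes]; rfl
  rw [map_sub, X.hf, hi₀, ev_C, h3, sub_self]

variable (h𝒟 : IsDeformationCondition 𝒪 𝒟)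
  (he : ∀ s, ev D.rt (e s) ∈ maximalIdeal 𝒪)
  (hG : ∀ (A : Type) [CommRing A] [IsLocalRing A] [Algebra 𝒪 A], IsArtinianTestAlgebra 𝒪 A →
        ∀ r : GQ → M2 A, InF 𝒟 D A r → Function.Surjective (ev (𝒪 := 𝒪) r) →
          maximalIdeal A = Ideal.span (Set.range fun s => ev r (e s)))
  (hbase : ∃ X : Obj 𝒟 D e, X.Level 1)

include h𝒟 he hG hbase in
theorem exists_rR : ∃ rR : GQ → M2 (MvPowerSeries σ 𝒪 ⧸ Jinf 𝒟 D e),
    ∀ (X : Obj 𝒟 D e) (τ : GQ), (rR τ).map X.fbar = X.r τ := by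
  choose x hx using exists_univ_elt h𝒟 he hG hbase
  refine ⟨fun τ => Matrix.of fun a b =>
    Ideal.Quotient.mk (Jinf 𝒟 D e) (x (MvPolynomial.X (τ, a, b))), fun X τ => ?_⟩
  ext a b
  show X.f (x (MvPolynomial.X (τ, a, b))) = _
  rw [hx, ev_X]

end Ring

end Fermat.Agent.S53Aux
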