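/-
S53 helper library: the universal ring and its universal property.
-/
import Fermat.Agent.S53_Tower

set_option autoImplicit false
set_option linter.style.haveILetI false
set_option linter.unusedSectionVars false

namespace Fermat.Agent.S53Aux

open IsLocalRing GaloisRep

section Univ

variable {𝒪 : Type} [CommRing 𝒪] [IsDomain 𝒪] [IsDiscreteValuationRing 𝒪]
  [Finite (ResidueField 𝒪)]
  {𝒟 : ∀ ⦃A : Type⦄ [CommRing A] [IsLocalRing A] [Algebra 𝒪 A], GaloisRepAdic A → Prop}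
  {D : ResData 𝒪} {σ : Type} [Finite σ] {e : σ → EE 𝒪}

variable (𝒟 D e) in
/-- the universal ring -/
abbrev RR : Type := MvPowerSeries σ 𝒪 ⧸ Jinf 𝒟 D e

theorem mat_eq_of_fbar (M N : M2 (RR 𝒟 D e)) (h : ∀ X : Obj 𝒟 D e, M.map X.fbar = N.map X.fbar) :
    M = N := by
  ext a b
  exact eq_of_fbar _ _ fun X => congrFun (congrFun (h X) a) b

variable (rR : GQ → M2 (RR 𝒟 D e)) (hrR : ∀ (X : Obj 𝒟 D e) (τ : GQ), (rR τ).map X.fbar = X.r τ)

include hrR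

theorem rR_one : rR 1 = 1 := by
  refine mat_eq_of_fbar _ _ fun X => ?_
  obtain ⟨-, ρ, hρ, -⟩ := X.inF
  rw [hrR, hρ.map_one]
  exact (mmap_one (X.fbar : (RR 𝒟 D e) →+* X.A)).symm

theorem rR_mul (τ τ' : GQ) : rR (τ * τ') = rR τ * rR τ' := by
  refine mat_eq_of_fbar _ _ fun X => ?_
  obtain ⟨-, ρ, hρ, -⟩ := X.inF
  have : (rR τ * rR τ').map X.fbar = (rR τ).map X.fbar * (rR τ').map X.fbar :=
    Matrix.map_mul (f := (X.fbar : (RR 𝒟 D e) →+* X.A))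
  rw [this, hrR, hrR, hrR, hρ.map_mul]

theorem fbar_ev (X : Obj 𝒟 D e) (y : EE 𝒪) : X.fbar (ev rR y) = ev X.r y := by
  rw [← ev_map, funext (hrR X)]

theorem mk_X_eq (s : σ) : Ideal.Quotient.mk (Jinf 𝒟 D e) (MvPowerSeries.X s) = ev rR (e s) := by
  refine eq_of_fbar _ _ fun X => ?_
  rw [fbar_ev rR hrR, Obj.fbar_mk, X.hf]

variable [IsLocalRing (RR 𝒟 D e)]
  (hbase : ∃ X : Obj 𝒟 D e, X.Level 1)

include hbase in
theorem rR_nlift : NLift D rR := by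
  have hent : ∀ (X : Obj 𝒟 D e) τ a b, X.fbar (rR τ a b) = X.r τ a b := fun X τ a b =>
    congrFun (congrFun (hrR X τ) a) b
  refine ⟨(res_iff_sub_mem rR).mpr fun τ a b => ?_, eq_of_fbar _ _ fun X => ?_,
    eq_of_fbar _ _ fun X => ?_, eq_of_fbar _ _ fun X => ?_⟩
  · obtain ⟨X, -⟩ := hbase
    have := X.inF.1.sub_mem τ a b
    by_contra hcon
    have hu : IsUnit (rR τ a b - algebraMap 𝒪 (RR 𝒟 D e) (D.rt τ a b)) := by
      by_contra h0; exact hcon ((mem_maximalIdeal _).mpr h0)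
    have hu' := hu.map X.fbar
    rw [map_sub, AlgHom.commutes, hent] at hu'
    exact (mem_maximalIdeal _).mp this hu'
  · rw [hent, map_zero]; exact X.inF.1.n00
  · rw [hent, map_one]; exact X.inF.1.n10
  · rw [hent, AlgHom.commutes]; exact X.inF.1.nij

variable (h𝒟 : IsDeformationCondition 𝒪 𝒟)
  (he : ∀ s, ev D.rt (e s) ∈ maximalIdeal 𝒪)
  (hG : ∀ (A : Type) [CommRing A] [IsLocalRing A] [Algebra 𝒪 A], IsArtinianTestAlgebra 𝒪 A →
        ∀ r : GQ → M2 A, InF 𝒟 D A r → Function.Surjective (ev (𝒪 := 𝒪) r) →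
          maximalIdeal A = Ideal.span (Set.range fun s => ev r (e s)))
  (hmax : maximalIdeal (RR 𝒟 D e) = (varIdeal σ 𝒪).map (Ideal.Quotient.mk (Jinf 𝒟 D e)))

omit hrR in
include h𝒟 he hG hbase hmax in
theorem mk_mem_pow_of_mem_Jn (n : ℕ) {p : MvPowerSeries σ 𝒪} (hp : p ∈ Jn 𝒟 D e n) :
    Ideal.Quotient.mk (Jinf 𝒟 D e) p ∈ maximalIdeal (RR 𝒟 D e) ^ n := by
  have h1 := tower_le_iInf_sup (varIdeal σ 𝒪) (Jn 𝒟 D e) (pow_le_Jn he) Jn_anti
    (Jn_step h𝒟 he hG hbase) n hp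
  obtain ⟨a, ha, b, hb, rfl⟩ := Submodule.mem_sup.mp h1
  have ha' : a ∈ Jinf 𝒟 D e := ha
  rw [map_add, Ideal.Quotient.eq_zero_iff_mem.mpr ha', zero_add, hmax, ← Ideal.map_pow]
  exact Ideal.mem_map_of_mem _ hb

include h𝒟 he hG hbase hmax in
theorem rR_cont : MatCont rR := by
  intro n
  obtain ⟨X, -, hlev, hker⟩ := exists_attain h𝒟 he hbase (n + 1) (Nat.le_add_left 1 n)
  obtain ⟨-, ρ, hρ, -⟩ := X.inF
  obtain ⟨L, hL, h⟩ := hρ.cont.finLevel (n + 1) hlev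
  refine ⟨L, hL, fun τ hτ a b => ?_⟩
  obtain ⟨p, hp⟩ := Ideal.Quotient.mk_surjective ((rR τ - 1) a b)
  rw [← hp]
  refine Ideal.pow_le_pow_right (Nat.le_succ n)
    (mk_mem_pow_of_mem_Jn hbase h𝒟 he hG hmax (n + 1) ?_)
  rw [← hker, RingHom.mem_ker, ← Obj.fbar_mk, hp]
  have h2 : X.fbar ((rR τ - 1) a b) = ((rR τ - 1).map X.fbar) a b := rfl
  have h3 : (rR τ - 1).map X.fbar = (rR τ).map X.fbar - (1 : M2 (RR 𝒟 D e)).map X.fbar :=
    mmap_sub (X.fbar : (RR 𝒟 D e) →+* X.A) _ _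
  have h4 : (1 : M2 (RR 𝒟 D e)).map X.fbar = 1 := mmap_one (X.fbar : (RR 𝒟 D e) →+* X.A)
  rw [h2, h3, h4, hrR, h τ hτ, sub_self]
  rfl

include h𝒟 he hG hbase hmax in
/-- (R4) the universal lift is of type `𝒟`. -/
theorem rR_type [IsNoetherianRing (RR 𝒟 D e)]
    [IsAdicComplete (maximalIdeal (RR 𝒟 D e)) (RR 𝒟 D e)]
    (hloc : IsLocalHom (algebraMap 𝒪 (RR 𝒟 D e)))
    (hsurj : Function.Surjective (residue (RR 𝒟 D e) ∘ algebraMap 𝒪 (RR 𝒟 D e)))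
    (ρ : GaloisRepAdic (RR 𝒟 D e)) (hρ : HasMat ρ rR) : 𝒟 ρ := by
  rw [h𝒟.iff_forall_surjective hloc hsurj ρ]
  intro B _ _ _ hB q hq hqs
  obtain ⟨n, hn⟩ := test_exists_pow_eq_bot hB
  obtain ⟨X, ht, hlev, hker⟩ := exists_attain h𝒟 he hbase (n + 1) (Nat.le_add_left 1 n)
  let g : MvPowerSeries σ 𝒪 →ₐ[𝒪] B := q.comp (Ideal.Quotient.mkₐ 𝒪 (Jinf 𝒟 D e))
  have hqm : (maximalIdeal (RR 𝒟 D e)).map q ≤ maximalIdeal B := by
    rw [Ideal.map_le_iff_le_comap]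
    intro x hx
    exact map_nonunit (q : RR 𝒟 D e →+* B) x hx
  have hg : RingHom.ker X.f.toRingHom ≤ RingHom.ker g.toRingHom := by
    intro p hp
    have h1 : p ∈ Jn 𝒟 D e (n + 1) := by rw [← hker]; exact hp
    have h2 := mk_mem_pow_of_mem_Jn hbase h𝒟 he hG hmax (n + 1) h1
    have h3 : q (Ideal.Quotient.mk (Jinf 𝒟 D e) p) ∈ (maximalIdeal (RR 𝒟 D e) ^ (n + 1)).map q :=
      Ideal.mem_map_of_mem _ h2
    rw [Ideal.map_pow] at h3
    have h4 := Ideal.pow_le_pow_right (Nat.le_succ n) (Ideal.pow_right_mono hqm (n + 1) h3)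
    rw [hn] at h4
    exact h4
  let ψ : X.A →ₐ[𝒪] B := AlgHom.liftOfSurjective X.f (ht.surjective hG) g hg
  have hψ : ∀ z, ψ (X.fbar z) = q z := by
    intro z
    obtain ⟨p, rfl⟩ := Ideal.Quotient.mk_surjective z
    exact AlgHom.liftOfSurjective_apply X.f (ht.surjective hG) g hg p
  obtain ⟨-, ρ', hρ', hd⟩ := X.inF.map h𝒟 X.test hB ψ
  refine h𝒟.of_isEquiv hB (hρ'.isEquiv ?_) hd
  have := hρ.baseChangeAlong (q : RR 𝒟 D e →+* B) hq
  convert this using 2 with τ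
  ext a b
  rw [← hrR X τ]
  exact hψ _

section UP

variable {A : Type} [CommRing A] [IsLocalRing A] [IsNoetherianRing A]
  [IsAdicComplete (maximalIdeal A) A] [Algebra 𝒪 A] [IsLocalHom (algebraMap 𝒪 A)]

include h𝒟 he in
/-- existence part of the universal property, in matrix form -/
theorem univ_exists (hsurj : Function.Surjective (residue A ∘ algebraMap 𝒪 A))
    {r : GQ → M2 A} {ρA : GaloisRepAdic A} (hρA : HasMat ρA r) (hn : NLift D r) (hd : 𝒟 ρA) :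
    ∃ φ : RR 𝒟 D e →ₐ[𝒪] A, ∀ τ, (rR τ).map φ = r τ := by
  have hloc : IsLocalHom (algebraMap 𝒪 A) := inferInstance
  haveI hlocq : ∀ n, IsLocalRing (A ⧸ maximalIdeal A ^ (n + 1)) :=
    fun n => (test_quotient_pow hloc hsurj n).choose
  have htq : ∀ n, IsArtinianTestAlgebra 𝒪 (A ⧸ maximalIdeal A ^ (n + 1)) :=
    fun n => (test_quotient_pow hloc hsurj n).choose_spec.1
  let π : ∀ n, A →ₐ[𝒪] A ⧸ maximalIdeal A ^ (n + 1) := fun n => Ideal.Quotient.mkₐ 𝒪 _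
  haveI hπloc : ∀ n, IsLocalHom (π n : A →+* A ⧸ maximalIdeal A ^ (n + 1)) :=
    fun n => IsLocalHom.of_surjective _ Ideal.Quotient.mk_surjective
  have hin : ∀ n, InF 𝒟 D (A ⧸ maximalIdeal A ^ (n + 1)) (fun τ => (r τ).map (π n)) := fun n =>
    ⟨hn.map (π n), ρA.baseChangeAlong (π n : A →+* A ⧸ maximalIdeal A ^ (n + 1)) (hπloc n),
      hρA.baseChangeAlong _ _,
      (h𝒟.iff_forall_surjective hloc hsurj ρA).mp hd (htq n) (π n) (hπloc n)
        Ideal.Quotient.mk_surjective⟩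
  choose f hf using fun n => exists_classMap he (htq n) (hin n).1
  let X : ℕ → Obj 𝒟 D e := fun n => ⟨A ⧸ maximalIdeal A ^ (n + 1), htq n, _, hin n, f n, hf n⟩
  let ψ : ∀ n, RR 𝒟 D e →ₐ[𝒪] A ⧸ maximalIdeal A ^ n := fun n =>
    (Ideal.Quotient.factorₐ 𝒪 (Ideal.pow_le_pow_right (Nat.le_succ n))).comp (X n).fbar
  have hX : ∀ {m n : ℕ} (hle : m ≤ n) z,
      Ideal.Quotient.factorₐ 𝒪 (Ideal.pow_le_pow_right (Nat.succ_le_succ hle)) ((X n).fbar z)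
        = (X m).fbar z := by
    intro m n hle z
    obtain ⟨p, rfl⟩ := Ideal.Quotient.mk_surjective z
    exact Obj.apply_f he (X n) (X m)
      (Ideal.Quotient.factorₐ 𝒪 (Ideal.pow_le_pow_right (Nat.succ_le_succ hle)))
      (fun τ => by ext a b; rfl) p
  have hcompat : ∀ {m n : ℕ} (hle : m ≤ n),
      (Ideal.Quotient.factorₐ 𝒪 (Ideal.pow_le_pow_right hle)).comp (ψ n) = ψ m := by
    intro m n hle
    ext z
    show Ideal.Quotient.factorₐ 𝒪 (Ideal.pow_le_pow_right hle)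
      (Ideal.Quotient.factorₐ 𝒪 (Ideal.pow_le_pow_right (Nat.le_succ n)) ((X n).fbar z))
      = Ideal.Quotient.factorₐ 𝒪 (Ideal.pow_le_pow_right (Nat.le_succ m)) ((X m).fbar z)
    rw [← hX hle z]
    obtain ⟨w, hw⟩ := Ideal.Quotient.mk_surjective ((X n).fbar z)
    rw [← hw]
    rfl
  let φ : RR 𝒟 D e →ₐ[𝒪] A := IsAdicComplete.liftAlgHom (maximalIdeal A) ψ hcompat
  have hφ : ∀ n z, Ideal.Quotient.mk (maximalIdeal A ^ n) (φ z) = ψ n z :=
    fun n z => IsAdicComplete.mk_liftAlgHom (maximalIdeal A) ψ hcompat n z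
  refine ⟨φ, fun τ => ?_⟩
  ext a b
  show φ (rR τ a b) = r τ a b
  rw [← sub_eq_zero]
  apply IsHausdorff.haus (I := maximalIdeal A) inferInstance
  intro n
  rw [SModEq.zero, smul_eq_mul, Ideal.mul_top, ← Ideal.Quotient.eq_zero_iff_mem, map_sub, hφ,
    sub_eq_zero]
  show Ideal.Quotient.factorₐ 𝒪 (Ideal.pow_le_pow_right (Nat.le_succ n)) ((X n).fbar (rR τ a b)) = _
  have h1 : (X n).fbar (rR τ a b) = (X n).r τ a b := congrFun (congrFun (hrR (X n) τ) a) b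
  rw [h1]
  rfl

omit [IsNoetherianRing A] [IsAdicComplete (maximalIdeal A) A] in
include he hmax in
theorem isLocalHom_of_map (φ : RR 𝒟 D e →ₐ[𝒪] A) {r : GQ → M2 A} (hn : NLift D r)
    (hφ : ∀ τ, (rR τ).map φ = r τ) : IsLocalHom (φ : RR 𝒟 D e →+* A) := by
  have h1 : (maximalIdeal (RR 𝒟 D e)).map φ ≤ maximalIdeal A := by
    rw [hmax, varIdeal, Ideal.map_span, Ideal.map_span, Ideal.span_le]
    rintro _ ⟨_, ⟨_, ⟨s, rfl⟩, rfl⟩, rfl⟩
    show φ (Ideal.Quotient.mk (Jinf 𝒟 D e) (MvPowerSeries.X s)) ∈ maximalIdeal A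
    rw [mk_X_eq rR hrR, ← ev_map, funext hφ]
    exact ev_mem_maximalIdeal hn (he s)
  constructor
  intro x hx
  by_contra hcon
  have h2 : x ∈ maximalIdeal (RR 𝒟 D e) := (mem_maximalIdeal _).mpr hcon
  exact (mem_maximalIdeal _).mp (h1 (Ideal.mem_map_of_mem _ h2)) hx

omit [IsNoetherianRing A] in
include he in
theorem univ_unique (φ φ' : RR 𝒟 D e →ₐ[𝒪] A) {r : GQ → M2 A} (hn : NLift D r)
    (hφ : ∀ τ, (rR τ).map φ = r τ) (hφ' : ∀ τ, (rR τ).map φ' = r τ) : φ = φ' := by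
  apply Ideal.Quotient.algHom_ext
  have key : ∀ (χ : RR 𝒟 D e →ₐ[𝒪] A), (∀ τ, (rR τ).map χ = r τ) → ∀ s,
      (χ.comp (Ideal.Quotient.mkₐ 𝒪 (Jinf 𝒟 D e))) (MvPowerSeries.X s) = ev r (e s) := by
    intro χ hχ s
    show χ (Ideal.Quotient.mk (Jinf 𝒟 D e) (MvPowerSeries.X s)) = _
    rw [mk_X_eq rR hrR, ← ev_map, funext hχ]
  refine algHom_ext_of_hausdorff (maximalIdeal A) _ _ (fun s => ?_) (fun s => ?_)
  · rw [key φ hφ]; exact ev_mem_maximalIdeal hn (he s)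
  · rw [key φ hφ, key φ' hφ']

include h𝒟 he hmax hbase in
/-- the universal property -/
theorem univ_property {ρbar : ResidualGaloisRep (ResidueField 𝒪)}
    (hD : HasMatRes ρbar (fun τ => (D.rt τ).map (residue 𝒪)))
    (ρ : GaloisRepAdic (RR 𝒟 D e)) (hρ : HasMat ρ rR)
    (hsurj : Function.Surjective (residue A ∘ algebraMap 𝒪 A))
    (ρA : GaloisRepAdic A) (hd : 𝒟 ρA)
    (hres : ρA.residual.IsEquiv (ρbar.baseChangeAlong (ResidueField.map (algebraMap 𝒪 A)))) :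
    ∃! φ : RR 𝒟 D e →ₐ[𝒪] A, ∃ hφ : IsLocalHom (φ : RR 𝒟 D e →+* A),
      (ρ.baseChangeAlong (φ : RR 𝒟 D e →+* A) hφ).IsEquiv ρA := by
  obtain ⟨r, hr, hn⟩ := exists_nlift D hD ρA hres
  obtain ⟨φ, hφ⟩ := univ_exists rR hrR h𝒟 he hsurj hr hn hd
  have hloc := isLocalHom_of_map rR hrR he hmax φ hn hφ
  refine ⟨φ, ⟨hloc, ?_⟩, ?_⟩
  · refine (hρ.baseChangeAlong (φ : RR 𝒟 D e →+* A) hloc).isEquiv ?_
    convert hr using 2 with τ
    exact hφ τ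
  · rintro φ' ⟨hloc', hequiv⟩
    haveI := hloc'
    have hn' : NLift D (fun τ => (rR τ).map φ') := (rR_nlift rR hrR hbase).map φ'
    have h1 := nlift_unique hsurj D (hρ.baseChangeAlong (φ' : RR 𝒟 D e →+* A) hloc') hr hequiv
      hn' hn
    exact univ_unique rR hrR he φ' φ hn (fun τ => congrFun h1 τ) hφ

end UP

end Univ

end Fermat.Agent.S53Aux
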