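import Fermat.Statements.S53
import Fermat.Agent.S53_Univ

set_option autoImplicit false
set_option autoImplicit false
open GaloisRep

namespace Fermat.Agent.S53

open Fermat.Agent.S53Aux in
theorem result
    (𝒪 : Type) [CommRing 𝒪] [IsDomain 𝒪] [IsDiscreteValuationRing 𝒪]
    [IsAdicComplete (IsLocalRing.maximalIdeal 𝒪) 𝒪] [Finite (IsLocalRing.ResidueField 𝒪)]
    (ρbar : ResidualGaloisRep (IsLocalRing.ResidueField 𝒪))
    (𝒟 : ∀ ⦃A : Type⦄ [CommRing A] [IsLocalRing A] [Algebra 𝒪 A], GaloisRepAdic A → Prop)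
    (habs : ρbar.IsAbsolutelyIrreducible)
    (h𝒟 : GaloisRep.IsDeformationCondition 𝒪 𝒟)
    (hbar : 𝒟 (GaloisRepAdic.ofResidualGaloisRep ρbar))
    (hfin : GaloisRep.TangentFinite 𝒪 ρbar 𝒟) :
    Nonempty (GaloisRep.DeformationRingData 𝒪 ρbar 𝒟) := by
  obtain ⟨D, hD⟩ := exists_resData ρbar habs
  obtain ⟨ϖ, hϖ⟩ := IsDiscreteValuationRing.exists_irreducible 𝒪
  have hϖ' : IsLocalRing.maximalIdeal 𝒪 = Ideal.span {ϖ} := hϖ.maximalIdeal_eq
  obtain ⟨σ, _, e, i₀, hi₀, he, hG⟩ := exists_generators h𝒟 hD hfin ϖ hϖ'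
  have hbase : ∃ X : Obj 𝒟 D e, X.Level 1 := Obj.exists_base he hD hbar
  obtain ⟨hlocR, hmax, hcompl, hlh, hsurj⟩ := quotient_props (Jinf 𝒟 D e) (Jinf_ne_top hbase) ϖ hϖ'
    i₀ (X_sub_C_mem_Jinf ϖ i₀ hi₀)
  obtain ⟨rR, hrR⟩ := exists_rR h𝒟 he hG hbase
  have h1 := rR_one rR hrR
  have hm := rR_mul rR hrR
  have hc := rR_cont rR hrR hbase h𝒟 he hG hmax
  have hρ := hasMat_ofMat rR h1 hm hc
  exact ⟨{
    R := RR 𝒟 D e
    instIsLocalRing := hlocR
    instIsAdicComplete := hcompl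
    instIsLocalHom := hlh
    residue_surjective := hsurj
    absIrr := habs
    ρ := ofMat rR h1 hm hc
    isOfType := rR_type rR hrR hbase h𝒟 he hG hmax hlh hsurj _ hρ
    residual_isEquiv := residual_isEquiv_of_res D hD hρ (rR_nlift rR hrR hbase).res
    universal := fun A _ _ _ _ _ _ hsA ρA hd hres =>
      univ_property rR hrR hbase h𝒟 he hmax hD _ hρ hsA ρA hd hres }⟩

end Fermat.Agent.S53
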