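/-
S53 helper library, part "abstract pro-representability" (Schlessinger-type argument, Galois free).
Main result: `exists_prorep`.
-/
import Fermat.Agent.S53_PowerSeries
import Fermat.Agent.S53_TestAlg

set_option autoImplicit false
set_option linter.style.haveILetI false
set_option linter.unusedVariables false
set_option linter.unusedSectionVars false

namespace Fermat.Agent.S53Aux

open IsLocalRing GaloisRep

section IdealLemmas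

theorem sup_pow_le_pow_sup {P : Type} [CommRing P] (I J : Ideal P) (n : ℕ) :
    (I ⊔ J) ^ n ≤ I ^ n ⊔ J := by
  induction n with
  | zero => simp
  | succ n ih =>
    rw [pow_succ]
    refine (Ideal.mul_mono_left ih).trans ?_
    rw [Ideal.sup_mul, Ideal.mul_sup, ← pow_succ]
    refine sup_le (sup_le le_sup_left (Ideal.mul_le_right.trans le_sup_right))
      (Ideal.mul_le_left.trans le_sup_right)


end IdealLemmas

section Univ

variable {𝒪 : Type} [CommRing 𝒪] [IsDomain 𝒪] [IsDiscreteValuationRing 𝒪]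
  [Finite (ResidueField 𝒪)] {σ : Type} [Finite σ]

theorem maximalIdeal_le_varIdeal_sup (ϖ : 𝒪) (hϖ : maximalIdeal 𝒪 = Ideal.span {ϖ}) (i₀ : σ)
    (𝔧 : Ideal (MvPowerSeries σ 𝒪)) (h : MvPowerSeries.X i₀ - MvPowerSeries.C ϖ ∈ 𝔧) :
    maximalIdeal (MvPowerSeries σ 𝒪) ≤ varIdeal σ 𝒪 ⊔ 𝔧 := by
  intro x hx
  have h1 : MvPowerSeries.constantCoeff x ∈ maximalIdeal 𝒪 := by
    rw [mem_maximalIdeal, mem_nonunits_iff, ← MvPowerSeries.isUnit_iff_constantCoeff]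
    exact hx
  rw [hϖ, Ideal.mem_span_singleton'] at h1
  obtain ⟨a, ha⟩ := h1
  have hX : (MvPowerSeries.X i₀ : MvPowerSeries σ 𝒪) ∈ varIdeal σ 𝒪 := Ideal.subset_span ⟨i₀, rfl⟩
  have h2 : x = ((x - MvPowerSeries.C (MvPowerSeries.constantCoeff x)) +
      MvPowerSeries.C a * MvPowerSeries.X i₀) +
      (- (MvPowerSeries.C a * (MvPowerSeries.X i₀ - MvPowerSeries.C ϖ))) := by
    rw [← ha, map_mul]; ring
  rw [h2]
  exact Submodule.add_mem_sup (add_mem (sub_C_constantCoeff_mem x) (Ideal.mul_mem_left _ _ hX))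
    (neg_mem (Ideal.mul_mem_left _ _ h))

theorem sInf_sup_pow_mem (𝒜 : Set (Ideal (MvPowerSeries σ 𝒪))) (ϖ : 𝒪)
    (hϖ : maximalIdeal 𝒪 = Ideal.span {ϖ}) (i₀ : σ) (hne : 𝒜.Nonempty)
    (h1 : ∀ 𝔞 ∈ 𝒜, MvPowerSeries.X i₀ - MvPowerSeries.C ϖ ∈ 𝔞)
    (h2 : ∀ 𝔞 ∈ 𝒜, ∃ N : ℕ, varIdeal σ 𝒪 ^ N ≤ 𝔞)
    (h3 : ∀ 𝔞 ∈ 𝒜, 𝔞 ≠ ⊤)
    (hinf : ∀ 𝔞 ∈ 𝒜, ∀ 𝔟 ∈ 𝒜, 𝔞 ⊓ 𝔟 ∈ 𝒜)
    (hup : ∀ 𝔞 ∈ 𝒜, ∀ 𝔟, 𝔞 ≤ 𝔟 → 𝔟 ≠ ⊤ → 𝔟 ∈ 𝒜) (n : ℕ) :
    sInf 𝒜 ⊔ varIdeal σ 𝒪 ^ (n + 1) ∈ 𝒜 := by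
  have hmax : maximalIdeal (MvPowerSeries σ 𝒪) ∈ 𝒜 := by
    obtain ⟨𝔞, h𝔞⟩ := hne
    exact hup 𝔞 h𝔞 _ (le_maximalIdeal (h3 𝔞 h𝔞)) Ideal.IsPrime.ne_top'
  have hleast : ∀ n : ℕ, ∃ 𝔧 ∈ 𝒜, varIdeal σ 𝒪 ^ (n + 1) ≤ 𝔧 ∧
      ∀ 𝔞 ∈ 𝒜, varIdeal σ 𝒪 ^ (n + 1) ≤ 𝔞 → 𝔧 ≤ 𝔞 := by
    intro n
    obtain ⟨𝔧, ⟨h𝔧, h𝔧'⟩, hmin⟩ := exists_least_ideal
      {𝔞 | 𝔞 ∈ 𝒜 ∧ varIdeal σ 𝒪 ^ (n + 1) ≤ 𝔞}
      ⟨_, hmax, (Ideal.pow_le_self (by omega)).trans varIdeal_le_maximalIdeal⟩ (n + 1)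
      (fun 𝔧 h𝔧 => (Ideal.pow_right_mono
        (maximalIdeal_le_varIdeal_sup ϖ hϖ i₀ 𝔧 (h1 𝔧 h𝔧.1)) (n + 1)).trans
        ((sup_pow_le_pow_sup _ _ _).trans (sup_le h𝔧.2 le_rfl)))
      (fun 𝔞 h𝔞 𝔟 h𝔟 => ⟨𝔞 ⊓ 𝔟, ⟨hinf 𝔞 h𝔞.1 𝔟 h𝔟.1, le_inf h𝔞.2 h𝔟.2⟩, le_rfl⟩)
    exact ⟨𝔧, h𝔧, h𝔧', fun 𝔞 h𝔞 h𝔞' => hmin 𝔞 ⟨h𝔞, h𝔞'⟩⟩
  choose L hL𝒜 hLvar hLmin using hleast
  let J : ℕ → Ideal (MvPowerSeries σ 𝒪) := fun n => Nat.casesOn n ⊤ L
  have hJ0 : J 0 = ⊤ := rfl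
  have hJs : ∀ n, J (n + 1) = L n := fun n => rfl
  have hIJ : ∀ n, varIdeal σ 𝒪 ^ n ≤ J n := by
    intro n
    cases n with
    | zero => rw [hJ0]; exact le_top
    | succ n => exact hLvar n
  have hanti : ∀ n, J (n + 1) ≤ J n := by
    intro n
    cases n with
    | zero => rw [hJ0]; exact le_top
    | succ n =>
      rw [hJs, hJs]
      exact hLmin _ _ (hL𝒜 n) ((Ideal.pow_le_pow_right (by omega)).trans (hLvar n))
  have hstep : ∀ n, J n ≤ J (n + 1) ⊔ varIdeal σ 𝒪 ^ n := by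
    intro n
    cases n with
    | zero => simp
    | succ n =>
      rw [hJs, hJs]
      refine hLmin _ _ (hup _ (hL𝒜 (n + 1)) _ le_sup_left ?_) le_sup_right
      intro htop
      have : L (n + 1) ⊔ varIdeal σ 𝒪 ^ (n + 1) ≤ maximalIdeal (MvPowerSeries σ 𝒪) :=
        sup_le (le_maximalIdeal (h3 _ (hL𝒜 _)))
          ((Ideal.pow_le_self (by omega)).trans varIdeal_le_maximalIdeal)
      rw [htop] at this
      exact Ideal.IsPrime.ne_top' (top_le_iff.mp this)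
  have hInf : (⨅ m, J m) = sInf 𝒜 := by
    apply le_antisymm
    · apply le_sInf
      intro 𝔞 h𝔞
      obtain ⟨N, hN⟩ := h2 𝔞 h𝔞
      exact (iInf_le J (N + 1)).trans
        (hLmin N 𝔞 h𝔞 ((Ideal.pow_le_pow_right (by omega)).trans hN))
    · apply le_iInf
      intro m
      cases m with
      | zero => rw [hJ0]; exact le_top
      | succ m => exact sInf_le (hL𝒜 m)
  have hfin := tower_le_iInf_sup (varIdeal σ 𝒪) J hIJ hanti hstep (n + 1)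
  rw [hInf, hJs] at hfin
  have : sInf 𝒜 ⊔ varIdeal σ 𝒪 ^ (n + 1) = L n :=
    le_antisymm (sup_le (sInf_le (hL𝒜 n)) (hLvar n)) hfin
  rw [this]
  exact hL𝒜 n

end Univ

section Family

variable {𝒪 : Type} [CommRing 𝒪] [IsDomain 𝒪] [IsDiscreteValuationRing 𝒪]
  [Finite (ResidueField 𝒪)] {E : Type} [CommRing E] [Algebra 𝒪 E]
  (χ : E →ₐ[𝒪] ResidueField 𝒪)

/-- A family of ideals of `E` (kernels of "good points") to which Schlessinger's argument applies. -/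
structure GoodFamily (𝒦 : Set (Ideal E)) : Prop where
  base : RingHom.ker χ ∈ 𝒦
  le : ∀ I ∈ 𝒦, I ≤ RingHom.ker χ
  pow : ∀ I ∈ 𝒦, ∃ N : ℕ, RingHom.ker χ ^ N ≤ I
  fin : ∀ I ∈ 𝒦, Finite (E ⧸ I)
  inf : ∀ I ∈ 𝒦, ∀ I' ∈ 𝒦, I ⊓ I' ∈ 𝒦
  up : ∀ I ∈ 𝒦, ∀ I', I ≤ I' → I' ≤ RingHom.ker χ → I' ∈ 𝒦
  tangent : letI := dualAlg 𝒪
    {h : E →ₐ[𝒪] DualNumber (ResidueField 𝒪) | RingHom.ker h ∈ 𝒦}.Finite

theorem exists_sub_algebraMap_mem_ker (x : E) :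
    ∃ o : 𝒪, x - algebraMap 𝒪 E o ∈ RingHom.ker χ := by
  obtain ⟨o, ho⟩ := residue_surjective (χ x)
  refine ⟨o, ?_⟩
  rw [RingHom.mem_ker, map_sub, AlgHom.commutes, sub_eq_zero]
  exact ho.symm

theorem algebraMap_mem_ker_iff (o : 𝒪) :
    algebraMap 𝒪 E o ∈ RingHom.ker χ ↔ o ∈ maximalIdeal 𝒪 := by
  rw [RingHom.mem_ker, AlgHom.commutes]
  exact residue_eq_zero_iff o

theorem quotient_local (I : Ideal E) (hle : I ≤ RingHom.ker χ) (N : ℕ)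
    (hN : RingHom.ker χ ^ N ≤ I) [Finite (E ⧸ I)] :
    ∃ _ : IsLocalRing (E ⧸ I), IsArtinianTestAlgebra 𝒪 (E ⧸ I) ∧
      ∀ x, Ideal.Quotient.mk I x ∈ maximalIdeal (E ⧸ I) ↔ x ∈ RingHom.ker χ := by
  have hne : I ≠ ⊤ := by
    intro h
    have : (1 : E) ∈ RingHom.ker χ := hle (h ▸ Submodule.mem_top)
    rw [RingHom.mem_ker, map_one] at this
    exact one_ne_zero this
  haveI : Nontrivial (E ⧸ I) := Ideal.Quotient.nontrivial_iff.mpr hne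
  have hnil : ∀ x ∈ RingHom.ker χ, IsNilpotent (Ideal.Quotient.mk I x) := by
    intro x hx
    refine ⟨N, ?_⟩
    rw [← map_pow, Ideal.Quotient.eq_zero_iff_mem]
    exact hN (Ideal.pow_mem_pow hx N)
  have h1 : ∀ o ∈ maximalIdeal 𝒪, IsNilpotent (algebraMap 𝒪 (E ⧸ I) o) := by
    intro o ho
    exact hnil _ ((algebraMap_mem_ker_iff χ o).mpr ho)
  have h2 : ∀ a : E ⧸ I, ∃ o : 𝒪, IsNilpotent (a - algebraMap 𝒪 (E ⧸ I) o) := by
    intro a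
    obtain ⟨x, rfl⟩ := Ideal.Quotient.mk_surjective a
    obtain ⟨o, ho⟩ := exists_sub_algebraMap_mem_ker χ x
    exact ⟨o, by simpa using hnil _ ho⟩
  haveI hloc : IsLocalRing (E ⧸ I) := isLocalRing_of_nil (𝒪 := 𝒪) (E ⧸ I) h1 h2
  have htest : IsArtinianTestAlgebra 𝒪 (E ⧸ I) := test_of_nil (E ⧸ I) h1 h2
  refine ⟨hloc, htest, fun x => ?_⟩
  rw [test_mem_maximalIdeal_iff htest]
  constructor
  · rintro ⟨k, hk⟩
    rw [← map_pow, Ideal.Quotient.eq_zero_iff_mem] at hk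
    have := hle hk
    rw [RingHom.mem_ker, map_pow] at this
    rw [RingHom.mem_ker]
    exact eq_zero_of_pow_eq_zero this
  · exact hnil x

variable {χ} {𝒦 : Set (Ideal E)}

theorem GoodFamily.biInf_mem (H : GoodFamily χ 𝒦) {T : Type} (S : Set T) (hS : S.Finite)
    (f : T → Ideal E) (hf : ∀ t ∈ S, f t ∈ 𝒦) : RingHom.ker χ ⊓ ⨅ t ∈ S, f t ∈ 𝒦 := by
  induction S, hS using Set.Finite.induction_on with
  | empty => simpa using H.base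
  | @insert a S ha hS ih =>
    rw [iInf_insert, inf_left_comm]
    exact H.inf _ (hf a (Set.mem_insert _ _)) _ (ih fun t ht => hf t (Set.mem_insert_of_mem _ ht))

theorem GoodFamily.tangent_le (H : GoodFamily χ 𝒦) (ϖ : 𝒪) (hϖ : maximalIdeal 𝒪 = Ideal.span {ϖ})
    (I : Ideal E) (hI : I ∈ 𝒦) :
    letI := dualAlg 𝒪
    RingHom.ker χ ⊓ ⨅ h ∈ {h : E →ₐ[𝒪] DualNumber (ResidueField 𝒪) | RingHom.ker h ∈ 𝒦},
      RingHom.ker h ≤ I ⊔ RingHom.ker χ ^ 2 ⊔ Ideal.span {algebraMap 𝒪 E ϖ} := by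
  letI := dualAlg 𝒪
  set I' : Ideal E := I ⊔ RingHom.ker χ ^ 2 ⊔ Ideal.span {algebraMap 𝒪 E ϖ} with hI'
  have hϖm : ϖ ∈ maximalIdeal 𝒪 := by rw [hϖ]; exact Ideal.mem_span_singleton_self ϖ
  have hle' : I' ≤ RingHom.ker χ := by
    refine sup_le (sup_le (H.le I hI) (Ideal.pow_le_self (by omega))) ?_
    rw [Ideal.span_singleton_le_iff_mem]
    exact (algebraMap_mem_ker_iff χ ϖ).mpr hϖm
  have hI'𝒦 : I' ∈ 𝒦 := H.up I hI I' (le_sup_left.trans le_sup_left) hle'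
  haveI := H.fin I' hI'𝒦
  obtain ⟨hloc, htest, hmem⟩ := quotient_local χ I' hle' 2 (le_sup_right.trans le_sup_left)
  intro x hx
  by_contra hxI'
  rw [Submodule.mem_inf] at hx
  obtain ⟨hx1, hx2⟩ := hx
  obtain ⟨h', hh'⟩ := exists_dualNumber_point (A := E ⧸ I') htest
    (by
      intro o ho
      rw [hϖ, Ideal.mem_span_singleton'] at ho
      obtain ⟨a, rfl⟩ := ho
      show Ideal.Quotient.mk I' (algebraMap 𝒪 E (a * ϖ)) = 0
      rw [Ideal.Quotient.eq_zero_iff_mem, map_mul]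
      exact Ideal.mul_mem_left _ _ (le_sup_right (a := I ⊔ RingHom.ker χ ^ 2)
        (Ideal.mem_span_singleton_self _)))
    (by
      intro a ha b hb
      obtain ⟨a, rfl⟩ := Ideal.Quotient.mk_surjective a
      obtain ⟨b, rfl⟩ := Ideal.Quotient.mk_surjective b
      rw [hmem] at ha hb
      rw [← map_mul, Ideal.Quotient.eq_zero_iff_mem]
      apply (le_sup_right.trans le_sup_left : RingHom.ker χ ^ 2 ≤ I')
      rw [pow_two]
      exact Ideal.mul_mem_mul ha hb)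
    (Ideal.Quotient.mk I' x) ((hmem x).mpr hx1)
    (by rwa [Ne, Ideal.Quotient.eq_zero_iff_mem])
  let h : E →ₐ[𝒪] DualNumber (ResidueField 𝒪) := h'.comp (Ideal.Quotient.mkₐ 𝒪 I')
  have hker : RingHom.ker h ∈ 𝒦 := by
    refine H.up I' hI'𝒦 _ ?_ ?_
    · intro z hz
      rw [RingHom.mem_ker]
      show h' (Ideal.Quotient.mk I' z) = 0
      rw [Ideal.Quotient.eq_zero_iff_mem.mpr hz, map_zero]
    · intro z hz
      rw [← hmem]
      by_contra hu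
      have hu' : IsUnit (Ideal.Quotient.mk I' z) := by
        by_contra hnu
        exact hu ((mem_maximalIdeal _).mpr hnu)
      have := hu'.map h'
      rw [RingHom.mem_ker] at hz
      have hz' : h' (Ideal.Quotient.mk I' z) = 0 := hz
      rw [hz'] at this
      exact not_isUnit_zero this
  have := (Submodule.mem_iInf _).mp ((Submodule.mem_iInf _).mp hx2 h) hker
  exact hh' this


omit [IsDomain 𝒪] [IsDiscreteValuationRing 𝒪] [Finite (ResidueField 𝒪)] [Algebra 𝒪 E] in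
theorem le_sup_pow_of_le_sup_sq (𝔫 W : Ideal E) (h : 𝔫 ≤ W ⊔ 𝔫 ^ 2) (k : ℕ) :
    𝔫 ≤ W ⊔ 𝔫 ^ (k + 1) := by
  induction k with
  | zero => rw [zero_add, pow_one]; exact le_sup_right
  | succ k ih =>
    refine ih.trans (sup_le le_sup_left ?_)
    calc 𝔫 ^ (k + 1) = 𝔫 ^ k * 𝔫 := pow_succ _ _
      _ ≤ 𝔫 ^ k * (W ⊔ 𝔫 ^ 2) := Ideal.mul_mono_right h
      _ = 𝔫 ^ k * W ⊔ 𝔫 ^ k * 𝔫 ^ 2 := Ideal.mul_sup _ _ _
      _ ≤ W ⊔ 𝔫 ^ (k + 1 + 1) := sup_le_sup Ideal.mul_le_right (by rw [← pow_add])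

theorem GoodFamily.exists_generators (H : GoodFamily χ 𝒦) (ϖ : 𝒪)
    (hϖ : maximalIdeal 𝒪 = Ideal.span {ϖ}) :
    ∃ (σ : Type) (_ : Finite σ) (y : σ → E) (i₀ : σ), y i₀ = algebraMap 𝒪 E ϖ ∧
      (∀ s, y s ∈ RingHom.ker χ) ∧ ∀ I ∈ 𝒦, RingHom.ker χ ≤ Ideal.span (Set.range y) ⊔ I := by
  letI := dualAlg 𝒪
  have hϖm : ϖ ∈ maximalIdeal 𝒪 := by rw [hϖ]; exact Ideal.mem_span_singleton_self ϖ
  set Iε : Ideal E := RingHom.ker χ ⊓
    ⨅ h ∈ {h : E →ₐ[𝒪] DualNumber (ResidueField 𝒪) | RingHom.ker h ∈ 𝒦}, RingHom.ker h with hIε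
  have hIε𝒦 : Iε ∈ 𝒦 := H.biInf_mem _ H.tangent _ (fun h hh => hh)
  haveI := H.fin Iε hIε𝒦
  classical
  let y0 : E ⧸ Iε → E := fun t =>
    if h : ∃ x ∈ RingHom.ker χ, Ideal.Quotient.mk Iε x = t then h.choose else 0
  have hy0 : ∀ t, y0 t ∈ RingHom.ker χ := by
    intro t
    simp only [y0]
    split_ifs with h
    · exact h.choose_spec.1
    · exact zero_mem _
  have hy0' : ∀ x ∈ RingHom.ker χ, x - y0 (Ideal.Quotient.mk Iε x) ∈ Iε := by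
    intro x hx
    have h : ∃ x' ∈ RingHom.ker χ, Ideal.Quotient.mk Iε x' = Ideal.Quotient.mk Iε x :=
      ⟨x, hx, rfl⟩
    simp only [y0]
    rw [dif_pos h]
    exact Ideal.Quotient.eq.mp h.choose_spec.2.symm
  let y : Option (E ⧸ Iε) → E := fun s => s.elim (algebraMap 𝒪 E ϖ) y0
  refine ⟨Option (E ⧸ Iε), inferInstance, y, none, rfl, ?_, ?_⟩
  · intro s
    cases s with
    | none => exact (algebraMap_mem_ker_iff χ ϖ).mpr hϖm
    | some t => exact hy0 t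
  · intro I hI
    obtain ⟨N, hN⟩ := H.pow I hI
    have key : RingHom.ker χ ≤ (Ideal.span (Set.range y) ⊔ I) ⊔ RingHom.ker χ ^ 2 := by
      intro x hx
      have h1 := H.tangent_le ϖ hϖ I hI (hy0' x hx)
      have h2 : y (some (Ideal.Quotient.mk Iε x)) ∈ Ideal.span (Set.range y) :=
        Ideal.subset_span ⟨_, rfl⟩
      have h3 : I ⊔ RingHom.ker χ ^ 2 ⊔ Ideal.span {algebraMap 𝒪 E ϖ} ≤
          (Ideal.span (Set.range y) ⊔ I) ⊔ RingHom.ker χ ^ 2 := by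
        refine sup_le (sup_le (le_sup_right.trans le_sup_left) le_sup_right) ?_
        rw [Ideal.span_singleton_le_iff_mem]
        exact (le_sup_left.trans le_sup_left : Ideal.span (Set.range y) ≤ _)
          (Ideal.subset_span ⟨none, rfl⟩)
      have := add_mem ((le_sup_left.trans le_sup_left : Ideal.span (Set.range y) ≤
        (Ideal.span (Set.range y) ⊔ I) ⊔ RingHom.ker χ ^ 2) h2) (h3 h1)
      have hy : y (some (Ideal.Quotient.mk Iε x)) = y0 (Ideal.Quotient.mk Iε x) := rfl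
      rwa [hy, add_sub_cancel] at this
    have := le_sup_pow_of_le_sup_sq _ _ key N
    exact this.trans (sup_le le_rfl
      ((Ideal.pow_le_pow_right (by omega)).trans (hN.trans le_sup_right)))

end Family

section Pi

variable {𝒪 : Type} [CommRing 𝒪] [IsDomain 𝒪] [IsDiscreteValuationRing 𝒪]
  [Finite (ResidueField 𝒪)] {E : Type} [CommRing E] [Algebra 𝒪 E]
  (χ : E →ₐ[𝒪] ResidueField 𝒪) {σ : Type} [Finite σ] (y : σ → E)

theorem pi_span_pow (hy : ∀ s, y s ∈ RingHom.ker χ) (I : Ideal E) (N : ℕ)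
    (hN : RingHom.ker χ ^ N ≤ I) :
    Ideal.span (Set.range fun s => Ideal.Quotient.mk I (y s)) ^ N = ⊥ := by
  rw [eq_bot_iff]
  have h1 : Ideal.span (Set.range fun s => Ideal.Quotient.mk I (y s)) ≤
      (RingHom.ker χ).map (Ideal.Quotient.mk I) := by
    rw [Ideal.span_le]
    rintro _ ⟨s, rfl⟩
    exact Ideal.mem_map_of_mem _ (hy s)
  refine (Ideal.pow_right_mono h1 N).trans ?_
  rw [← Ideal.map_pow]
  refine (Ideal.map_mono hN).trans ?_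
  rw [Ideal.map_quotient_self]

theorem pi_exists (hy : ∀ s, y s ∈ RingHom.ker χ) (I : Ideal E) (N : ℕ)
    (hN : RingHom.ker χ ^ N ≤ I) :
    ∃ π : MvPowerSeries σ 𝒪 →ₐ[𝒪] E ⧸ I, ∀ s, π (MvPowerSeries.X s) = Ideal.Quotient.mk I (y s) :=
  exists_algHom_of_nilpotent _ N (pi_span_pow χ y hy I N hN)

theorem pi_compat (hy : ∀ s, y s ∈ RingHom.ker χ) (I I' : Ideal E) (hII' : I ≤ I') (N : ℕ)
    (hN : RingHom.ker χ ^ N ≤ I)
    (π : MvPowerSeries σ 𝒪 →ₐ[𝒪] E ⧸ I) (π' : MvPowerSeries σ 𝒪 →ₐ[𝒪] E ⧸ I')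
    (hπ : ∀ s, π (MvPowerSeries.X s) = Ideal.Quotient.mk I (y s))
    (hπ' : ∀ s, π' (MvPowerSeries.X s) = Ideal.Quotient.mk I' (y s))
    (p : MvPowerSeries σ 𝒪) (e : E) (h : π p = Ideal.Quotient.mk I e) :
    π' p = Ideal.Quotient.mk I' e := by
  have h1 : π' = (Ideal.Quotient.factorₐ 𝒪 hII').comp π := by
    apply algHom_ext_of_nilpotent _ _ N
    · simp only [hπ']
      exact pi_span_pow χ y hy I' N (hN.trans hII')
    · intro s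
      rw [hπ', AlgHom.comp_apply, hπ]
      rfl
  rw [h1, AlgHom.comp_apply, h]
  rfl

theorem pi_surjective (I : Ideal E) [Finite (E ⧸ I)]
    (hgen : RingHom.ker χ ≤ Ideal.span (Set.range y) ⊔ I)
    (π : MvPowerSeries σ 𝒪 →ₐ[𝒪] E ⧸ I)
    (hπ : ∀ s, π (MvPowerSeries.X s) = Ideal.Quotient.mk I (y s)) : Function.Surjective π := by
  letI : Algebra (MvPowerSeries σ 𝒪) (E ⧸ I) := π.toRingHom.toAlgebra
  have hfg : (⊤ : Submodule (MvPowerSeries σ 𝒪) (E ⧸ I)).FG := Module.Finite.fg_top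
  have hjac : varIdeal σ 𝒪 ≤ Ideal.jacobson ⊥ := by
    rw [IsLocalRing.jacobson_eq_maximalIdeal ⊥ bot_ne_top]
    exact varIdeal_le_maximalIdeal
  have key : (⊤ : Submodule (MvPowerSeries σ 𝒪) (E ⧸ I)) ≤
      Submodule.span (MvPowerSeries σ 𝒪) {1} ⊔ varIdeal σ 𝒪 • ⊤ := by
    intro a _
    obtain ⟨e, rfl⟩ := Ideal.Quotient.mk_surjective a
    obtain ⟨o, ho⟩ := exists_sub_algebraMap_mem_ker χ e
    have h1 := Ideal.mem_map_of_mem (Ideal.Quotient.mk I) (hgen ho)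
    rw [Ideal.map_sup, Ideal.map_quotient_self, sup_bot_eq, Ideal.map_span, ← Set.range_comp] at h1
    have h2 : Ideal.span (Set.range (Ideal.Quotient.mk I ∘ y)) =
        (varIdeal σ 𝒪).map (algebraMap (MvPowerSeries σ 𝒪) (E ⧸ I)) := by
      rw [varIdeal, Ideal.map_span, ← Set.range_comp]
      congr 2
      ext s
      exact (hπ s).symm
    rw [h2] at h1
    have h3 : Ideal.Quotient.mk I (e - algebraMap 𝒪 E o) ∈
        varIdeal σ 𝒪 • (⊤ : Submodule (MvPowerSeries σ 𝒪) (E ⧸ I)) := by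
      rw [Ideal.smul_top_eq_map]
      exact h1
    have h4 : Ideal.Quotient.mk I (algebraMap 𝒪 E o) ∈
        Submodule.span (MvPowerSeries σ 𝒪) {(1 : E ⧸ I)} := by
      rw [Submodule.mem_span_singleton]
      refine ⟨MvPowerSeries.C o, ?_⟩
      rw [Algebra.smul_def, mul_one]
      exact π.commutes o
    have := Submodule.add_mem_sup h4 h3
    rwa [← map_add, add_sub_cancel] at this
  have hle := Submodule.le_of_le_smul_of_le_jacobson_bot hfg hjac key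
  intro a
  have ha := hle (Submodule.mem_top : a ∈ ⊤)
  rw [Submodule.mem_span_singleton] at ha
  obtain ⟨p, hp⟩ := ha
  refine ⟨p, ?_⟩
  rw [← hp, Algebra.smul_def, mul_one]
  rfl

end Pi

section Main

variable {𝒪 : Type} [CommRing 𝒪] [IsDomain 𝒪] [IsDiscreteValuationRing 𝒪]
  [Finite (ResidueField 𝒪)] {ι : Type}

theorem exists_prorep (χ : MvPolynomial ι 𝒪 →ₐ[𝒪] ResidueField 𝒪)
    {𝒦 : Set (Ideal (MvPolynomial ι 𝒪))} (H : GoodFamily χ 𝒦) :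
    ∃ (R : Type) (_ : CommRing R) (_ : IsLocalRing R) (_ : IsNoetherianRing R)
      (_ : IsAdicComplete (maximalIdeal R) R) (_ : Algebra 𝒪 R)
      (_ : IsLocalHom (algebraMap 𝒪 R)) (u : MvPolynomial ι 𝒪 →ₐ[𝒪] R),
      Function.Surjective (residue R ∘ algebraMap 𝒪 R) ∧
      (∀ n : ℕ, RingHom.ker ((Ideal.Quotient.mkₐ 𝒪 (maximalIdeal R ^ (n + 1))).comp u) ∈ 𝒦) ∧
      (∀ n : ℕ, Function.Surjective ((Ideal.Quotient.mkₐ 𝒪 (maximalIdeal R ^ (n + 1))).comp u)) ∧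
      (∀ I ∈ 𝒦, ∃ φ : R →ₐ[𝒪] MvPolynomial ι 𝒪 ⧸ I, φ.comp u = Ideal.Quotient.mkₐ 𝒪 I) := by
  obtain ⟨ϖ, hϖirr⟩ := IsDiscreteValuationRing.exists_irreducible 𝒪
  have hϖ : maximalIdeal 𝒪 = Ideal.span {ϖ} := hϖirr.maximalIdeal_eq
  obtain ⟨σ, hσ, y, i₀, hi₀, hy, hgen⟩ := H.exists_generators ϖ hϖ
  have hex : ∀ I ∈ 𝒦, ∃ π : MvPowerSeries σ 𝒪 →ₐ[𝒪] MvPolynomial ι 𝒪 ⧸ I,
      ∀ s, π (MvPowerSeries.X s) = Ideal.Quotient.mk I (y s) := fun I hI => by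
    obtain ⟨N, hN⟩ := H.pow I hI
    exact pi_exists χ y hy I N hN
  choose π hπ using hex
  have hsurj : ∀ I hI, Function.Surjective (π I hI) := fun I hI => by
    haveI := H.fin I hI
    exact pi_surjective χ y I (hgen I hI) _ (hπ I hI)
  have hcompat : ∀ I hI I' hI', I ≤ I' → ∀ p e, π I hI p = Ideal.Quotient.mk I e →
      π I' hI' p = Ideal.Quotient.mk I' e := fun I hI I' hI' hle p e h => by
    obtain ⟨N, hN⟩ := H.pow I hI
    exact pi_compat χ y hy I I' hle N hN _ _ (hπ I hI) (hπ I' hI') p e h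
  have hvar : ∀ I hI, ∃ N : ℕ, varIdeal σ 𝒪 ^ N ≤ RingHom.ker (π I hI) := fun I hI => by
    obtain ⟨N, hN⟩ := H.pow I hI
    refine ⟨N, fun p hp => ?_⟩
    have := algHom_mem_pow (Ideal.span (Set.range fun s => Ideal.Quotient.mk I (y s))) (π I hI)
      (fun s => by rw [hπ]; exact Ideal.subset_span ⟨s, rfl⟩) N p hp
    rw [pi_span_pow χ y hy I N hN] at this
    exact this
  have hrefl : ∀ I hI I' hI', RingHom.ker (π I hI) ≤ RingHom.ker (π I' hI') → I ≤ I' := by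
    intro I hI I' hI' hle e he
    obtain ⟨p, hp⟩ := hsurj (I ⊓ I') (H.inf I hI I' hI') (Ideal.Quotient.mk _ e)
    have h1 := hcompat _ _ I hI inf_le_left p e hp
    have h2 := hcompat _ _ I' hI' inf_le_right p e hp
    rw [Ideal.Quotient.eq_zero_iff_mem.mpr he] at h1
    have h3 : π I' hI' p = 0 := hle h1
    rw [h3] at h2
    exact Ideal.Quotient.eq_zero_iff_mem.mp h2.symm
  let 𝒜 : Set (Ideal (MvPowerSeries σ 𝒪)) := {𝔞 | ∃ I, ∃ hI : I ∈ 𝒦, 𝔞 = RingHom.ker (π I hI)}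
  have hA1 : ∀ 𝔞 ∈ 𝒜, MvPowerSeries.X i₀ - MvPowerSeries.C ϖ ∈ 𝔞 := by
    rintro _ ⟨I, hI, rfl⟩
    rw [RingHom.mem_ker, map_sub, hπ, hi₀, sub_eq_zero]
    exact ((π I hI).commutes ϖ).symm
  have hA2 : ∀ 𝔞 ∈ 𝒜, ∃ N : ℕ, varIdeal σ 𝒪 ^ N ≤ 𝔞 := by
    rintro _ ⟨I, hI, rfl⟩
    exact hvar I hI
  have hA3 : ∀ 𝔞 ∈ 𝒜, 𝔞 ≠ ⊤ := by
    rintro _ ⟨I, hI, rfl⟩ htop
    have h1 : (1 : MvPowerSeries σ 𝒪) ∈ RingHom.ker (π I hI) := htop ▸ Submodule.mem_top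
    rw [RingHom.mem_ker, map_one, ← map_one (Ideal.Quotient.mk I),
      Ideal.Quotient.eq_zero_iff_mem] at h1
    have := H.le I hI h1
    rw [RingHom.mem_ker, map_one] at this
    exact one_ne_zero this
  have hAinf : ∀ 𝔞 ∈ 𝒜, ∀ 𝔟 ∈ 𝒜, 𝔞 ⊓ 𝔟 ∈ 𝒜 := by
    rintro _ ⟨I, hI, rfl⟩ _ ⟨I', hI', rfl⟩
    refine ⟨I ⊓ I', H.inf I hI I' hI', ?_⟩
    ext p
    obtain ⟨e, he⟩ := Ideal.Quotient.mk_surjective (π (I ⊓ I') (H.inf I hI I' hI') p)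
    have h1 := hcompat _ _ I hI inf_le_left p e he.symm
    have h2 := hcompat _ _ I' hI' inf_le_right p e he.symm
    rw [Submodule.mem_inf, RingHom.mem_ker, RingHom.mem_ker, RingHom.mem_ker, h1, h2, ← he,
      Ideal.Quotient.eq_zero_iff_mem, Ideal.Quotient.eq_zero_iff_mem,
      Ideal.Quotient.eq_zero_iff_mem, Submodule.mem_inf]
  have hAup : ∀ 𝔞 ∈ 𝒜, ∀ 𝔟, 𝔞 ≤ 𝔟 → 𝔟 ≠ ⊤ → 𝔟 ∈ 𝒜 := by
    rintro _ ⟨I, hI, rfl⟩ 𝔟 hle htop
    let I' : Ideal (MvPolynomial ι 𝒪) := (𝔟.map (π I hI)).comap (Ideal.Quotient.mk I)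
    have hmemI' : ∀ e, e ∈ I' ↔ ∃ b ∈ 𝔟, π I hI b = Ideal.Quotient.mk I e := by
      intro e
      rw [Ideal.mem_comap, Ideal.mem_map_iff_of_surjective _ (hsurj I hI)]
    have hII' : I ≤ I' := by
      intro e he
      rw [hmemI']
      exact ⟨0, zero_mem _, by rw [map_zero, Ideal.Quotient.eq_zero_iff_mem.mpr he]⟩
    have hI'n : I' ≤ RingHom.ker χ := by
      intro e he
      obtain ⟨b, hb, hbe⟩ := (hmemI' e).mp he
      have h1 := maximalIdeal_le_varIdeal_sup ϖ hϖ i₀ _ (hA1 _ ⟨I, hI, rfl⟩)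
        (le_maximalIdeal htop hb)
      obtain ⟨v, hv, k, hk, rfl⟩ := Submodule.mem_sup.mp h1
      rw [map_add, (RingHom.mem_ker).mp hk, add_zero] at hbe
      have h2 := algHom_mem_pow ((RingHom.ker χ).map (Ideal.Quotient.mk I)) (π I hI)
        (fun s => by rw [hπ]; exact Ideal.mem_map_of_mem _ (hy s)) 1 v (by rwa [pow_one])
      rw [pow_one, hbe, Ideal.mem_quotient_iff_mem_sup] at h2
      exact (sup_le le_rfl (H.le I hI)) h2
    have hI'𝒦 : I' ∈ 𝒦 := H.up I hI I' hII' hI'n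
    refine ⟨I', hI'𝒦, ?_⟩
    ext p
    obtain ⟨e, he⟩ := Ideal.Quotient.mk_surjective (π I hI p)
    have h1 := hcompat I hI I' hI'𝒦 hII' p e he.symm
    rw [RingHom.mem_ker, h1, Ideal.Quotient.eq_zero_iff_mem, hmemI']
    constructor
    · intro hp
      exact ⟨p, hp, he.symm⟩
    · rintro ⟨b, hb, hbe⟩
      have h2 : p - b ∈ RingHom.ker (π I hI) := by
        rw [RingHom.mem_ker, map_sub, hbe, he, sub_self]
      have := add_mem (hle h2) hb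
      rwa [sub_add_cancel] at this
  have hAne : 𝒜.Nonempty := ⟨_, _, H.base, rfl⟩
  set J : Ideal (MvPowerSeries σ 𝒪) := sInf 𝒜 with hJdef
  have hJn : ∀ n : ℕ, J ⊔ varIdeal σ 𝒪 ^ (n + 1) ∈ 𝒜 :=
    sInf_sup_pow_mem 𝒜 ϖ hϖ i₀ hAne hA1 hA2 hA3 hAinf hAup
  choose In hIn𝒦 hIn using hJn
  have hJle : ∀ I hI, J ≤ RingHom.ker (π I hI) := fun I hI => sInf_le ⟨I, hI, rfl⟩
  have hJtop : J ≠ ⊤ := by
    intro h
    have := hJle _ H.base
    rw [h, top_le_iff] at this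
    exact hA3 _ ⟨_, H.base, rfl⟩ this
  have hJi₀ : MvPowerSeries.X i₀ - MvPowerSeries.C ϖ ∈ J := by
    rw [hJdef, Submodule.mem_sInf]
    exact hA1
  obtain ⟨hloc, hmax, hcomplete, hlocalhom, hressurj⟩ := quotient_props J hJtop ϖ hϖ i₀ hJi₀
  let πb : ∀ I (hI : I ∈ 𝒦), (MvPowerSeries σ 𝒪 ⧸ J) →ₐ[𝒪] MvPolynomial ι 𝒪 ⧸ I := fun I hI =>
    Ideal.Quotient.liftₐ J (π I hI) (fun a ha => hJle I hI ha)
  have hπb : ∀ I hI p, πb I hI (Ideal.Quotient.mk J p) = π I hI p := fun I hI p => rfl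
  have hmem : ∀ (n : ℕ) (r : MvPowerSeries σ 𝒪 ⧸ J),
      r ∈ maximalIdeal (MvPowerSeries σ 𝒪 ⧸ J) ^ (n + 1) ↔ πb (In n) (hIn𝒦 n) r = 0 := by
    intro n r
    obtain ⟨p, rfl⟩ := Ideal.Quotient.mk_surjective r
    rw [hmax, ← Ideal.map_pow, Ideal.mem_quotient_iff_mem_sup, sup_comm, hIn n, hπb,
      RingHom.mem_ker]
  have hInanti : ∀ n, In (n + 1) ≤ In n := by
    intro n
    apply hrefl _ (hIn𝒦 (n + 1)) _ (hIn𝒦 n)
    rw [← hIn, ← hIn]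
    exact sup_le_sup_left (Ideal.pow_le_pow_right (by omega)) _
  have hlim : ∀ e : MvPolynomial ι 𝒪, ∃ r : MvPowerSeries σ 𝒪 ⧸ J,
      ∀ n, πb (In n) (hIn𝒦 n) r = Ideal.Quotient.mk (In n) e := by
    intro e
    have hx : ∀ n, ∃ x, π (In n) (hIn𝒦 n) x = Ideal.Quotient.mk (In n) e :=
      fun n => hsurj _ _ _
    choose x hx using hx
    let z : ℕ → MvPowerSeries σ 𝒪 ⧸ J := fun n => Ideal.Quotient.mk J (x n)
    have hz : ∀ n, z (n + 1) - z n ∈ maximalIdeal (MvPowerSeries σ 𝒪 ⧸ J) ^ (n + 1) := by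
      intro n
      rw [hmem, map_sub, hπb, hπb, hx n,
        hcompat _ (hIn𝒦 (n + 1)) _ (hIn𝒦 n) (hInanti n) _ e (hx (n + 1)), sub_self]
    obtain ⟨r, hr⟩ := exists_limit_of_succ (maximalIdeal (MvPowerSeries σ 𝒪 ⧸ J)) z
      (fun n => Ideal.pow_le_pow_right (Nat.le_succ n) (hz n))
    refine ⟨r, fun n => ?_⟩
    have h1 : r - z n ∈ maximalIdeal (MvPowerSeries σ 𝒪 ⧸ J) ^ (n + 1) := by
      have := add_mem (hr (n + 1)) (hz n)
      rwa [sub_add_sub_cancel] at this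
    rw [hmem, map_sub, sub_eq_zero] at h1
    rw [h1, hπb, hx]
  choose r hr using fun i => hlim (MvPolynomial.X i)
  let u : MvPolynomial ι 𝒪 →ₐ[𝒪] MvPowerSeries σ 𝒪 ⧸ J := MvPolynomial.aeval r
  have hu : ∀ n, (πb (In n) (hIn𝒦 n)).comp u = Ideal.Quotient.mkₐ 𝒪 (In n) := by
    intro n
    apply MvPolynomial.algHom_ext
    intro i
    rw [AlgHom.comp_apply, MvPolynomial.aeval_X, hr]
    rfl
  have hu' : ∀ I hI, (πb I hI).comp u = Ideal.Quotient.mkₐ 𝒪 I := by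
    intro I hI
    obtain ⟨N, hN⟩ := hvar I hI
    have hle : In N ≤ I := by
      apply hrefl _ (hIn𝒦 N) _ hI
      rw [← hIn]
      exact sup_le (hJle I hI) ((Ideal.pow_le_pow_right (by omega)).trans hN)
    refine AlgHom.ext fun e => ?_
    obtain ⟨p, hp⟩ := Ideal.Quotient.mk_surjective (u e)
    have h1 : π (In N) (hIn𝒦 N) p = Ideal.Quotient.mk (In N) e := by
      rw [← hπb, hp]
      exact DFunLike.congr_fun (hu N) e
    have h2 := hcompat _ (hIn𝒦 N) I hI hle p e h1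
    rw [AlgHom.comp_apply, ← hp, hπb, h2]
    rfl
  refine ⟨MvPowerSeries σ 𝒪 ⧸ J, inferInstance, hloc, inferInstance, hcomplete, inferInstance,
    hlocalhom, u, hressurj, ?_, ?_, ?_⟩
  · intro n
    have : RingHom.ker ((Ideal.Quotient.mkₐ 𝒪
        (maximalIdeal (MvPowerSeries σ 𝒪 ⧸ J) ^ (n + 1))).comp u) = In n := by
      ext e
      rw [RingHom.mem_ker, AlgHom.comp_apply, Ideal.Quotient.mkₐ_eq_mk,
        Ideal.Quotient.eq_zero_iff_mem, hmem]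
      have := DFunLike.congr_fun (hu n) e
      rw [AlgHom.comp_apply] at this
      rw [this]
      exact Ideal.Quotient.eq_zero_iff_mem
    rw [this]
    exact hIn𝒦 n
  · intro n a
    obtain ⟨r', rfl⟩ := Ideal.Quotient.mk_surjective a
    obtain ⟨e, he⟩ := Ideal.Quotient.mk_surjective (πb (In n) (hIn𝒦 n) r')
    refine ⟨e, ?_⟩
    show Ideal.Quotient.mk _ (u e) = Ideal.Quotient.mk _ r'
    rw [Ideal.Quotient.eq, hmem, map_sub, ← he, sub_eq_zero]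
    exact DFunLike.congr_fun (hu n) e
  · intro I hI
    exact ⟨πb I hI, hu' I hI⟩

end Main

end Fermat.Agent.S53Aux
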