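import Fermat.Statements.S57
import Fermat.Agent.S57Aux.Free
import Fermat.Agent.S57Aux.PowerSeries

set_option autoImplicit false
open Algebra Algebra.PatchingLevel

namespace Fermat.Agent.S57Aux

open RingTheory.Sequence IsLocalRing TensorProduct

lemma isWeaklyRegular_pi {A : Type} [CommRing A] (d : ℕ) (ys : List A)
    (h : IsWeaklyRegular A ys) : IsWeaklyRegular (Fin d → A) ys :=
  ((TensorProduct.rid A (Fin d → A)).isWeaklyRegular_congr ys).mp
    (h.isWeaklyRegular_lTensor (M₂ := Fin d → A))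

lemma isWeaklyRegular_map_of_basis {A B : Type} [CommRing A] [CommRing B] (φ : A →+* B)
    {N : Type} [AddCommGroup N] [Module B N] {d : ℕ} (b : Fin d → N)
    (hspan : ∀ x : N, ∃ c : Fin d → A, x = ∑ i, φ (c i) • b i)
    (hrel : ∀ c : Fin d → A, ∑ i, φ (c i) • b i = 0 ↔ ∀ i, c i = 0)
    (ys : List A) (h : IsWeaklyRegular A ys) : IsWeaklyRegular N (ys.map φ) := by
  let f : (Fin d → A) →+ N :=
    { toFun := fun c => ∑ i, φ (c i) • b i
      map_zero' := by simp
      map_add' := by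
        intro c c'
        simp [add_smul, Finset.sum_add_distrib] }
  have hf : Function.Bijective f := by
    constructor
    · rw [injective_iff_map_eq_zero]
      intro c hc
      funext i
      exact (hrel c).mp hc i
    · intro x
      obtain ⟨c, hc⟩ := hspan x
      exact ⟨c, hc.symm⟩
  let e : (Fin d → A) ≃+ N := AddEquiv.ofBijective f hf
  refine (AddEquiv.isWeaklyRegular_congr (e := e) (as := ys) (bs := ys.map φ)
    (List.forall₂_map_right_iff.mpr (List.forall₂_same.mpr fun r _ x => ?_))).mp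
    (isWeaklyRegular_pi d ys h)
  change ∑ i, φ ((r • x) i) • b i = φ r • ∑ i, φ (x i) • b i
  simp [Finset.smul_sum, mul_smul]

end Fermat.Agent.S57Aux

namespace Fermat.Agent.S57

open Fermat.Agent.S57Aux RingTheory.Sequence IsLocalRing

theorem result
    {𝒪 : Type} [CommRing 𝒪] [IsDomain 𝒪] [IsDiscreteValuationRing 𝒪]
    {r : ℕ} {R : Type} [CommRing R] [Algebra 𝒪 R]
    {M : Type} [AddCommGroup M] [Module R M] [Nontrivial M]
    (L : Algebra.PatchingLevel 𝒪 r R M ⊥) :
    Module.Free R M ∧ Module.annihilator R M = ⊥ ∧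
      RingHom.ker L.ψ = Ideal.span (Set.range fun i : Fin r => L.φ (MvPowerSeries.X i)) := by
  classical
  obtain ⟨ϖ, hϖ⟩ := IsDiscreteValuationRing.exists_irreducible 𝒪
  have hmax𝒪 : maximalIdeal 𝒪 = Ideal.span {ϖ} := hϖ.maximalIdeal_eq
  have hϖreg : IsSMulRegular 𝒪 ϖ := (IsRegular.of_ne_zero hϖ.ne_zero).left.isSMulRegular
  set ys : List (MvPowerSeries (Fin r) 𝒪) :=
    List.ofFn (fun j : Fin r => (MvPowerSeries.X j : MvPowerSeries (Fin r) 𝒪)) ++
      [MvPowerSeries.C ϖ] with hys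
  have hreg : IsWeaklyRegular (MvPowerSeries (Fin r) 𝒪) ys := isWeaklyRegular_ofFn_X_append ϖ hϖreg
  have hmax : Ideal.ofList ys = maximalIdeal (MvPowerSeries (Fin r) 𝒪) :=
    ofList_ofFn_X_append ϖ hmax𝒪
  have hRnt : Nontrivial R := by
    by_contra h
    rw [not_nontrivial_iff_subsingleton] at h
    exact not_subsingleton M (Module.subsingleton R M)
  have hNnt : Nontrivial L.N := by
    obtain ⟨m, hm⟩ := exists_ne (0 : M)
    obtain ⟨x, hx⟩ := L.π_surjective m
    refine ⟨⟨x, 0, ?_⟩⟩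
    rintro rfl
    exact hm (by rw [← hx, map_zero])
  have hfin : Module.Finite (MvPowerSeries (Fin r) 𝒪) L.N := by
    refine Module.Finite.of_surjective (Fintype.linearCombination (MvPowerSeries (Fin r) 𝒪) L.b) ?_
    intro x
    obtain ⟨c, hc⟩ := L.b_span x
    exact ⟨fun i => L.φ (c i), by rw [Fintype.linearCombination_apply, hc]⟩
  have hzw : IsWeaklyRegular L.N (ys.map (L.φ : MvPowerSeries (Fin r) 𝒪 →+* MvPowerSeries (Fin r) 𝒪)) :=
    isWeaklyRegular_map_of_basis (L.φ : MvPowerSeries (Fin r) 𝒪 →+* MvPowerSeries (Fin r) 𝒪) L.b L.b_span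
      (fun c => by simpa using L.b_rel c) ys hreg
  have hzmem : ∀ z ∈ ys.map (L.φ : MvPowerSeries (Fin r) 𝒪 →+* MvPowerSeries (Fin r) 𝒪),
      z ∈ maximalIdeal (MvPowerSeries (Fin r) 𝒪) := by
    intro z hz
    rw [List.mem_map] at hz
    obtain ⟨y, hy, rfl⟩ := hz
    rw [hys, List.mem_append, List.mem_ofFn, List.mem_singleton] at hy
    rcases hy with ⟨i, rfl⟩ | rfl
    · rw [IsLocalRing.mem_maximalIdeal, mem_nonunits_iff]
      intro hu
      have := hu.map L.ψ
      rw [RingHom.coe_coe, L.ψ_φ_X i] at this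
      exact not_isUnit_zero this
    · have h1 : (MvPowerSeries.C ϖ : MvPowerSeries (Fin r) 𝒪) =
          algebraMap 𝒪 (MvPowerSeries (Fin r) 𝒪) ϖ := rfl
      rw [RingHom.coe_coe, h1, AlgHom.commutes, ← h1, ← hmax]
      exact Ideal.subset_span (by simp [hys])
  have hz : IsRegular L.N (ys.map (L.φ : MvPowerSeries (Fin r) 𝒪 →+* MvPowerSeries (Fin r) 𝒪)) :=
    IsRegular.of_isWeaklyRegular_of_mem_maximalIdeal L.N hzmem hzw
  have hfree : Module.Free (MvPowerSeries (Fin r) 𝒪) L.N :=
    free_of_isRegular ys hreg hmax L.N _ (by simp) hz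
  -- descent to `M`
  set I : Ideal (MvPowerSeries (Fin r) 𝒪) :=
    Ideal.span (Set.range fun i : Fin r => L.φ (MvPowerSeries.X i)) with hI
  let c := Module.Free.chooseBasis (MvPowerSeries (Fin r) 𝒪) L.N
  have hrepr : ∀ x ∈ I • (⊤ : Submodule (MvPowerSeries (Fin r) 𝒪) L.N), ∀ i, c.repr x i ∈ I := by
    intro x hx i
    refine Submodule.smul_induction_on hx ?_ ?_
    · intro a ha n _
      rw [map_smul, Finsupp.smul_apply, smul_eq_mul]
      exact Ideal.mul_mem_right _ _ ha
    · intro x y hx hy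
      rw [map_add, Finsupp.add_apply]
      exact Ideal.add_mem _ hx hy
  have hIker : I ≤ RingHom.ker L.ψ := by
    rw [hI, Ideal.span_le]
    rintro _ ⟨i, rfl⟩
    exact L.ψ_φ_X i
  have hπsum : ∀ f : Module.Free.ChooseBasisIndex (MvPowerSeries (Fin r) 𝒪) L.N →
      MvPowerSeries (Fin r) 𝒪, L.π (∑ i, f i • c i) = ∑ i, L.ψ (f i) • L.π (c i) := by
    intro f
    rw [map_sum]
    exact Finset.sum_congr rfl fun i _ => L.π_smul _ _
  have hli : LinearIndependent R (fun i => L.π (c i)) := by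
    rw [Fintype.linearIndependent_iff]
    intro g hg i
    choose f hf using fun i => L.ψ_surjective (g i)
    have h1 : L.π (∑ i, f i • c i) = 0 := by
      rw [hπsum, ← hg]
      exact Finset.sum_congr rfl fun i _ => by rw [hf]
    have h2 := hrepr _ ((L.ker_π _).mp h1) i
    rw [c.repr_sum_self] at h2
    rw [← hf i]
    exact hIker h2
  have hsp : ⊤ ≤ Submodule.span R (Set.range fun i => L.π (c i)) := by
    intro m _
    obtain ⟨x, rfl⟩ := L.π_surjective m
    rw [← c.sum_repr x, hπsum]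
    exact Submodule.sum_mem _ fun i _ =>
      Submodule.smul_mem _ _ (Submodule.subset_span ⟨i, rfl⟩)
  have hMfree : Module.Free R M := Module.Free.of_basis (Module.Basis.mk hli hsp)
  refine ⟨hMfree, Module.annihilator_eq_bot.mpr inferInstance, le_antisymm ?_ hIker⟩
  intro f hf
  have hne : Nonempty (Module.Free.ChooseBasisIndex (MvPowerSeries (Fin r) 𝒪) L.N) := by
    by_contra h
    rw [not_nonempty_iff] at h
    exact not_subsingleton L.N c.repr.toEquiv.subsingleton
  obtain ⟨i₀⟩ := hne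
  have h1 : L.π (f • c i₀) = 0 := by
    rw [L.π_smul, (RingHom.mem_ker).mp hf, zero_smul]
  have h2 := hrepr _ ((L.ker_π _).mp h1) i₀
  rwa [map_smul, Finsupp.smul_apply, c.repr_self, Finsupp.single_eq_same, smul_eq_mul,
    mul_one] at h2

end Fermat.Agent.S57
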